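import Mathlib
import Fermat.Agent.S52_asm.Quartic

set_option autoImplicit false

/-!
# The quartic form `D` and its roots modulo `p²`
-/

namespace Fermat.Agent.ZCurve

open Fermat.Agent.S52A (Qv Qd Qd_ne_zero)

section form

variable {R : Type*} [CommRing R]

/-- the discriminant form of the Hesse pencil -/
def Df (a b x y : R) : R := x ^ 4 - 6 * a * x ^ 2 * y ^ 2 - 8 * b * x * y ^ 3 - 3 * a ^ 2 * y ^ 4

lemma Df_mul (a b x y r : R) : Df a b (r * x) (r * y) = r ^ 4 * Df a b x y := by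
  simp only [Df]; ring

lemma Df_one (a b x : R) : Df a b x 1 = Qv a b x := by
  simp only [Df, Qv]; ring

lemma map_Df {S : Type*} [CommRing S] (f : R →+* S) (a b x y : R) :
    f (Df a b x y) = Df (f a) (f b) (f x) (f y) := by
  simp only [Df, map_sub, map_mul, map_pow, map_ofNat]

end form

lemma cast_Df (p : ℕ) (a b x y : ℤ) :
    ((Df a b x y : ℤ) : ZMod p) = Df (a : ZMod p) (b : ZMod p) (x : ZMod p) (y : ZMod p) := by
  have := map_Df (Int.castRingHom (ZMod p)) a b x y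
  simpa only [eq_intCast] using this

section field

variable {K : Type*} [Field K]

lemma Qv_div {a b x y : K} (hy : y ≠ 0) (h : Df a b x y = 0) : Qv a b (x / y) = 0 := by
  have e : Df a b x y = y ^ 4 * Df a b (x / y) 1 := by
    have := Df_mul a b (x / y) 1 y
    rw [mul_one, mul_div_cancel₀ _ hy] at this
    exact this
  rw [e, Df_one] at h
  exact (mul_eq_zero.mp h).resolve_left (pow_ne_zero _ hy)

/-- the set of roots has at most four elements -/
lemma card_roots_le [Fintype K] [DecidableEq K] (a b : K) :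
    (Finset.univ.filter (fun t : K => Qv a b t = 0)).card ≤ 4 := by
  let P : Polynomial K := Polynomial.X ^ 4 - Polynomial.C (6 * a) * Polynomial.X ^ 2
    - Polynomial.C (8 * b) * Polynomial.X - Polynomial.C (3 * a ^ 2)
  have hdeg : P.natDegree = 4 := by
    simp only [P]; compute_degree!
  have hP : P ≠ 0 := by
    intro h
    rw [h] at hdeg
    simp at hdeg
  have hsub : Finset.univ.filter (fun t : K => Qv a b t = 0) ⊆ P.roots.toFinset := by
    intro t ht
    rw [Finset.mem_filter] at ht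
    rw [Multiset.mem_toFinset, Polynomial.mem_roots hP, Polynomial.IsRoot.def]
    simp only [P, Polynomial.eval_sub, Polynomial.eval_mul, Polynomial.eval_pow, Polynomial.eval_X,
      Polynomial.eval_C]
    exact ht.2
  calc _ ≤ P.roots.toFinset.card := Finset.card_le_card hsub
    _ ≤ Multiset.card P.roots := Multiset.toFinset_card_le _
    _ ≤ P.natDegree := P.card_roots'
    _ = 4 := hdeg

end field

/-- a prime is good for `(a, b)` -/
def GoodP (a b : ℤ) (p : ℕ) : Prop := ¬ (p : ℤ) ∣ 6 * (a ^ 3 - b ^ 2)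

lemma GoodP.two {a b : ℤ} {p : ℕ} (h : GoodP a b p) : (2 : ZMod p) ≠ 0 := by
  intro h0
  apply h
  have h2 : ((2 : ℤ) : ZMod p) = 0 := by exact_mod_cast h0
  rw [ZMod.intCast_zmod_eq_zero_iff_dvd] at h2
  exact Dvd.dvd.mul_right (h2.trans ⟨3, by norm_num⟩) _

lemma GoodP.three {a b : ℤ} {p : ℕ} (h : GoodP a b p) : (3 : ZMod p) ≠ 0 := by
  intro h0
  apply h
  have h2 : ((3 : ℤ) : ZMod p) = 0 := by exact_mod_cast h0
  rw [ZMod.intCast_zmod_eq_zero_iff_dvd] at h2
  exact Dvd.dvd.mul_right (h2.trans ⟨2, by norm_num⟩) _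

lemma GoodP.ne {a b : ℤ} {p : ℕ} (h : GoodP a b p) : (a : ZMod p) ^ 3 ≠ (b : ZMod p) ^ 2 := by
  intro h0
  apply h
  have h2 : ((a ^ 3 - b ^ 2 : ℤ) : ZMod p) = 0 := by push_cast; rw [h0, sub_self]
  rw [ZMod.intCast_zmod_eq_zero_iff_dvd] at h2
  exact Dvd.dvd.mul_left h2 _

/-- if `p ∣ D(x, y)` and `x, y` are coprime then `p ∤ y` -/
lemma not_dvd_y {a b x y : ℤ} {p : ℕ} (hp : p.Prime) (hxy : IsCoprime x y)
    (h : (p : ℤ) ∣ Df a b x y) : ¬ (p : ℤ) ∣ y := by
  intro hy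
  have hp' := Nat.prime_iff_prime_int.mp hp
  have h1 : (p : ℤ) ∣ x ^ 4 := by
    have e : x ^ 4 = Df a b x y + y * (6 * a * x ^ 2 * y + 8 * b * x * y ^ 2 + 3 * a ^ 2 * y ^ 3) := by
      simp only [Df]; ring
    rw [e]
    exact dvd_add h (Dvd.dvd.mul_right hy _)
  have h2 := hp'.dvd_of_dvd_pow h1
  exact hp'.not_isUnit (hxy.isUnit_of_dvd' h2 hy)

/-- uniqueness of roots modulo `p²` -/
lemma hensel_unique {a b x y x' y' : ℤ} {p : ℕ} [hp : Fact p.Prime] (hg : GoodP a b p)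
    (hy : ¬ (p : ℤ) ∣ y) (hy' : ¬ (p : ℤ) ∣ y') (h : ((p : ℤ) ^ 2) ∣ Df a b x y)
    (h' : ((p : ℤ) ^ 2) ∣ Df a b x' y')
    (he : (x : ZMod p) / (y : ZMod p) = (x' : ZMod p) / (y' : ZMod p)) :
    ((p : ℤ) ^ 2) ∣ x * y' - x' * y := by
  have hp' := Nat.prime_iff_prime_int.mp hp.out
  have hyz : (y : ZMod p) ≠ 0 := by rwa [Ne, ZMod.intCast_zmod_eq_zero_iff_dvd]
  have hyz' : (y' : ZMod p) ≠ 0 := by rwa [Ne, ZMod.intCast_zmod_eq_zero_iff_dvd]
  rw [div_eq_div_iff hyz hyz'] at he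
  set u := x * y' with hu
  set v := x' * y with hv
  set Y := y * y' with hY
  have h1 : ((p : ℤ) ^ 2) ∣ Df a b u Y := by
    have : Df a b u Y = y' ^ 4 * Df a b x y := by rw [← Df_mul, hu, hY]; congr 1 <;> ring
    rw [this]; exact Dvd.dvd.mul_left h _
  have h2 : ((p : ℤ) ^ 2) ∣ Df a b v Y := by
    have : Df a b v Y = y ^ 4 * Df a b x' y' := by rw [← Df_mul, hv, hY]; congr 1; ring
    rw [this]; exact Dvd.dvd.mul_left h' _
  set G := u ^ 3 + u ^ 2 * v + u * v ^ 2 + v ^ 3 - 6 * a * Y ^ 2 * (u + v) - 8 * b * Y ^ 3 with hG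
  have h3 : Df a b u Y - Df a b v Y = (u - v) * G := by
    simp only [Df, hG]; ring
  have h4 : ((p : ℤ) ^ 2) ∣ (u - v) * G := by rw [← h3]; exact dvd_sub h1 h2
  have h5 : ¬ (p : ℤ) ∣ G := by
    intro h5
    rw [← ZMod.intCast_zmod_eq_zero_iff_dvd] at h5
    have huv : (v : ZMod p) = (u : ZMod p) := by
      rw [hu, hv]; push_cast; exact he.symm
    have hYz : (Y : ZMod p) ≠ 0 := by rw [hY]; push_cast; exact mul_ne_zero hyz hyz'
    have hDz : Df (a : ZMod p) (b : ZMod p) (u : ZMod p) (Y : ZMod p) = 0 := by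
      rw [← cast_Df, ZMod.intCast_zmod_eq_zero_iff_dvd]
      exact (dvd_pow_self _ two_ne_zero).trans h1
    have hr := Qv_div hYz hDz
    apply Qd_ne_zero hg.two hg.three hg.ne hr
    have e : (G : ZMod p) = (Y : ZMod p) ^ 3 * Qd (a : ZMod p) (b : ZMod p) ((u : ZMod p) / (Y : ZMod p)) := by
      rw [hG]
      push_cast
      rw [huv]
      simp only [Qd]
      field_simp
      ring
    rw [e] at h5
    exact (mul_eq_zero.mp h5).resolve_left (pow_ne_zero _ hYz)
  have h6 : IsCoprime ((p : ℤ) ^ 2) G := by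
    apply IsCoprime.pow_left
    exact (Prime.coprime_iff_not_dvd hp').mpr h5
  exact h6.dvd_of_dvd_mul_right h4

/-- coprime nonnegative pairs are determined by their ratio -/
lemma eq_of_ratio {x y x' y' : ℤ} (h : IsCoprime x y) (h' : IsCoprime x' y') (hx : 0 ≤ x)
    (hy : 0 ≤ y) (hx' : 0 ≤ x') (hy' : 0 ≤ y') (e : x * y' = x' * y) : x = x' ∧ y = y' := by
  have h1 : x ∣ x' := h.dvd_of_dvd_mul_right ⟨y', e.symm⟩
  have h2 : x' ∣ x := h'.dvd_of_dvd_mul_right ⟨y, e⟩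
  have h3 : y ∣ y' := by
    apply h.symm.dvd_of_dvd_mul_left
    exact ⟨x', by rw [e]; ring⟩
  have h4 : y' ∣ y := by
    apply h'.symm.dvd_of_dvd_mul_left
    exact ⟨x, by rw [← e]; ring⟩
  exact ⟨Int.dvd_antisymm hx hx' h1 h2, Int.dvd_antisymm hy hy' h3 h4⟩

end Fermat.Agent.ZCurve
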