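import Mathlib
import Fermat.Agent.S52.Forms
import Fermat.Agent.FrobE.Add
import Fermat.Agent.S51_lib.Torsion
import Fermat.Agent.ZCurve.SieveAux

set_option autoImplicit false

/-!
# The Hesse pencil: an explicit isomorphism of 3-torsion
-/

namespace Fermat.Agent.ZCurve

open WeierstrassCurve WeierstrassCurve.Affine Fermat.Agent.S51.Torsion Fermat.Agent.FrobE

section ring

variable {R : Type*} [CommRing R]

/-- the covariant giving `c₄` -/
def C4f (a b x y : R) : R := a * x ^ 4 + 4 * b * x ^ 3 * y + 6 * a ^ 2 * x ^ 2 * y ^ 2 +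
  4 * a * b * x * y ^ 3 - (3 * a ^ 3 - 4 * b ^ 2) * y ^ 4

/-- the covariant giving `c₆` -/
def C6f (a b x y : R) : R := b * x ^ 6 + 6 * a ^ 2 * x ^ 5 * y + 15 * a * b * x ^ 4 * y ^ 2 +
  20 * b ^ 2 * x ^ 3 * y ^ 3 + 15 * a ^ 2 * b * x ^ 2 * y ^ 4 +
  6 * (3 * a ^ 4 - 2 * a * b ^ 2) * x * y ^ 5 + (9 * a ^ 3 * b - 8 * b ^ 3) * y ^ 6

lemma form_id (a b x y : R) :
    C4f a b x y ^ 3 - C6f a b x y ^ 2 = (a ^ 3 - b ^ 2) * Df a b x y ^ 3 := by
  simp only [C4f, C6f, Df]; ring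

lemma map_C4f {S : Type*} [CommRing S] (f : R →+* S) (a b x y : R) :
    f (C4f a b x y) = C4f (f a) (f b) (f x) (f y) := by
  simp only [C4f, map_sub, map_add, map_mul, map_pow, map_ofNat]

lemma map_C6f {S : Type*} [CommRing S] (f : R →+* S) (a b x y : R) :
    f (C6f a b x y) = C6f (f a) (f b) (f x) (f y) := by
  simp only [C6f, map_sub, map_add, map_mul, map_pow, map_ofNat]

/-- numerator -/
def Nn (a b p q x : R) : R := (3 * p ^ 3 - 9 * a * p * q ^ 2 - 6 * b * q ^ 3) * x -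
  27 * q * (a * p ^ 2 + 2 * b * p * q + a ^ 2 * q ^ 2)

/-- denominator -/
def dd (p q x : R) : R := 3 * p - q * x

/-- the 3-division polynomial of the short model -/
def psi3 (a b x : R) : R := 3 * x ^ 4 - 162 * a * x ^ 2 - 648 * b * x - 729 * a ^ 2

lemma id_one (a b p q x : R) : 9 * Df a b p q ^ 2 * (x ^ 3 - 27 * a * x - 54 * b) * dd p q x +
    3 * q * Df a b p q ^ 2 * psi3 a b x = Nn a b p q x ^ 3 -
      27 * C4f a b p q * Nn a b p q x * dd p q x ^ 2 - 54 * C6f a b p q * dd p q x ^ 3 := by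
  simp only [Df, dd, psi3, Nn, C4f, C6f]; ring

lemma id_two (a b p q x : R) : 3 * Nn a b p q x ^ 4 -
    162 * C4f a b p q * Nn a b p q x ^ 2 * dd p q x ^ 2 -
    648 * C6f a b p q * Nn a b p q x * dd p q x ^ 3 - 729 * C4f a b p q ^ 2 * dd p q x ^ 4 =
    81 * Df a b p q ^ 3 * psi3 a b x := by
  simp only [Df, dd, psi3, Nn, C4f, C6f]; ring

lemma id_three (a b p q x : R) : 243 * Df a b p q - q ^ 4 * psi3 a b x =
    dd p q x * (3 * (3 * p + q * x) * (9 * p ^ 2 + q ^ 2 * x ^ 2) -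
      162 * a * q ^ 2 * (3 * p + q * x) - 648 * b * q ^ 3) := by
  simp only [Df, dd, psi3]; ring

lemma id_four (a b p q x₁ x₂ : R) : Nn a b p q x₁ * dd p q x₂ - Nn a b p q x₂ * dd p q x₁ =
    9 * Df a b p q * (x₁ - x₂) := by
  simp only [Df, dd, Nn]; ring

end ring

section field

variable {K : Type*} [Field K]

/-- `W` is the curve `Y² = X³ - 27 a X - 54 b` -/
structure IsSh (W : Affine K) (a b : K) : Prop where
  a₁ : W.a₁ = 0
  a₂ : W.a₂ = 0
  a₃ : W.a₃ = 0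
  a₄ : W.a₄ = -27 * a
  a₆ : W.a₆ = -54 * b

lemma IsSh.equation_iff {W : Affine K} {a b : K} (h : IsSh W a b) (X Y : K) :
    W.Equation X Y ↔ Y ^ 2 = X ^ 3 - 27 * a * X - 54 * b := by
  rw [Affine.equation_iff, h.a₁, h.a₂, h.a₃, h.a₄, h.a₆]
  constructor <;> intro e <;> linear_combination e

lemma IsSh.P3 {W : Affine K} {a b : K} (h : IsSh W a b) (x : K) : P3 W x = psi3 a b x := by
  simp only [Fermat.Agent.S51.Torsion.P3, psi3, b₂, b₄, b₆, b₈, h.a₁, h.a₂, h.a₃, h.a₄, h.a₆]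
  ring

variable {a b p q : K} (h3 : (3 : K) ≠ 0) (hD : Df a b p q ≠ 0)

include h3 hD

lemma dd_ne_zero {x : K} (hx : psi3 a b x = 0) : dd p q x ≠ 0 := by
  intro h
  have e := id_three a b p q x
  rw [hx, h, mul_zero, sub_zero, zero_mul] at e
  rcases mul_eq_zero.mp e with e | e
  · exact pow_ne_zero 5 h3 (by rw [← e]; norm_num)
  · exact hD e

/-- image abscissa -/
abbrev Xn (a b p q x : K) : K := Nn a b p q x / dd p q x

/-- image ordinate -/
abbrev Yn (a b p q x y : K) : K := 3 * Df a b p q * y / dd p q x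

lemma Xn_ne {x₁ x₂ : K} (h₁ : psi3 a b x₁ = 0) (h₂ : psi3 a b x₂ = 0) (h : x₁ ≠ x₂) :
    Xn a b p q x₁ ≠ Xn a b p q x₂ := by
  intro e
  have d₁ := dd_ne_zero h3 hD h₁
  have d₂ := dd_ne_zero h3 hD h₂
  rw [div_eq_div_iff d₁ d₂, ← sub_eq_zero, id_four] at e
  rcases mul_eq_zero.mp e with e | e
  · rcases mul_eq_zero.mp e with e | e
    · exact pow_ne_zero 2 h3 (by rw [← e]; norm_num)
    · exact hD e
  · exact h (sub_eq_zero.mp e)

lemma image_eq {x y : K} (hx : psi3 a b x = 0) (hy : y ^ 2 = x ^ 3 - 27 * a * x - 54 * b) :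
    Yn a b p q x y ^ 2 = Xn a b p q x ^ 3 - 27 * C4f a b p q * Xn a b p q x -
      54 * C6f a b p q := by
  have d := dd_ne_zero h3 hD hx
  have e := id_one a b p q x
  rw [hx, mul_zero, add_zero] at e
  simp only [Xn, Yn]
  field_simp
  rw [hy]
  linear_combination e

lemma psi3_image {x : K} (hx : psi3 a b x = 0) :
    psi3 (C4f a b p q) (C6f a b p q) (Xn a b p q x) = 0 := by
  have d := dd_ne_zero h3 hD hx
  have e := id_two a b p q x
  rw [hx, mul_zero] at e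
  simp only [Xn, psi3]
  have : 3 * (Nn a b p q x / dd p q x) ^ 4 - 162 * C4f a b p q * (Nn a b p q x / dd p q x) ^ 2 -
      648 * C6f a b p q * (Nn a b p q x / dd p q x) - 729 * C4f a b p q ^ 2 =
      (3 * Nn a b p q x ^ 4 - 162 * C4f a b p q * Nn a b p q x ^ 2 * dd p q x ^ 2 -
        648 * C6f a b p q * Nn a b p q x * dd p q x ^ 3 - 729 * C4f a b p q ^ 2 * dd p q x ^ 4) /
        dd p q x ^ 4 := by
    field_simp
  rw [this, e, zero_div]

end field

section add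

variable {K : Type*} [Field K] {W : Affine K}

/-- three collinear points with distinct abscissas -/
lemma add_of_collinear [DecidableEq K] {a b : K} (hW : IsSh W a b) {x₁ y₁ x₂ y₂ x₃ y₃ : K}
    (h₁ : W.Nonsingular x₁ y₁) (h₂ : W.Nonsingular x₂ y₂) (h₃ : W.Nonsingular x₃ y₃)
    (h12 : x₁ ≠ x₂) (h13 : x₁ ≠ x₃) (h23 : x₂ ≠ x₃)
    (hcol : (y₁ - y₂) * (x₁ - x₃) = (y₁ + y₃) * (x₁ - x₂)) :
    Point.some x₁ y₁ h₁ + Point.some x₂ y₂ h₂ = Point.some x₃ y₃ h₃ := by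
  have e₁ := (hW.equation_iff _ _).mp h₁.1
  have e₂ := (hW.equation_iff _ _).mp h₂.1
  have e₃ := (hW.equation_iff _ _).mp h₃.1
  have n12 := sub_ne_zero.mpr h12
  have n13 := sub_ne_zero.mpr h13
  have n23 := sub_ne_zero.mpr h23
  have hxy : ¬(x₁ = x₂ ∧ y₁ = W.negY x₂ y₂) := fun h => h12 h.1
  have hs := isSlope_slope h₁.1 h₂.1 hxy
  set l := W.slope x₁ x₂ y₁ y₂ with hl
  have r1 := hs.r1
  have r2 : l * (x₁ - x₃) = y₁ + y₃ := by
    apply mul_right_cancel₀ n12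
    rw [← hcol, ← r1]; ring
  apply hs.add h₁ h₂ h₃ hxy
  · rw [hW.a₁, hW.a₂]
    apply mul_left_cancel₀ n23
    have t1 : (x₁ - x₂) * (x₁ ^ 2 + x₁ * x₂ + x₂ ^ 2 - 27 * a - l * (y₁ + y₂)) = 0 := by
      linear_combination e₁ * (-1) + e₂ - (y₁ + y₂) * r1
    have t2 : (x₁ - x₃) * (x₁ ^ 2 + x₁ * x₃ + x₃ ^ 2 - 27 * a - l * (y₁ - y₃)) = 0 := by
      linear_combination e₁ * (-1) + e₃ - (y₁ - y₃) * r2
    have t1' := (mul_eq_zero.mp t1).resolve_left n12
    have t2' := (mul_eq_zero.mp t2).resolve_left n13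
    linear_combination t1' - t2' - l * r2 + l * r1
  · rw [hW.a₁, hW.a₃]
    linear_combination -r2

end add

end Fermat.Agent.ZCurve
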