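import Mathlib
import Fermat.Agent.ZCurve.Pencil

set_option autoImplicit false

/-!
# Local choices
-/

namespace Fermat.Agent.ZCurve

open Fermat.Agent.S52A (Qv Qd Qd_ne_zero)

section cast

lemma cast_C4f (p : ℕ) (a b x y : ℤ) :
    ((C4f a b x y : ℤ) : ZMod p) = C4f (a : ZMod p) (b : ZMod p) (x : ZMod p) (y : ZMod p) := by
  have := map_C4f (Int.castRingHom (ZMod p)) a b x y
  simpa only [eq_intCast] using this

lemma cast_C6f (p : ℕ) (a b x y : ℤ) :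
    ((C6f a b x y : ℤ) : ZMod p) = C6f (a : ZMod p) (b : ZMod p) (x : ZMod p) (y : ZMod p) := by
  have := map_C6f (Int.castRingHom (ZMod p)) a b x y
  simpa only [eq_intCast] using this

lemma cast_eq_of_dvd {m : ℕ} {x x' : ℤ} (h : (m : ℤ) ∣ x - x') : (x : ZMod m) = (x' : ZMod m) := by
  have := (ZMod.intCast_zmod_eq_zero_iff_dvd _ _).mpr h
  push_cast at this
  exact sub_eq_zero.mp this

lemma dvd_of_cast_eq {m : ℕ} {x x' : ℤ} (h : (x : ZMod m) = (x' : ZMod m)) : (m : ℤ) ∣ x - x' := by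
  rw [← ZMod.intCast_zmod_eq_zero_iff_dvd]
  push_cast
  rw [h, sub_self]

variable {m : ℕ} {a b x y x' y' : ℤ} (hx : (m : ℤ) ∣ x - x') (hy : (m : ℤ) ∣ y - y')

include hx hy

lemma Df_congr : (m : ℤ) ∣ Df a b x y - Df a b x' y' := by
  apply dvd_of_cast_eq
  rw [cast_Df, cast_Df, cast_eq_of_dvd hx, cast_eq_of_dvd hy]

lemma C4f_congr : (m : ℤ) ∣ C4f a b x y - C4f a b x' y' := by
  apply dvd_of_cast_eq
  rw [cast_C4f, cast_C4f, cast_eq_of_dvd hx, cast_eq_of_dvd hy]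

lemma C6f_congr : (m : ℤ) ∣ C6f a b x y - C6f a b x' y' := by
  apply dvd_of_cast_eq
  rw [cast_C6f, cast_C6f, cast_eq_of_dvd hx, cast_eq_of_dvd hy]

end cast

section val

variable {p : ℕ} [hp : Fact p.Prime]

lemma padicValInt_eq_one {z : ℤ} (h1 : (p : ℤ) ∣ z) (h2 : ¬ (p : ℤ) ^ 2 ∣ z) :
    padicValInt p z = 1 := by
  have hz : z ≠ 0 := by rintro rfl; exact h2 (dvd_zero _)
  have e1 : 1 ≤ padicValInt p z := by
    have := (padicValInt_dvd_iff 1 z).mp (by rwa [pow_one])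
    exact this.resolve_left hz
  have e2 : ¬ 2 ≤ padicValInt p z := by
    intro h
    exact h2 ((padicValInt_dvd_iff 2 z).mpr (Or.inr h))
  omega

omit hp in
lemma not_dvd_of_congr {z z' : ℤ} (h : (p : ℤ) ∣ z - z') (h' : ¬ (p : ℤ) ∣ z') :
    ¬ (p : ℤ) ∣ z := by
  intro h1
  apply h'
  have := dvd_sub h1 h
  rwa [sub_sub_cancel] at this

end val

/-! ### the prime 2 -/

section two

lemma dvd_of_odd_mul (n : ℕ) {m a : ℤ} {j : ℕ} (ha : Odd a) (h : (2 : ℤ) ^ n ∣ a ^ j * m) :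
    (2 : ℤ) ^ n ∣ m := by
  have h1 : IsCoprime ((2 : ℤ) ^ n) (a ^ j) := by
    apply IsCoprime.pow
    obtain ⟨k, hk⟩ := ha
    exact ⟨-k, 1, by rw [hk]; ring⟩
  exact h1.dvd_of_dvd_mul_left h

lemma typeII {a b e x y k : ℤ} (ha : a ^ 3 = b ^ 2 + 256 * e) (hX : a * x = 3 * b * y + 8 * k)
    (ha1 : Odd a) (hb : b % 4 = 3) (hy : Odd y) (hk : Odd k) :
    ∃ d' c4' c6' : ℤ, Df a b x y = 512 * d' ∧ Odd d' ∧ C4f a b x y = 256 * c4' ∧
      C6f a b x y = 4096 * c6' ∧ c6' % 4 = 3 := by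
  have hbo : Odd b := Int.odd_iff.mpr (by omega)
  have hb2k : Odd (b * y + 2 * k) := (hbo.mul hy).add_even ⟨k, by ring⟩
  have eD : a ^ 4 * Df a b x y = 512 * ((b * y + 2 * k) ^ 3 * k + 2 * ((-21)*b^2*y^4*e +
      (-88)*b*y^3*k*e + (-192)*y^4*e^2 + (-96)*y^2*k^2*e)) := by
    have h1 : a ^ 4 * Df a b x y = (a * x) ^ 4 - 6 * a ^ 3 * (a * x) ^ 2 * y ^ 2 -
      8 * a ^ 3 * b * (a * x) * y ^ 3 - 3 * (a ^ 3) ^ 2 * y ^ 4 := by
      simp only [Df]; ring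
    rw [h1, hX, ha]; ring
  have e4 : a ^ 3 * C4f a b x y = 256 * ((b * y + 2 * k) ^ 4 + 2 * (32*b^2*y^4*e +
      160*b*y^3*k*e + (-384)*y^4*e^2 + 192*y^2*k^2*e)) := by
    have h1 : a ^ 3 * C4f a b x y = (a * x) ^ 4 + 4 * b * (a * x) ^ 3 * y +
      6 * a ^ 3 * (a * x) ^ 2 * y ^ 2 + 4 * a ^ 3 * b * (a * x) * y ^ 3 -
      a ^ 3 * (3 * a ^ 3 - 4 * b ^ 2) * y ^ 4 := by
      simp only [C4f]; ring
    rw [h1, hX, ha]; ring
  have e6 : a ^ 6 * C6f a b x y = 4096 * (b * (b * y + 2 * k) ^ 6 + 4 * (56*b^5*y^6*e +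
      600*b^4*y^5*k*e + 1120*b^3*y^6*e^2 + 2640*b^3*y^4*k^2*e + 4224*b^2*y^5*k*e^2 +
      5920*b^2*y^3*k^3*e + 64512*b*y^6*e^3 + 3840*b*y^4*k^2*e^2 + 6720*b*y^2*k^4*e +
      147456*y^5*k*e^3 + 3072*y*k^5*e)) := by
    have h1 : a ^ 6 * C6f a b x y = b * (a * x) ^ 6 + 6 * a ^ 3 * (a * x) ^ 5 * y +
      15 * a ^ 3 * b * (a * x) ^ 4 * y ^ 2 + 20 * a ^ 3 * b ^ 2 * (a * x) ^ 3 * y ^ 3 +
      15 * (a ^ 3) ^ 2 * b * (a * x) ^ 2 * y ^ 4 +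
      6 * (3 * (a ^ 3) ^ 3 - 2 * (a ^ 3) ^ 2 * b ^ 2) * (a * x) * y ^ 5 +
      (9 * (a ^ 3) ^ 3 * b - 8 * (a ^ 3) ^ 2 * b ^ 3) * y ^ 6 := by
      simp only [C6f]; ring
    rw [h1, hX, ha]; ring
  obtain ⟨d', hd'⟩ : (2 : ℤ) ^ 9 ∣ Df a b x y :=
    dvd_of_odd_mul 9 (j := 4) ha1 (by rw [eD]; exact Dvd.dvd.mul_right (by norm_num) _)
  obtain ⟨c4', hc4'⟩ : (2 : ℤ) ^ 8 ∣ C4f a b x y :=
    dvd_of_odd_mul 8 (j := 3) ha1 (by rw [e4]; exact Dvd.dvd.mul_right (by norm_num) _)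
  obtain ⟨c6', hc6'⟩ : (2 : ℤ) ^ 12 ∣ C6f a b x y :=
    dvd_of_odd_mul 12 (j := 6) ha1 (by rw [e6]; exact Dvd.dvd.mul_right (by norm_num) _)
  norm_num at hd' hc4' hc6'
  refine ⟨d', c4', c6', hd', ?_, hc4', hc6', ?_⟩
  · have h1 : a ^ 4 * d' = (b * y + 2 * k) ^ 3 * k + 2 * ((-21)*b^2*y^4*e +
      (-88)*b*y^3*k*e + (-192)*y^4*e^2 + (-96)*y^2*k^2*e) := by
      have : 512 * (a ^ 4 * d') = 512 * ((b * y + 2 * k) ^ 3 * k + 2 * ((-21)*b^2*y^4*e +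
        (-88)*b*y^3*k*e + (-192)*y^4*e^2 + (-96)*y^2*k^2*e)) := by
        rw [← eD, hd']; ring
      exact mul_left_cancel₀ (by norm_num) this
    have h2 : Odd (a ^ 4 * d') := by
      rw [h1]
      exact ((hb2k.pow).mul hk).add_even (even_two_mul _)
    exact (Int.odd_mul.mp h2).2
  · obtain ⟨R, hR⟩ : ∃ R : ℤ, a ^ 6 * c6' = b * (b * y + 2 * k) ^ 6 + 4 * R := by
      refine ⟨56*b^5*y^6*e + 600*b^4*y^5*k*e + 1120*b^3*y^6*e^2 + 2640*b^3*y^4*k^2*e +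
          4224*b^2*y^5*k*e^2 + 5920*b^2*y^3*k^3*e + 64512*b*y^6*e^3 + 3840*b*y^4*k^2*e^2 +
          6720*b*y^2*k^4*e + 147456*y^5*k*e^3 + 3072*y*k^5*e, ?_⟩
      apply mul_left_cancel₀ (a := (4096 : ℤ)) (by norm_num)
      rw [← e6, hc6']; ring
    obtain ⟨m1, hm1⟩ : ∃ m1, a ^ 6 = 1 + 4 * m1 := by
      obtain ⟨k, hk⟩ := ha1
      refine ⟨16*k^6 + 48*k^5 + 60*k^4 + 40*k^3 + 15*k^2 + 3*k, ?_⟩
      rw [hk]; ring
    obtain ⟨m2, hm2⟩ : ∃ m2, (b * y + 2 * k) ^ 6 = 1 + 4 * m2 := by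
      obtain ⟨k, hk⟩ := hb2k
      refine ⟨16*k^6 + 48*k^5 + 60*k^4 + 40*k^3 + 15*k^2 + 3*k, ?_⟩
      rw [hk]; ring
    rw [hm1, hm2] at hR
    obtain ⟨w, hw⟩ : ∃ w, c6' = b + 4 * w := ⟨b * m2 + R - c6' * m1, by linear_combination hR⟩
    omega

/-- the outcome at 2 -/
def LocTwo (Δ a b x y : ℤ) : Prop := ∃ u c4 c6 Δ1 : ℤ, (u = 1 ∨ u = 4) ∧
  C4f a b x y = u ^ 4 * c4 ∧ C6f a b x y = u ^ 6 * c6 ∧ c6 % 4 = 3 ∧
  Df a b x y ^ 3 * Δ = u ^ 12 * Δ1 ∧ Odd (padicValInt 2 Δ1) ∧ ¬ (2 : ℤ) ^ 10 ∣ Df a b x y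

theorem local_two {Δ a b : ℤ} (h : a ^ 3 - b ^ 2 = 1728 * Δ) (hΔ : Δ ≠ 0) (h2 : 2 ∣ Δ)
    (hb : b % 4 = 3) : ∃ x0 y0 : ℕ, ¬ (2 ∣ x0 ∧ 2 ∣ y0) ∧ ∀ x y : ℤ, ((2 : ℕ) : ℤ) ^ 4 ∣ x - x0 →
      ((2 : ℕ) : ℤ) ^ 4 ∣ y - y0 → LocTwo Δ a b x y := by
  have hbo : Odd b := Int.odd_iff.mpr (by omega)
  have hao : Odd a := by
    have : Odd (a ^ 3) := by
      have e : a ^ 3 = b ^ 2 + 2 * (864 * Δ) := by linear_combination h
      rw [e]
      exact hbo.pow.add_even (even_two_mul _)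
    exact (Int.odd_pow' (by norm_num)).mp this
  by_cases hv : Odd (padicValInt 2 Δ)
  · refine ⟨1, 0, by norm_num, fun x y hx hy => ?_⟩
    have hx' : ((16 : ℕ) : ℤ) ∣ x - 1 := by
      have : ((2 : ℕ) : ℤ) ^ 4 = ((16 : ℕ) : ℤ) := by norm_num
      rw [← this]; exact_mod_cast hx
    have hy' : ((16 : ℕ) : ℤ) ∣ y - 0 := by
      have : ((2 : ℕ) : ℤ) ^ 4 = ((16 : ℕ) : ℤ) := by norm_num
      rw [← this]; exact_mod_cast hy
    have hD := Df_congr (a := a) (b := b) hx' hy'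
    have h6 := C6f_congr (a := a) (b := b) hx' hy'
    have e1 : Df a b 1 0 = 1 := by simp [Df]
    have e2 : C6f a b 1 0 = b := by simp [C6f]
    rw [e1] at hD
    rw [e2] at h6
    have hDo : ¬ (2 : ℤ) ∣ Df a b x y := by
      obtain ⟨r, hr⟩ := hD
      push_cast at hr
      omega
    have hD0 : Df a b x y ≠ 0 := by
      intro h0; rw [h0] at hDo; exact hDo (dvd_zero _)
    refine ⟨1, C4f a b x y, C6f a b x y, Df a b x y ^ 3 * Δ, Or.inl rfl, by ring, by ring, ?_,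
      by ring, ?_, fun h => hDo (dvd_trans (by norm_num) h)⟩
    · obtain ⟨r, hr⟩ := h6
      push_cast at hr
      omega
    · rw [padicValInt.mul (pow_ne_zero _ hD0) hΔ]
      have : padicValInt 2 (Df a b x y ^ 3) = 0 := by
        apply padicValInt.eq_zero_of_not_dvd
        intro h
        exact hDo (Int.prime_two.dvd_of_dvd_pow h)
      rw [this, zero_add]
      exact hv
  · -- even valuation
    have hv2 : 2 ≤ padicValInt 2 Δ := by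
      have h1 : 1 ≤ padicValInt 2 Δ := by
        have := (padicValInt_dvd_iff (p := 2) 1 Δ).mp (by simpa using h2)
        exact this.resolve_left hΔ
      rw [Nat.not_odd_iff_even] at hv
      obtain ⟨r, hr⟩ := hv
      omega
    obtain ⟨Δ'', hΔ''⟩ : (4 : ℤ) ∣ Δ := by
      have := (padicValInt_dvd_iff (p := 2) 2 Δ).mpr (Or.inr hv2)
      norm_num at this
      exact this
    have ha : a ^ 3 = b ^ 2 + 256 * (27 * Δ'') := by
      rw [hΔ''] at h; linear_combination h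
    obtain ⟨x0, hx0⟩ : ∃ x0 : ℕ, (x0 : ℤ) = ((3 * b + 8) * a ^ 3) % 16 := by
      refine ⟨(((3 * b + 8) * a ^ 3) % 16).toNat, ?_⟩
      exact Int.toNat_of_nonneg (Int.emod_nonneg _ (by norm_num))
    obtain ⟨s, hs⟩ : ∃ s, (x0 : ℤ) = (3 * b + 8) * a ^ 3 + 16 * s := by
      refine ⟨-(((3 * b + 8) * a ^ 3) / 16), ?_⟩
      rw [hx0]
      have := Int.emod_add_mul_ediv ((3 * b + 8) * a ^ 3) 16
      linarith
    obtain ⟨t, ht⟩ : ∃ t, a ^ 4 = 1 + 16 * t := by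
      obtain ⟨j, hj⟩ := hao
      obtain ⟨i, hi⟩ : Even (j * (j + 1)) := Int.even_mul_succ_self j
      refine ⟨i + 4 * i ^ 2, ?_⟩
      have e1 : a ^ 2 = 1 + 8 * i := by rw [hj]; linear_combination 4 * hi
      have e2 : a ^ 4 = (a ^ 2) ^ 2 := by ring
      rw [e2, e1]; ring
    refine ⟨x0, 1, by norm_num, fun x y hx hy => ?_⟩
    obtain ⟨r1, hr1⟩ := hx
    obtain ⟨r2, hr2⟩ := hy
    norm_num at hr1 hr2
    have hyo : Odd y := by
      rw [Int.odd_iff]; omega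
    obtain ⟨k, hk, hko⟩ : ∃ k, a * x = 3 * b * y + 8 * k ∧ Odd k := by
      refine ⟨1 + 2 * (a * s + a * r1 - 3 * b * r2 + (3 * b + 8) * t), ?_,
        by rw [Int.odd_iff]; omega⟩
      have e1 : x = (3 * b + 8) * a ^ 3 + 16 * s + 16 * r1 := by rw [← hs]; linarith
      have e2 : y = 1 + 16 * r2 := by linarith
      rw [e1, e2]
      linear_combination (3 * b + 8) * ht
    obtain ⟨d', c4', c6', hD, hd', h4, h6, hc6⟩ := typeII ha hk hao hb hyo hko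
    have hd'2 : ¬ (2 : ℤ) ∣ d' := by
      rw [Int.odd_iff] at hd'; omega
    have hd0 : d' ≠ 0 := by rintro rfl; exact hd'2 (dvd_zero _)
    refine ⟨4, c4', c6', 2 ^ 3 * (d' ^ 3 * Δ), Or.inr rfl, by rw [h4]; norm_num,
      by rw [h6]; norm_num, hc6, by rw [hD]; ring, ?_, ?_⟩
    swap
    · rw [hD]
      intro hh
      apply hd'2
      have : (512 : ℤ) * 2 ∣ 512 * d' := by norm_num; norm_num at hh; exact hh
      exact Int.dvd_of_mul_dvd_mul_left (by norm_num) this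
    rw [padicValInt.mul (by norm_num) (mul_ne_zero (pow_ne_zero _ hd0) hΔ),
      padicValInt.mul (pow_ne_zero _ hd0) hΔ]
    have e0 : padicValInt 2 (d' ^ 3) = 0 := by
      apply padicValInt.eq_zero_of_not_dvd
      intro h
      exact hd'2 (Int.prime_two.dvd_of_dvd_pow h)
    have e3 : padicValInt 2 ((2 : ℤ) ^ 3) = 3 := by
      have : ((2 : ℤ) ^ 3) = ((2 ^ 3 : ℕ) : ℤ) := by norm_num
      rw [this, padicValInt.of_nat, padicValNat.prime_pow]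
    rw [e0, e3, zero_add]
    rw [Nat.not_odd_iff_even] at hv
    exact Odd.add_even (by decide) hv

end two

end Fermat.Agent.ZCurve
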