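import Mathlib
import Fermat.Agent.ZCurve.Pencil

set_option autoImplicit false

/-!
# A member of the Hesse pencil without rational 2-torsion modulo an auxiliary prime
-/

namespace Fermat.Agent.ZCurve

open Finset
open Fermat.Agent.S52A (Qv)

section prime

/-- an auxiliary prime at which the quartic has a root -/
lemma exists_prime_root (a b m : ℤ) (ha : a ≠ 0) (hm : m ≠ 0) :
    ∃ l : ℕ, l.Prime ∧ ¬ (l : ℤ) ∣ m ∧ ∃ t : ℤ, (l : ℤ) ∣ Qv a b t := by
  set k : ℤ := 6 * |a| + 8 * |b| + 3 with hk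
  have hk3 : 3 ≤ k := by
    have := abs_nonneg a
    have := abs_nonneg b
    omega
  set t : ℤ := 3 * a ^ 2 * m ^ 2 * k with ht
  have ha2 : 1 ≤ a ^ 2 := by
    have h := pow_pos (abs_pos.mpr ha) 2
    rw [sq_abs] at h; omega
  have hm2 : 1 ≤ m ^ 2 := by
    have h := pow_pos (abs_pos.mpr hm) 2
    rw [sq_abs] at h; omega
  have htk : k ≤ t := by
    rw [ht]
    have h1 : 1 ≤ 3 * a ^ 2 * m ^ 2 := by nlinarith
    nlinarith
  have hbig : 3 ≤ t ^ 3 - 6 * a * t - 8 * b := by
    have h1 : a ≤ |a| := le_abs_self a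
    have h2 : b ≤ |b| := le_abs_self b
    have h3 : 0 ≤ |a| := abs_nonneg a
    have h4 : 0 ≤ |b| := abs_nonneg b
    have h5 : 0 < t := by omega
    have h6 : k * t ≤ t ^ 2 := by nlinarith
    have h7 : (6 * |a| + 8 * |b| + 3) * t ≤ t ^ 3 := by
      calc (6 * |a| + 8 * |b| + 3) * t = k * t := by rw [hk]
        _ ≤ t ^ 2 := h6
        _ ≤ t ^ 3 := by nlinarith
    nlinarith
  set v : ℤ := 1 - m ^ 2 * k * (t ^ 3 - 6 * a * t - 8 * b) with hv
  have hQ : Qv a b t = -3 * a ^ 2 * v := by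
    have : Qv a b t = t * (t ^ 3 - 6 * a * t - 8 * b) - 3 * a ^ 2 := by simp only [Qv]; ring
    rw [this, hv]
    have e : t * (t ^ 3 - 6 * a * t - 8 * b) =
      3 * a ^ 2 * m ^ 2 * k * (t ^ 3 - 6 * a * t - 8 * b) := by rw [← ht]
    rw [e]; ring
  have hv1 : v.natAbs ≠ 1 := by
    have h1 : 9 ≤ m ^ 2 * k * (t ^ 3 - 6 * a * t - 8 * b) := by
      have : 3 ≤ m ^ 2 * k := by nlinarith
      nlinarith
    omega
  obtain ⟨l, hl, hlv⟩ := Nat.exists_prime_and_dvd hv1
  have hlv' : (l : ℤ) ∣ v := Int.natCast_dvd.mpr hlv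
  refine ⟨l, hl, ?_, t, ?_⟩
  · intro hlm
    have h1 : (l : ℤ) ∣ m ^ 2 * k * (t ^ 3 - 6 * a * t - 8 * b) :=
      Dvd.dvd.mul_right (Dvd.dvd.mul_right (hlm.trans (dvd_pow_self m two_ne_zero)) _) _
    have h2 : (l : ℤ) ∣ 1 := by
      have := dvd_add hlv' h1
      rwa [hv, sub_add_cancel] at this
    exact hl.one_lt.ne' (by exact_mod_cast Int.eq_one_of_dvd_one (by positivity) h2)
  · rw [hQ]
    exact Dvd.dvd.mul_left hlv' _

end prime

section field

variable {K : Type*} [Field K]

/-- the cubic of the member `(p, q)` of the pencil on the line `Y = 0` -/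
def gc (a b p q z : K) : K :=
  p * (z ^ 3 - 3 * a * z - 2 * b) - 3 * q * (a * z ^ 2 + 2 * b * z + a ^ 2)

/-- the two factors have no common zero -/
lemma no_common (h2 : (2 : K) ≠ 0) {a b z : K} (hab : a ^ 3 ≠ b ^ 2)
    (hS : z ^ 3 - 3 * a * z - 2 * b = 0) (hT : a * z ^ 2 + 2 * b * z + a ^ 2 = 0) : False := by
  have h4 : (4 : K) ≠ 0 := by
    have : (4 : K) = 2 * 2 := by norm_num
    rw [this]; exact mul_ne_zero h2 h2
  have hx : z = 0 := by
    have : 4 * (a ^ 3 - b ^ 2) * z = 0 := by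
      linear_combination (a * z - 2 * b) * hT - a ^ 2 * hS
    rcases mul_eq_zero.mp this with h5 | h5
    · rcases mul_eq_zero.mp h5 with h6 | h6
      · exact absurd h6 h4
      · exact absurd (sub_eq_zero.mp h6) hab
    · exact h5
  rw [hx] at hS hT
  have hb : b = 0 := by
    have : 2 * b = 0 := by linear_combination -hS
    exact (mul_eq_zero.mp this).resolve_left h2
  have ha : a = 0 := by
    have : a ^ 2 = 0 := by linear_combination hT
    exact pow_eq_zero_iff two_ne_zero |>.mp this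
  exact hab (by rw [ha, hb]; ring)

/-- existence of a member without zeros on the line `Y = 0` -/
lemma exists_member [Fintype K] (h2 : (2 : K) ≠ 0) (h3 : (3 : K) ≠ 0) {a b r : K}
    (hab : a ^ 3 ≠ b ^ 2) (ha : a ≠ 0) (hr : Qv a b r = 0) :
    ∃ p q : K, p ≠ 0 ∧ Df a b p q ≠ 0 ∧ ∀ z, gc a b p q z ≠ 0 := by
  classical
  -- it suffices to find the member
  suffices h : ∃ p q : K, p ≠ 0 ∧ ∀ z, gc a b p q z ≠ 0 by
    obtain ⟨p, q, hp, h⟩ := h
    refine ⟨p, q, hp, ?_, h⟩
    intro hD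
    have hq : q ≠ 0 := by
      rintro rfl
      have : p ^ 4 = 0 := by simpa [Df] using hD
      exact hp (pow_eq_zero_iff (by norm_num) |>.mp this)
    apply h (p / q)
    have : gc a b p q (p / q) * q ^ 3 = Df a b p q := by
      simp only [gc, Df]; field_simp; ring
    rw [hD] at this
    exact (mul_eq_zero.mp this).resolve_right (pow_ne_zero _ hq)
  by_contra hcon
  push Not at hcon
  obtain ⟨zi, hzi⟩ := hcon 1 0 one_ne_zero
  have hzi' : zi ^ 3 - 3 * a * zi - 2 * b = 0 := by
    simpa [gc] using hzi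
  have hr0 : r ≠ 0 := by
    rintro rfl
    apply ha
    have : 3 * a ^ 2 = 0 := by simpa [Qv] using hr
    exact pow_eq_zero_iff two_ne_zero |>.mp ((mul_eq_zero.mp this).resolve_left h3)
  set z1 : K := (3 * a - r ^ 2) / (2 * r) with hz1
  have hz1r : 2 * r * z1 = 3 * a - r ^ 2 := by rw [hz1]; field_simp
  have g1 : gc a b r 1 r = 0 := by
    have : gc a b r 1 r = Qv a b r := by simp only [gc, Qv]; ring
    rw [this, hr]
  have g2 : gc a b r 1 z1 = 0 := by
    have : 4 * r * gc a b r 1 z1 = 0 := by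
      simp only [Qv] at hr
      simp only [gc]
      linear_combination (z1 - r) * (2 * r * z1 - 3 * a + r ^ 2) * hz1r + (3 * z1 + r) * hr
    have h4 : (4 : K) ≠ 0 := by
      rw [show (4 : K) = 2 ^ 2 by norm_num]; exact pow_ne_zero _ h2
    exact (mul_eq_zero.mp this).resolve_left (mul_ne_zero h4 hr0)
  have hne : r ≠ z1 := by
    intro h
    rw [← h] at hz1r
    have h1 : a = r ^ 2 := by
      have : 3 * (a - r ^ 2) = 0 := by linear_combination -hz1r
      exact sub_eq_zero.mp ((mul_eq_zero.mp this).resolve_left h3)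
    have h4 : b = -r ^ 3 := by
      have h5 : 8 * r * (b + r ^ 3) = 0 := by
        simp only [Qv] at hr
        rw [h1] at hr
        linear_combination -hr
      have h8 : (8 : K) ≠ 0 := by
        rw [show (8 : K) = 2 ^ 3 by norm_num]; exact pow_ne_zero _ h2
      exact eq_neg_of_add_eq_zero_left
        ((mul_eq_zero.mp h5).resolve_left (mul_ne_zero h8 hr0))
    exact hab (by rw [h1, h4]; ring)
  set A : Finset K := univ.filter (fun z => z ^ 3 - 3 * a * z - 2 * b ≠ 0) with hA
  set T : K → K := fun z => 3 * (a * z ^ 2 + 2 * b * z + a ^ 2) / (z ^ 3 - 3 * a * z - 2 * b)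
    with hT
  have hmem : ∀ t z : K, t ≠ 0 → gc a b t 1 z = 0 → z ∈ A ∧ T z = t := by
    intro t z ht hg
    have hz : z ^ 3 - 3 * a * z - 2 * b ≠ 0 := by
      intro h0
      apply no_common h2 hab h0
      simp only [gc, h0] at hg
      have : 3 * (a * z ^ 2 + 2 * b * z + a ^ 2) = 0 := by linear_combination -hg
      exact (mul_eq_zero.mp this).resolve_left h3
    refine ⟨mem_filter.mpr ⟨mem_univ _, hz⟩, ?_⟩
    rw [hT]
    simp only
    rw [div_eq_iff hz]
    simp only [gc] at hg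
    linear_combination -hg
  have hA1 : A.card ≤ Fintype.card K - 1 := by
    have : A ⊆ univ.erase zi := by
      intro z hz
      rw [mem_erase]
      refine ⟨?_, mem_univ _⟩
      rintro rfl
      exact (mem_filter.mp hz).2 hzi'
    calc A.card ≤ (univ.erase zi).card := card_le_card this
      _ = Fintype.card K - 1 := by rw [card_erase_of_mem (mem_univ _), card_univ]
  have hsub : univ.erase (0 : K) ⊆ A.image T := by
    intro t ht
    rw [mem_erase] at ht
    obtain ⟨z, hz⟩ := hcon t 1 ht.1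
    obtain ⟨h1, h2⟩ := hmem t z ht.1 hz
    exact mem_image.mpr ⟨z, h1, h2⟩
  have hlt : (A.image T).card < A.card := by
    apply lt_of_le_of_ne card_image_le
    intro h
    have hinj := card_image_iff.mp h
    obtain ⟨m1, e1⟩ := hmem r r hr0 g1
    obtain ⟨m2, e2⟩ := hmem r z1 hr0 g2
    exact hne (hinj m1 m2 (e1.trans e2.symm))
  have h5 := card_le_card hsub
  rw [card_erase_of_mem (mem_univ _), card_univ] at h5
  omega

end field

end Fermat.Agent.ZCurve
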