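import Mathlib
import Fermat.Agent.ZCurve.AuxPrime
import Fermat.Agent.S52.I3
import Fermat.Agent.S52_asm.PointCount

set_option autoImplicit false

/-!
# Members of the pencil without 2-torsion, scaling of short models
-/

namespace Fermat.Agent.ZCurve

open WeierstrassCurve Fermat.Agent.S52

section field

variable {K : Type*} [Field K]

lemma id_cubic (a b p q w : K) : Nn a b p q (3 * w) ^ 3 -
      27 * C4f a b p q * Nn a b p q (3 * w) * dd p q (3 * w) ^ 2 -
      54 * C6f a b p q * dd p q (3 * w) ^ 3 = 729 * Df a b p q ^ 2 * gc a b p q w := by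
  simp only [Nn, C4f, C6f, dd, Df, gc]; ring

/-- no 2-torsion -/
lemma cubic_no_root (h3 : (3 : K) ≠ 0) {a b p q : K} (hp : p ≠ 0) (hD : Df a b p q ≠ 0)
    (hg : ∀ z, gc a b p q z ≠ 0) (X : K) :
    X ^ 3 - 27 * C4f a b p q * X - 54 * C6f a b p q ≠ 0 := by
  intro hX
  set α : K := 3 * p ^ 3 - 9 * a * p * q ^ 2 - 6 * b * q ^ 3 with hα
  set β : K := -27 * q * (a * p ^ 2 + 2 * b * p * q + a ^ 2 * q ^ 2) with hβ
  have hdet : 3 * p * α + q * β = 9 * Df a b p q := by
    rw [hα, hβ]; simp only [Df]; ring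
  have h27 : (27 : K) ≠ 0 := by
    rw [show (27 : K) = 3 ^ 3 by norm_num]; exact pow_ne_zero _ h3
  have h729 : (729 : K) ≠ 0 := by
    rw [show (729 : K) = 3 ^ 6 by norm_num]; exact pow_ne_zero _ h3
  by_cases hδ : α + q * X = 0
  · have e1 : α = -q * X := by linear_combination hδ
    have e2 : α ^ 3 - 27 * C4f a b p q * α * q ^ 2 + 54 * C6f a b p q * q ^ 3 =
      27 * Df a b p q ^ 2 * p := by
      rw [hα]; simp only [C4f, C6f, Df]; ring
    rw [e1] at e2
    have e3 : 27 * Df a b p q ^ 2 * p = 0 := by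
      linear_combination -e2 - q ^ 3 * hX
    rcases mul_eq_zero.mp e3 with e | e
    · exact (mul_ne_zero h27 (pow_ne_zero _ hD)) e
    · exact hp e
  · set x : K := (3 * p * X - β) / (α + q * X) with hx
    set w : K := x / 3 with hw
    have h3w : 3 * w = x := by rw [hw]; field_simp
    have hN : Nn a b p q (3 * w) = X * (9 * Df a b p q / (α + q * X)) := by
      rw [h3w]
      have : Nn a b p q x = α * x + β := by
        rw [hα, hβ]; simp only [Nn]; ring
      rw [this, hx, ← hdet, ← mul_div_assoc, ← mul_div_assoc, div_add' _ _ _ hδ]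
      congr 1
      ring
    have hd : dd p q (3 * w) = 9 * Df a b p q / (α + q * X) := by
      rw [h3w]; simp only [dd]
      rw [hx, ← hdet]; field_simp; ring
    have e := id_cubic a b p q w
    rw [hN, hd] at e
    have e' : 729 * Df a b p q ^ 2 * gc a b p q w = 0 := by
      rw [← e]
      linear_combination (9 * Df a b p q / (α + q * X)) ^ 3 * hX
    rcases mul_eq_zero.mp e' with e | e
    · exact (mul_ne_zero h729 (pow_ne_zero _ hD)) e
    · exact hg w e

/-- the cubic of a curve in terms of `c₄`, `c₆` -/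
lemma cubic_eq (V : WeierstrassCurve K) (x : K) :
    (36 * x + 3 * V.b₂) ^ 3 - 27 * V.c₄ * (36 * x + 3 * V.b₂) - 54 * V.c₆ =
      11664 * (4 * x ^ 3 + V.b₂ * x ^ 2 + 2 * V.b₄ * x + V.b₆) := by
  simp only [WeierstrassCurve.c₄, WeierstrassCurve.c₆]; ring

lemma cubic_scale {c d u X : K} (h : X ^ 3 - 27 * c * X - 54 * d = 0) :
    (u ^ 2 * X) ^ 3 - 27 * (u ^ 4 * c) * (u ^ 2 * X) - 54 * (u ^ 6 * d) = 0 := by
  linear_combination u ^ 6 * h

end field

section finite

variable {K : Type} [Field K]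

/-- odd number of points -/
lemma odd_card [Finite K] (V : WeierstrassCurve K) (hΔ : V.Δ ≠ 0)
    (h : ∀ X : K, X ^ 3 - 27 * V.c₄ * X - 54 * V.c₆ ≠ 0) : Odd (Nat.card V.toAffine.Point) := by
  classical
  have hfin : Finite V.toAffine.Point := by
    have h0 := S52A.card_point V hΔ
    apply Nat.finite_of_card_ne_zero
    rw [h0]; omega
  rw [← Nat.not_even_iff_odd]
  intro hev
  have : Fact (Nat.Prime 2) := ⟨Nat.prime_two⟩
  obtain ⟨P, hP⟩ := exists_prime_addOrderOf_dvd_card' (G := V.toAffine.Point) 2 hev.two_dvd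
  have hP2 : P + P = 0 := by
    rw [← two_nsmul, ← hP]; exact addOrderOf_nsmul_eq_zero P
  have hP0 : P ≠ 0 := by
    rintro rfl
    rw [addOrderOf_zero] at hP
    omega
  match P, hP0, hP2 with
  | .some x y hns, _, hP2 =>
    have h1 : Affine.Point.some x y hns = -Affine.Point.some x y hns :=
      eq_neg_of_add_eq_zero_left hP2
    rw [Affine.Point.neg_some] at h1
    rw [Affine.Point.some.injEq] at h1
    have h2 := h1.2
    rw [Affine.negY] at h2
    have h3 : 2 * y + V.a₁ * x + V.a₃ = 0 := by linear_combination h2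
    have h4 : 4 * x ^ 3 + V.b₂ * x ^ 2 + 2 * V.b₄ * x + V.b₆ = 0 := by
      have h5 := (Affine.equation_iff _ _).mp hns.1
      simp only [WeierstrassCurve.b₂, WeierstrassCurve.b₄, WeierstrassCurve.b₆]
      linear_combination (2 * y + V.a₁ * x + V.a₃) * h3 - 4 * h5
    apply h (36 * x + 3 * V.b₂)
    rw [cubic_eq, h4, mul_zero]

lemma shortE_equation {F : Type*} [Field F] (c d x y : F) :
    (shortE c d).toAffine.Equation x y ↔ y ^ 2 = x ^ 3 - 27 * c * x - 54 * d := by
  have h := (⟨rfl, rfl, rfl, rfl, rfl⟩ : IsSh (shortE c d).toAffine c d)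
  exact h.equation_iff x y

/-- the bijection between solutions -/
lemma card_eq_scale {F : Type*} [Field F] {a b u : F} (hu : u ≠ 0) :
    Nat.card {P : F × F // (shortE a b).toAffine.Equation P.1 P.2} =
      Nat.card {P : F × F // (shortE (u ^ 4 * a) (u ^ 6 * b)).toAffine.Equation P.1 P.2} := by
  apply Nat.card_congr
  refine Equiv.subtypeEquiv (Equiv.prodCongr (Equiv.mulLeft₀ (u ^ 2) (pow_ne_zero _ hu))
    (Equiv.mulLeft₀ (u ^ 3) (pow_ne_zero _ hu))) ?_
  intro P
  have e1 : (Equiv.prodCongr (Equiv.mulLeft₀ (u ^ 2) (pow_ne_zero _ hu))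
    (Equiv.mulLeft₀ (u ^ 3) (pow_ne_zero _ hu)) P).1 = u ^ 2 * P.1 := rfl
  have e2 : (Equiv.prodCongr (Equiv.mulLeft₀ (u ^ 2) (pow_ne_zero _ hu))
    (Equiv.mulLeft₀ (u ^ 3) (pow_ne_zero _ hu)) P).2 = u ^ 3 * P.2 := rfl
  rw [e1, e2, shortE_equation, shortE_equation]
  constructor
  · intro e; linear_combination u ^ 6 * e
  · intro e
    have h6 : u ^ 6 ≠ 0 := pow_ne_zero _ hu
    apply mul_left_cancel₀ h6
    linear_combination e

lemma shortE_Δ_ne {F : Type*} [Field F] (h2 : (2 : F) ≠ 0) (h3 : (3 : F) ≠ 0) {a b : F}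
    (hab : a ^ 3 ≠ b ^ 2) : (shortE a b).Δ ≠ 0 := by
  rw [S52.shortE_Δ]
  exact mul_ne_zero (mul_ne_zero (pow_ne_zero _ h2) (pow_ne_zero _ h3)) (sub_ne_zero.mpr hab)

/-- scaling of short models -/
lemma card_shortE_scale [Finite K] (h2 : (2 : K) ≠ 0) (h3 : (3 : K) ≠ 0) {a b u : K}
    (hab : a ^ 3 ≠ b ^ 2) (hu : u ≠ 0) :
    Nat.card (shortE (u ^ 4 * a) (u ^ 6 * b)).toAffine.Point =
      Nat.card (shortE a b).toAffine.Point := by
  have hab' : (u ^ 4 * a) ^ 3 ≠ (u ^ 6 * b) ^ 2 := by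
    intro h
    apply hab
    have : u ^ 12 * (a ^ 3 - b ^ 2) = 0 := by linear_combination h
    exact sub_eq_zero.mp ((mul_eq_zero.mp this).resolve_left (pow_ne_zero _ hu))
  rw [S52A.card_point _ (shortE_Δ_ne h2 h3 hab), S52A.card_point _ (shortE_Δ_ne h2 h3 hab'),
    card_eq_scale (a := a) (b := b) hu]

end finite

end Fermat.Agent.ZCurve
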