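import Mathlib
import Fermat.Agent.ZCurve.Local
import Fermat.Agent.ZCurve.NoTwo

set_option autoImplicit false

/-!
# Local choices at odd primes
-/

namespace Fermat.Agent.ZCurve

open Fermat.Agent.S52A (Qv Qd Qd_ne_zero)

/-- the outcome at an odd prime -/
def LocOdd (p : ℕ) (Δ a b x y : ℤ) : Prop :=
  (¬ (p : ℤ) ∣ Δ → ¬ (p : ℤ) ∣ Df a b x y) ∧
  ((p : ℤ) ∣ Δ → ¬ (p : ℤ) ∣ C4f a b x y ∧
    Odd (padicValInt p Δ + 3 * padicValInt p (Df a b x y)))

/-- the outcome at 3 -/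
def LocThree (c4 c6 : ℤ) : Prop := ∃ β : ℤ, 27 ∣ β ^ 3 - 3 * β * c4 - 2 * c6 ∧ 3 ∣ β ^ 2 - c4

section

variable {p : ℕ} [hp : Fact p.Prime] {Δ a b : ℤ}

omit hp in
lemma natCast_pow_dvd {n k : ℕ} (hkn : k ≤ n) {z : ℤ} (h : ((p : ℕ) : ℤ) ^ n ∣ z) :
    ((p ^ k : ℕ) : ℤ) ∣ z := by
  push_cast
  exact (pow_dvd_pow _ hkn).trans h

/-- near `(1, 0)` -/
lemma locOdd_one (hgood : (p : ℤ) ∣ Δ → ¬ (p : ℤ) ∣ a)
    (hv : (p : ℤ) ∣ Δ → Odd (padicValInt p Δ)) {x y : ℤ} (hx : ((p : ℕ) : ℤ) ^ 4 ∣ x - 1)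
    (hy : ((p : ℕ) : ℤ) ^ 4 ∣ y - 0) : LocOdd p Δ a b x y := by
  have hx1 := natCast_pow_dvd (k := 1) (by norm_num) hx
  have hy1 := natCast_pow_dvd (k := 1) (by norm_num) hy
  rw [pow_one] at hx1 hy1
  have hD := Df_congr (a := a) (b := b) hx1 hy1
  have h4 := C4f_congr (a := a) (b := b) hx1 hy1
  have e1 : Df a b 1 0 = 1 := by simp [Df]
  have e2 : C4f a b 1 0 = a := by simp [C4f]
  rw [e1] at hD
  rw [e2] at h4
  have hp1 : ¬ (p : ℤ) ∣ 1 := by
    intro h
    exact hp.out.one_lt.ne' (by exact_mod_cast Int.eq_one_of_dvd_one (by positivity) h)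
  have hDn := not_dvd_of_congr hD hp1
  refine ⟨fun _ => hDn, fun h => ⟨not_dvd_of_congr h4 (hgood h), ?_⟩⟩
  rw [padicValInt.eq_zero_of_not_dvd hDn, mul_zero, add_zero]
  exact hv h

lemma local_even_big (h : a ^ 3 - b ^ 2 = 1728 * Δ) (hp5 : 5 ≤ p) (hd : (p : ℤ) ∣ Δ)
    (ha : ¬ (p : ℤ) ∣ a) : ∃ x0 : ℕ, (p : ℤ) ∣ Df a b x0 1 ∧ ¬ (p : ℤ) ^ 2 ∣ Df a b x0 1 ∧
      ¬ (p : ℤ) ∣ C4f a b x0 1 := by
  have hP := Nat.prime_iff_prime_int.mp hp.out
  have h2 : (2 : ZMod p) ≠ 0 := by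
    intro h
    have h6 : ((2 : ℕ) : ZMod p) = 0 := by exact_mod_cast h
    have := Nat.le_of_dvd (by norm_num) ((ZMod.natCast_eq_zero_iff _ _).mp h6)
    omega
  have ha' : (a : ZMod p) ≠ 0 := by
    rw [Ne, ZMod.intCast_zmod_eq_zero_iff_dvd]; exact ha
  have hab : (a : ZMod p) ^ 3 = (b : ZMod p) ^ 2 := by
    have : ((a ^ 3 - b ^ 2 : ℤ) : ZMod p) = 0 := by
      rw [h, ZMod.intCast_zmod_eq_zero_iff_dvd]
      exact Dvd.dvd.mul_left hd _
    push_cast at this
    exact sub_eq_zero.mp this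
  set ν : ZMod p := (b : ZMod p) / (a : ZMod p) with hν
  have hav : (a : ZMod p) = ν ^ 2 := by
    rw [hν, div_pow, ← hab]; field_simp
  have hν0 : ν ≠ 0 := by
    intro h0
    apply ha'
    rw [hav, h0]; ring
  have hbv : (b : ZMod p) = ν ^ 3 := by
    have : (b : ZMod p) = ν * a := by rw [hν]; field_simp
    rw [this, hav]; ring
  set n1 : ℕ := (3 * ν).val with hn1
  have hn1c : ((n1 : ℕ) : ZMod p) = 3 * ν := by
    rw [hn1, ZMod.natCast_val, ZMod.cast_id]
  -- any lift of `3 ν`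
  have key : ∀ n : ℕ, ((n : ℕ) : ZMod p) = 3 * ν → (p : ℤ) ∣ Df a b n 1 ∧
      ¬ (p : ℤ) ∣ C4f a b n 1 := by
    intro n hn
    constructor
    · rw [← ZMod.intCast_zmod_eq_zero_iff_dvd, cast_Df, hav, hbv, Int.cast_natCast, hn]
      simp only [Df]; push_cast; ring
    · rw [← ZMod.intCast_zmod_eq_zero_iff_dvd, cast_C4f, hav, hbv, Int.cast_natCast, hn]
      have : C4f (ν ^ 2) (ν ^ 3) (3 * ν) ((1 : ℤ) : ZMod p) = 2 ^ 8 * ν ^ 6 := by
        simp only [C4f]; push_cast; ring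
      rw [this]
      exact mul_ne_zero (pow_ne_zero _ h2) (pow_ne_zero _ hν0)
  obtain ⟨k1, k2⟩ := key n1 hn1c
  by_cases hsq : (p : ℤ) ^ 2 ∣ Df a b n1 1
  · have hn2c : ((n1 + p : ℕ) : ZMod p) = 3 * ν := by
      push_cast; rw [hn1c]; simp
    obtain ⟨k3, k4⟩ := key (n1 + p) hn2c
    refine ⟨n1 + p, k3, ?_, k4⟩
    intro hsq'
    have e1 : Df a b ((n1 + p : ℕ) : ℤ) 1 = Df a b n1 1 + p * (4 * (n1 : ℤ) ^ 3 - 12 * a * n1 - 8 * b) +
        p ^ 2 * (6 * (n1 : ℤ) ^ 2 + 4 * n1 * p + p ^ 2 - 6 * a) := by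
      simp only [Df]; push_cast; ring
    rw [e1] at hsq'
    have h3 : (p : ℤ) ^ 2 ∣ p * (4 * (n1 : ℤ) ^ 3 - 12 * a * n1 - 8 * b) := by
      have h4 := (Int.dvd_add_left (Dvd.intro _ rfl)).mp hsq'
      exact (Int.dvd_add_right hsq).mp h4
    have h4 : (p : ℤ) ∣ 4 * (n1 : ℤ) ^ 3 - 12 * a * n1 - 8 * b := by
      rw [sq] at h3
      exact Int.dvd_of_mul_dvd_mul_left (by exact_mod_cast hp.out.ne_zero) h3
    rw [← ZMod.intCast_zmod_eq_zero_iff_dvd] at h4
    push_cast at h4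
    rw [hn1c, hav, hbv] at h4
    have : (2 : ZMod p) ^ 6 * ν ^ 3 = 0 := by rw [← h4]; ring
    exact mul_ne_zero (pow_ne_zero _ h2) (pow_ne_zero _ hν0) this
  · exact ⟨n1, k1, hsq, k2⟩

theorem local_odd (h : a ^ 3 - b ^ 2 = 1728 * Δ) (hp2 : p ≠ 2)
    (hgood : (p : ℤ) ∣ Δ → ¬ (p : ℤ) ∣ a) (h3 : LocThree a b) :
    ∃ x0 y0 : ℕ, ¬ (p ∣ x0 ∧ p ∣ y0) ∧ ∀ x y : ℤ, ((p : ℕ) : ℤ) ^ 4 ∣ x - x0 →
      ((p : ℕ) : ℤ) ^ 4 ∣ y - y0 → LocOdd p Δ a b x y ∧
        (p = 3 → LocThree (C4f a b x y) (C6f a b x y)) := by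
  have hP := Nat.prime_iff_prime_int.mp hp.out
  by_cases hc : (p : ℤ) ∣ Δ → Odd (padicValInt p Δ)
  · refine ⟨1, 0, fun h => hp.out.one_lt.ne' (Nat.dvd_one.mp h.1), fun x y hx hy => ?_⟩
    push_cast at hx hy
    refine ⟨locOdd_one hgood hc hx hy, ?_⟩
    rintro rfl
    have hx3 := natCast_pow_dvd (k := 3) (by norm_num) hx
    have hy3 := natCast_pow_dvd (k := 3) (by norm_num) hy
    norm_num at hx3
    have e1 : C4f a b 1 0 = a := by simp [C4f]
    have e2 : C6f a b 1 0 = b := by simp [C6f]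
    have h4 := C4f_congr (a := a) (b := b) (m := 27) (by exact_mod_cast hx3)
      (by exact_mod_cast hy3)
    have h6 := C6f_congr (a := a) (b := b) (m := 27) (by exact_mod_cast hx3)
      (by exact_mod_cast hy3)
    rw [e1] at h4
    rw [e2] at h6
    obtain ⟨β, ⟨r1, hr1⟩, ⟨r2, hr2⟩⟩ := h3
    obtain ⟨s1, hs1⟩ := h4
    obtain ⟨s2, hs2⟩ := h6
    push_cast at hs1 hs2
    refine ⟨β, ⟨r1 - 3 * β * s1 - 2 * s2, by linear_combination hr1 - 3 * β * hs1 - 2 * hs2⟩,
      ⟨r2 - 9 * s1, by linear_combination hr2 - hs1⟩⟩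
  · push Not at hc
    obtain ⟨hd, hv⟩ := hc
    have ha := hgood hd
    rw [Nat.not_odd_iff_even] at hv
    by_cases hp3 : p = 3
    · subst hp3
      have hb3 : ¬ (3 : ℤ) ∣ b := by
        intro hb
        apply ha
        apply Int.prime_three.dvd_of_dvd_pow (n := 3)
        have : a ^ 3 = 3 * (576 * Δ) + b ^ 2 := by linear_combination h
        rw [this]
        exact dvd_add (Dvd.intro _ rfl) (dvd_pow hb two_ne_zero)
      have ha3 : ¬ (3 : ℤ) ∣ a := by exact_mod_cast ha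
      refine ⟨0, 1, by norm_num, fun x y hx hy => ?_⟩
      have hx3 := natCast_pow_dvd (k := 2) (by norm_num) hx
      have hy3 := natCast_pow_dvd (k := 2) (by norm_num) hy
      have hD := Df_congr (a := a) (b := b) hx3 hy3
      have h4 := C4f_congr (a := a) (b := b) hx3 hy3
      have h6 := C6f_congr (a := a) (b := b) hx3 hy3
      have e0 : Df a b ((0 : ℕ) : ℤ) ((1 : ℕ) : ℤ) = -3 * a ^ 2 := by
        simp only [Df]; push_cast; ring
      have e1 : C4f a b ((0 : ℕ) : ℤ) ((1 : ℕ) : ℤ) = -(3 * a ^ 3 - 4 * b ^ 2) := by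
        simp only [C4f]; push_cast; ring
      have e2 : C6f a b ((0 : ℕ) : ℤ) ((1 : ℕ) : ℤ) = 9 * a ^ 3 * b - 8 * b ^ 3 := by
        simp only [C6f]; push_cast; ring
      rw [e0] at hD
      rw [e1] at h4
      rw [e2] at h6
      obtain ⟨s0, hs0⟩ := hD
      obtain ⟨s1, hs1⟩ := h4
      obtain ⟨s2, hs2⟩ := h6
      norm_num at hs0 hs1 hs2
      have hC4 : ¬ (3 : ℤ) ∣ C4f a b x y := by
        intro hh
        apply hb3
        apply Int.prime_three.dvd_of_dvd_pow (n := 2)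
        have : b ^ 2 = C4f a b x y + 3 * (a ^ 3 - b ^ 2 - 3 * s1) := by
          linear_combination -hs1
        rw [this]
        exact dvd_add hh (Dvd.intro _ rfl)
      have hC6 : ¬ (3 : ℤ) ∣ C6f a b x y := by
        intro hh
        apply hb3
        apply Int.prime_three.dvd_of_dvd_pow (n := 3)
        have : b ^ 3 = C6f a b x y + 3 * (3 * b ^ 3 - 3 * a ^ 3 * b - 3 * s2) := by
          linear_combination -hs2
        rw [this]
        exact dvd_add hh (Dvd.intro _ rfl)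
      have hv1 : padicValInt 3 (Df a b x y) = 1 := by
        apply padicValInt_eq_one
        · refine ⟨-a ^ 2 + 3 * s0, ?_⟩
          push_cast
          linear_combination hs0
        · rintro ⟨r, hr⟩
          push_cast at hr
          apply ha3
          apply Int.prime_three.dvd_of_dvd_pow (n := 2)
          refine ⟨s0 - r, ?_⟩
          have : 3 * (a ^ 2) = 3 * (3 * (s0 - r)) := by linear_combination hs0 - hr
          exact mul_left_cancel₀ (by norm_num) this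
      refine ⟨⟨fun hh => absurd hd hh, fun _ => ⟨by exact_mod_cast hC4, ?_⟩⟩, fun _ => ?_⟩
      · rw [hv1]
        exact Even.add_odd hv (by decide)
      · -- model condition
        have hid := form_id a b x y
        obtain ⟨Δ', hΔ'⟩ := hd
        push_cast at hΔ'
        have h27 : C4f a b x y ^ 3 - C6f a b x y ^ 2 = 27 * (192 * Δ' * Df a b x y ^ 3) := by
          rw [hid, h, hΔ']; ring
        set c := C4f a b x y with hc
        set d := C6f a b x y with hdd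
        -- `c ≡ 1 mod 3`
        have hd2 : (3 : ℤ) ∣ d ^ 2 - 1 := by
          have : d % 3 = 1 ∨ d % 3 = 2 := by omega
          rcases this with h' | h'
          · obtain ⟨k, hk⟩ : ∃ k, d = 3 * k + 1 := ⟨d / 3, by omega⟩
            exact ⟨3 * k ^ 2 + 2 * k, by rw [hk]; ring⟩
          · obtain ⟨k, hk⟩ : ∃ k, d = 3 * k + 2 := ⟨d / 3, by omega⟩
            exact ⟨3 * k ^ 2 + 4 * k + 1, by rw [hk]; ring⟩
        have hc1 : (3 : ℤ) ∣ c - 1 := by
          have : c % 3 = 1 ∨ c % 3 = 2 := by omega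
          rcases this with h' | h'
          · exact ⟨c / 3, by omega⟩
          · exfalso
            obtain ⟨k, hk⟩ : ∃ k, c = 3 * k + 2 := ⟨c / 3, by omega⟩
            obtain ⟨k', hk'⟩ := hd2
            have e : c ^ 3 = 3 * (9 * k ^ 3 + 18 * k ^ 2 + 12 * k + 2) + 2 := by rw [hk]; ring
            have e' : (3 : ℤ) * (9 * k ^ 3 + 18 * k ^ 2 + 12 * k + 2) + 2 - (3 * k' + 1) =
              27 * (192 * Δ' * Df a b x y ^ 3) := by
              rw [← h27, e]; linear_combination hk'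
            omega
        obtain ⟨k, hk⟩ := hc1
        obtain ⟨k', hk'⟩ := hd2
        refine ⟨-d, ⟨-d * (k ^ 2 * (k + 1) - 192 * Δ' * Df a b x y ^ 3), ?_⟩, ⟨k' - k, ?_⟩⟩
        · have e : c = 3 * k + 1 := by linarith
          rw [e] at h27 ⊢
          linear_combination d * h27
        · linear_combination hk' - hk
    · have hp5 : 5 ≤ p := by
        have h1 := hp.out.two_le
        by_contra hlt
        have : p = 4 := by omega
        rw [this] at hp
        exact absurd hp.out (by norm_num)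
      obtain ⟨x0, hx1, hx2, hx3⟩ := local_even_big h hp5 hd ha
      refine ⟨x0, 1, fun h => hp.out.one_lt.ne' (Nat.dvd_one.mp h.2), fun x y hx hy => ?_⟩
      have hxx := natCast_pow_dvd (k := 2) (by norm_num) hx
      have hyy := natCast_pow_dvd (k := 2) (by norm_num) hy
      have hxx' := natCast_pow_dvd (k := 1) (by norm_num) hx
      have hyy' := natCast_pow_dvd (k := 1) (by norm_num) hy
      rw [pow_one] at hxx' hyy'
      have hD := Df_congr (a := a) (b := b) hxx hyy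
      have hD' := Df_congr (a := a) (b := b) hxx' hyy'
      have h4 := C4f_congr (a := a) (b := b) hxx' hyy'
      rw [Nat.cast_one] at hD h4 hD'
      refine ⟨⟨fun hh => absurd hd hh, fun _ => ⟨not_dvd_of_congr h4 hx3, ?_⟩⟩,
        fun h => absurd h hp3⟩
      have hv1 : padicValInt p (Df a b x y) = 1 := by
        apply padicValInt_eq_one
        · have := dvd_add hD' hx1
          rwa [sub_add_cancel] at this
        · intro hh
          apply hx2
          have := dvd_sub hh (by exact_mod_cast hD : (p : ℤ) ^ 2 ∣ _)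
          rwa [sub_sub_cancel] at this
      rw [hv1]
      exact Even.add_odd hv (by decide)

end

end Fermat.Agent.ZCurve
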