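import Mathlib
import Fermat.Agent.ZCurve.SieveAux

set_option autoImplicit false

/-!
# Counting bad pairs
-/

namespace Fermat.Agent.ZCurve

open Fermat.Agent.S52A (Qv)
open Finset

lemma quot_inj {c L m i i' : ℕ} (hm : 0 < m) (hi : c ≤ i) (hi' : c ≤ i')
    (h : i ≡ i' [MOD m]) (e : (i - c) / m = (i' - c) / m) : i = i' := by
  have h1 : (i - c) ≡ (i' - c) [MOD m] := by
    apply Nat.ModEq.add_right_cancel' c
    rwa [Nat.sub_add_cancel hi, Nat.sub_add_cancel hi']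
  have h2 : i - c = i' - c := by
    rw [← Nat.div_add_mod (i - c) m, ← Nat.div_add_mod (i' - c) m, e, h1]
  omega

lemma quot_lt {c L m i : ℕ} (hi : i < c + L) (hi' : c ≤ i) : (i - c) / m < L / m + 1 := by
  have : (i - c) / m ≤ L / m := Nat.div_le_div_right (by omega)
  omega

section

variable (a b : ℤ) (Q x0 y0 : ℕ)

/-- `x`-coordinate -/
def xv (i : ℕ) : ℤ := (x0 : ℤ) + Q * i

variable {Q x0 y0}

lemma modEq_of_dvd {p k : ℕ} (hp : p.Prime) (hpQ : ¬ p ∣ Q) {i i' : ℕ}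
    (h : ((p : ℤ) ^ k) ∣ xv Q x0 i - xv Q x0 i') : i ≡ i' [MOD p ^ k] := by
  have e : xv Q x0 i - xv Q x0 i' = (Q : ℤ) * ((i : ℤ) - i') := by simp only [xv]; ring
  rw [e] at h
  have hc : IsCoprime ((p : ℤ) ^ k) (Q : ℤ) := by
    apply IsCoprime.pow_left
    rw [Nat.isCoprime_iff_coprime]
    exact (Nat.Prime.coprime_iff_not_dvd hp).mpr hpQ
  have h2 := hc.dvd_of_dvd_mul_left h
  rw [Nat.modEq_iff_dvd]
  push_cast
  have : ((i' : ℤ) - i) = -((i : ℤ) - i') := by ring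
  rw [this]
  exact (dvd_neg).mpr h2

variable (Q x0 y0)

/-- the pairs with a common prime factor `p` -/
noncomputable def Gp (p : ℕ) (I J : Finset ℕ) : Finset (ℕ × ℕ) :=
  (I ×ˢ J).filter (fun ij => (p : ℤ) ∣ xv Q x0 ij.1 ∧ (p : ℤ) ∣ xv Q y0 ij.2)

lemma card_Gp {p : ℕ} (hp : p.Prime) (hpQ : ¬ p ∣ Q) (c c' L L' : ℕ) :
    (Gp Q x0 y0 p (Ico c (c + L)) (Ico c' (c' + L'))).card ≤ (L / p + 1) * (L' / p + 1) := by
  classical
  have hmap : ∀ ij ∈ Gp Q x0 y0 p (Ico c (c + L)) (Ico c' (c' + L')),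
      (((ij.1 - c) / p, (ij.2 - c') / p) : ℕ × ℕ) ∈ (range (L / p + 1)) ×ˢ (range (L' / p + 1)) := by
    intro ij hij
    rw [Gp, mem_filter, mem_product, mem_Ico, mem_Ico] at hij
    rw [mem_product, mem_range, mem_range]
    exact ⟨quot_lt hij.1.1.2 hij.1.1.1, quot_lt hij.1.2.2 hij.1.2.1⟩
  have hinj : Set.InjOn (fun ij : ℕ × ℕ => (((ij.1 - c) / p, (ij.2 - c') / p) : ℕ × ℕ))
      (Gp Q x0 y0 p (Ico c (c + L)) (Ico c' (c' + L'))) := by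
    intro ij hij ij' hij' e
    rw [mem_coe, Gp, mem_filter, mem_product, mem_Ico, mem_Ico] at hij hij'
    simp only [Prod.mk.injEq] at e
    have h1 : ij.1 ≡ ij'.1 [MOD p ^ 1] := modEq_of_dvd (x0 := x0) hp hpQ (by
      rw [pow_one]; exact dvd_sub hij.2.1 hij'.2.1)
    have h2 : ij.2 ≡ ij'.2 [MOD p ^ 1] := modEq_of_dvd (x0 := y0) hp hpQ (by
      rw [pow_one]; exact dvd_sub hij.2.2 hij'.2.2)
    rw [pow_one] at h1 h2
    exact Prod.ext (quot_inj (L := L) hp.pos hij.1.1.1 hij'.1.1.1 h1 e.1)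
      (quot_inj (L := L) hp.pos hij.1.2.1 hij'.1.2.1 h2 e.2)
  calc _ ≤ ((range (L / p + 1)) ×ˢ (range (L' / p + 1))).card :=
        card_le_card_of_injOn _ hmap hinj
    _ = _ := by rw [card_product, card_range, card_range]

/-- the coprime pairs with `p² ∣ D` -/
noncomputable def Ap (p : ℕ) (I J : Finset ℕ) : Finset (ℕ × ℕ) := by
  classical
  exact (I ×ˢ J).filter (fun ij => IsCoprime (xv Q x0 ij.1) (xv Q y0 ij.2) ∧
    ((p : ℤ) ^ 2) ∣ Df a b (xv Q x0 ij.1) (xv Q y0 ij.2))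

lemma mem_Ap {p : ℕ} {I J : Finset ℕ} {ij : ℕ × ℕ} : ij ∈ Ap a b Q x0 y0 p I J ↔
    (ij.1 ∈ I ∧ ij.2 ∈ J) ∧ IsCoprime (xv Q x0 ij.1) (xv Q y0 ij.2) ∧
    ((p : ℤ) ^ 2) ∣ Df a b (xv Q x0 ij.1) (xv Q y0 ij.2) := by
  classical
  rw [Ap, mem_filter, mem_product]

lemma root_mem {p : ℕ} [Fact p.Prime] {x y : ℤ} (hxy : IsCoprime x y)
    (h : ((p : ℤ) ^ 2) ∣ Df a b x y) :
    (x : ZMod p) / (y : ZMod p) ∈ Finset.univ.filter (fun t : ZMod p => Qv (a : ZMod p) (b : ZMod p) t = 0) := by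
  have h1 : (p : ℤ) ∣ Df a b x y := (dvd_pow_self _ two_ne_zero).trans h
  have hy := not_dvd_y Fact.out hxy h1
  have hyz : (y : ZMod p) ≠ 0 := by rwa [Ne, ZMod.intCast_zmod_eq_zero_iff_dvd]
  rw [mem_filter]
  refine ⟨mem_univ _, Qv_div hyz ?_⟩
  rw [← cast_Df, ZMod.intCast_zmod_eq_zero_iff_dvd]
  exact h1

lemma card_Ap {p : ℕ} (hp : p.Prime) (hpQ : ¬ p ∣ Q) (hg : GoodP a b p) (c c' L L' : ℕ) :
    (Ap a b Q x0 y0 p (Ico c (c + L)) (Ico c' (c' + L'))).card ≤ L' * ((L / p ^ 2 + 1) * 4) := by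
  have : Fact p.Prime := ⟨hp⟩
  classical
  set R := Finset.univ.filter (fun t : ZMod p => Qv (a : ZMod p) (b : ZMod p) t = 0) with hR
  have hmap : ∀ ij ∈ Ap a b Q x0 y0 p (Ico c (c + L)) (Ico c' (c' + L')),
      ((ij.2, (ij.1 - c) / p ^ 2, ((xv Q x0 ij.1 : ℤ) : ZMod p) / ((xv Q y0 ij.2 : ℤ) : ZMod p)) :
        ℕ × ℕ × ZMod p) ∈ (Ico c' (c' + L')) ×ˢ ((range (L / p ^ 2 + 1)) ×ˢ R) := by
    intro ij hij
    rw [mem_Ap, mem_Ico] at hij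
    rw [mem_product, mem_product, mem_range]
    exact ⟨hij.1.2, quot_lt hij.1.1.2 hij.1.1.1, root_mem a b hij.2.1 hij.2.2⟩
  have hinj : Set.InjOn (fun ij : ℕ × ℕ => ((ij.2, (ij.1 - c) / p ^ 2,
      ((xv Q x0 ij.1 : ℤ) : ZMod p) / ((xv Q y0 ij.2 : ℤ) : ZMod p)) : ℕ × ℕ × ZMod p))
      (Ap a b Q x0 y0 p (Ico c (c + L)) (Ico c' (c' + L'))) := by
    intro ij hij ij' hij' e
    rw [mem_coe, mem_Ap, mem_Ico] at hij hij'
    simp only [Prod.mk.injEq] at e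
    obtain ⟨e1, e2, e3⟩ := e
    have hd : (p : ℤ) ∣ Df a b (xv Q x0 ij.1) (xv Q y0 ij.2) :=
      (dvd_pow_self _ two_ne_zero).trans hij.2.2
    have hd' : (p : ℤ) ∣ Df a b (xv Q x0 ij'.1) (xv Q y0 ij'.2) :=
      (dvd_pow_self _ two_ne_zero).trans hij'.2.2
    have hy := not_dvd_y hp hij.2.1 hd
    have hy' := not_dvd_y hp hij'.2.1 hd'
    have h1 := hensel_unique hg hy hy' hij.2.2 hij'.2.2 e3
    rw [e1] at h1
    have h2 : xv Q x0 ij.1 * xv Q y0 ij'.2 - xv Q x0 ij'.1 * xv Q y0 ij'.2 =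
      (xv Q x0 ij.1 - xv Q x0 ij'.1) * xv Q y0 ij'.2 := by ring
    rw [h2] at h1
    have hc : IsCoprime ((p : ℤ) ^ 2) (xv Q y0 ij'.2) := by
      apply IsCoprime.pow_left
      exact (Prime.coprime_iff_not_dvd (Nat.prime_iff_prime_int.mp hp)).mpr hy'
    have h3 := hc.dvd_of_dvd_mul_right h1
    have h4 := modEq_of_dvd (x0 := x0) hp hpQ h3
    exact Prod.ext (quot_inj (L := L) (pow_pos hp.pos 2) hij.1.1.1 hij'.1.1.1 h4 e2) e1
  calc _ ≤ ((Ico c' (c' + L')) ×ˢ ((range (L / p ^ 2 + 1)) ×ˢ R)).card :=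
        card_le_card_of_injOn _ hmap hinj
    _ = L' * ((L / p ^ 2 + 1) * R.card) := by
        rw [card_product, card_product, card_range, Nat.card_Ico, Nat.add_sub_cancel_left]
    _ ≤ _ := Nat.mul_le_mul_left _ (Nat.mul_le_mul_left _ (card_roots_le _ _))

lemma card_Ap_big {p : ℕ} (hp : p.Prime) (hQ : 0 < Q) (hg : GoodP a b p) (I J : Finset ℕ) {X : ℕ}
    (hI : ∀ i ∈ I, xv Q x0 i ≤ X) (hJ : ∀ j ∈ J, xv Q y0 j ≤ X) (hpX : X < p) :
    (Ap a b Q x0 y0 p I J).card ≤ 4 := by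
  have : Fact p.Prime := ⟨hp⟩
  classical
  set R := Finset.univ.filter (fun t : ZMod p => Qv (a : ZMod p) (b : ZMod p) t = 0) with hR
  have hpos : ∀ (z i : ℕ), 0 ≤ xv Q z i := by intro z i; simp only [xv]; positivity
  have hmap : ∀ ij ∈ Ap a b Q x0 y0 p I J,
      ((xv Q x0 ij.1 : ℤ) : ZMod p) / ((xv Q y0 ij.2 : ℤ) : ZMod p) ∈ R := by
    intro ij hij
    rw [mem_Ap] at hij
    exact root_mem a b hij.2.1 hij.2.2
  have hxinj : ∀ (z i i' : ℕ), xv Q z i = xv Q z i' → i = i' := by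
    intro z i i' h
    simp only [xv] at h
    have h1 : (Q : ℤ) * i = Q * i' := by linarith
    have h2 : (i : ℤ) = i' := mul_left_cancel₀ (by exact_mod_cast hQ.ne') h1
    exact_mod_cast h2
  have hinj : Set.InjOn (fun ij : ℕ × ℕ =>
      ((xv Q x0 ij.1 : ℤ) : ZMod p) / ((xv Q y0 ij.2 : ℤ) : ZMod p)) (Ap a b Q x0 y0 p I J) := by
    intro ij hij ij' hij' e3
    rw [mem_coe, mem_Ap] at hij hij'
    have hd : (p : ℤ) ∣ Df a b (xv Q x0 ij.1) (xv Q y0 ij.2) :=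
      (dvd_pow_self _ two_ne_zero).trans hij.2.2
    have hd' : (p : ℤ) ∣ Df a b (xv Q x0 ij'.1) (xv Q y0 ij'.2) :=
      (dvd_pow_self _ two_ne_zero).trans hij'.2.2
    have hy := not_dvd_y hp hij.2.1 hd
    have hy' := not_dvd_y hp hij'.2.1 hd'
    have h1 := hensel_unique hg hy hy' hij.2.2 hij'.2.2 e3
    have hx1 := hI _ hij.1.1
    have hx2 := hI _ hij'.1.1
    have hy1 := hJ _ hij.1.2
    have hy2 := hJ _ hij'.1.2
    have p1 := hpos x0 ij.1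
    have p2 := hpos x0 ij'.1
    have p3 := hpos y0 ij.2
    have p4 := hpos y0 ij'.2
    have hX : (X : ℤ) < p := by exact_mod_cast hpX
    have e : xv Q x0 ij.1 * xv Q y0 ij'.2 = xv Q x0 ij'.1 * xv Q y0 ij.2 := by
      have h2 : xv Q x0 ij.1 * xv Q y0 ij'.2 - xv Q x0 ij'.1 * xv Q y0 ij.2 = 0 := by
        apply Int.eq_zero_of_abs_lt_dvd h1
        have u1 : xv Q x0 ij.1 * xv Q y0 ij'.2 ≤ X * X := mul_le_mul hx1 hy2 p4 (by positivity)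
        have u2 : xv Q x0 ij'.1 * xv Q y0 ij.2 ≤ X * X := mul_le_mul hx2 hy1 p3 (by positivity)
        have u3 : 0 ≤ xv Q x0 ij.1 * xv Q y0 ij'.2 := mul_nonneg p1 p4
        have u4 : 0 ≤ xv Q x0 ij'.1 * xv Q y0 ij.2 := mul_nonneg p2 p3
        have u5 : (X : ℤ) * X < (p : ℤ) ^ 2 := by nlinarith
        rw [abs_lt]
        constructor <;> linarith
      exact sub_eq_zero.mp h2
    obtain ⟨f1, f2⟩ := eq_of_ratio hij.2.1 hij'.2.1 p1 p3 p2 p4 e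
    exact Prod.ext (hxinj _ _ _ f1) (hxinj _ _ _ f2)
  calc _ ≤ R.card := card_le_card_of_injOn _ hmap hinj
    _ ≤ _ := card_roots_le _ _

end

end Fermat.Agent.ZCurve
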