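import Mathlib
import Fermat.Agent.ZCurve.SieveCount

set_option autoImplicit false

/-!
# The squarefree sieve for the form `D`
-/

namespace Fermat.Agent.ZCurve

open Finset

lemma primeCounting_le_eps {ε : ℝ} (hε : 0 < ε) :
    ∃ m₀ : ℕ, ∀ m : ℕ, m₀ ≤ m → (Nat.primeCounting m : ℝ) ≤ ε * m := by
  have h1 := Chebyshev.eventually_primeCounting_le (ε := 1) one_pos
  have h2 : ∀ᶠ x : ℝ in Filter.atTop, (Real.log 4 + 1) / ε ≤ Real.log x :=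
    Real.tendsto_log_atTop.eventually_ge_atTop _
  have h3 : ∀ᶠ x : ℝ in Filter.atTop, (2 : ℝ) ≤ x := Filter.eventually_ge_atTop _
  obtain ⟨x₀, hx₀⟩ := Filter.eventually_atTop.mp (h1.and (h2.and h3))
  refine ⟨⌈x₀⌉₊, fun m hm => ?_⟩
  obtain ⟨e1, e2, e3⟩ := hx₀ m (le_trans (Nat.le_ceil x₀) (by exact_mod_cast hm))
  rw [Nat.floor_natCast] at e1
  refine e1.trans ?_
  have hl4 : 0 < Real.log 4 := Real.log_pos (by norm_num)
  have hlog : 0 < Real.log m := lt_of_lt_of_le (div_pos (by linarith) hε) e2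
  rw [div_le_iff₀ hlog]
  rw [div_le_iff₀ hε] at e2
  have hm0 : (0 : ℝ) ≤ m := Nat.cast_nonneg m
  nlinarith [mul_le_mul_of_nonneg_right e2 hm0]

/-- primes not dividing `Q` in an interval -/
def Pr (Q A B : ℕ) : Finset ℕ := (Ioc A B).filter (fun p => p.Prime ∧ ¬ p ∣ Q)

lemma mem_Pr {Q A B p : ℕ} : p ∈ Pr Q A B ↔ (A < p ∧ p ≤ B) ∧ p.Prime ∧ ¬ p ∣ Q := by
  rw [Pr, mem_filter, mem_Ioc]

lemma card_Pr_le (Q A B : ℕ) : (Pr Q A B).card ≤ Nat.primeCounting B := by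
  rw [← Nat.primesLE_card_eq_primeCounting]
  apply card_le_card
  intro p hp
  rw [mem_Pr] at hp
  rw [Nat.mem_primesLE]
  exact ⟨hp.1.2, hp.2.1⟩

lemma sum_Pr_le {Q X : ℕ} (hQ : ∀ p : ℕ, p.Prime → p ≤ 100 → p ∣ Q) (hX : 100 ≤ X) :
    ∑ p ∈ Pr Q 0 X, ((p : ℝ) ^ 2)⁻¹ ≤ 1 / 100 := by
  calc ∑ p ∈ Pr Q 0 X, ((p : ℝ) ^ 2)⁻¹ ≤ ∑ p ∈ Ioc 100 X, ((p : ℝ) ^ 2)⁻¹ := by
        apply sum_le_sum_of_subset_of_nonneg
        · intro p hp
          rw [mem_Pr] at hp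
          rw [mem_Ioc]
          refine ⟨?_, hp.1.2⟩
          by_contra h
          exact hp.2.2 (hQ p hp.2.1 (not_lt.mp h))
        · intro i _ _
          positivity
    _ ≤ ((100 : ℕ) : ℝ)⁻¹ - (X : ℝ)⁻¹ := sum_Ioc_inv_sq_le_sub (by norm_num) hX
    _ ≤ 1 / 100 := by
        have : (0 : ℝ) ≤ (X : ℝ)⁻¹ := by positivity
        norm_num

lemma abs_Df_le {a b x y : ℤ} {X : ℕ} (hx : |x| ≤ X) (hy : |y| ≤ X) :
    |Df a b x y| ≤ (1 + 6 * |a| + 8 * |b| + 3 * a ^ 2) * (X : ℤ) ^ 4 := by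
  have hX : (0 : ℤ) ≤ X := Int.natCast_nonneg X
  have e1 : |x ^ 4| ≤ (X : ℤ) ^ 4 := by rw [abs_pow]; exact pow_le_pow_left₀ (abs_nonneg _) hx 4
  have e2 : |x ^ 2 * y ^ 2| ≤ (X : ℤ) ^ 4 := by
    rw [abs_mul, abs_pow, abs_pow]
    calc _ ≤ (X : ℤ) ^ 2 * (X : ℤ) ^ 2 := mul_le_mul (pow_le_pow_left₀ (abs_nonneg _) hx 2)
            (pow_le_pow_left₀ (abs_nonneg _) hy 2) (by positivity) (by positivity)
      _ = _ := by ring
  have e3 : |x * y ^ 3| ≤ (X : ℤ) ^ 4 := by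
    rw [abs_mul, abs_pow]
    calc _ ≤ (X : ℤ) * (X : ℤ) ^ 3 := mul_le_mul hx
            (pow_le_pow_left₀ (abs_nonneg _) hy 3) (by positivity) (by positivity)
      _ = _ := by ring
  have e4 : |y ^ 4| ≤ (X : ℤ) ^ 4 := by rw [abs_pow]; exact pow_le_pow_left₀ (abs_nonneg _) hy 4
  have e : Df a b x y = x ^ 4 - 6 * a * (x ^ 2 * y ^ 2) - 8 * b * (x * y ^ 3) - 3 * a ^ 2 * y ^ 4 := by
    simp only [Df]; ring
  rw [e]
  have f2 : |6 * a * (x ^ 2 * y ^ 2)| ≤ 6 * |a| * (X : ℤ) ^ 4 := by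
    rw [abs_mul, abs_mul]
    exact mul_le_mul_of_nonneg_left e2 (by positivity)
  have f3 : |8 * b * (x * y ^ 3)| ≤ 8 * |b| * (X : ℤ) ^ 4 := by
    rw [abs_mul, abs_mul]
    exact mul_le_mul_of_nonneg_left e3 (by positivity)
  have f4 : |3 * a ^ 2 * y ^ 4| ≤ 3 * a ^ 2 * (X : ℤ) ^ 4 := by
    rw [abs_mul, abs_mul, abs_pow, sq_abs]
    exact mul_le_mul_of_nonneg_left e4 (by positivity)
  calc _ ≤ |x ^ 4 - 6 * a * (x ^ 2 * y ^ 2) - 8 * b * (x * y ^ 3)| + |3 * a ^ 2 * y ^ 4| := abs_sub _ _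
    _ ≤ (|x ^ 4 - 6 * a * (x ^ 2 * y ^ 2)| + |8 * b * (x * y ^ 3)|) + |3 * a ^ 2 * y ^ 4| := by
        gcongr; exact abs_sub _ _
    _ ≤ ((|x ^ 4| + |6 * a * (x ^ 2 * y ^ 2)|) + |8 * b * (x * y ^ 3)|) + |3 * a ^ 2 * y ^ 4| := by
        gcongr; exact abs_sub _ _
    _ ≤ (((X : ℤ) ^ 4 + 6 * |a| * (X : ℤ) ^ 4) + 8 * |b| * (X : ℤ) ^ 4) + 3 * a ^ 2 * (X : ℤ) ^ 4 := by
        gcongr
    _ = _ := by ring

/-- the constant bounding `D` -/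
def Cst (a b : ℤ) : ℕ := 1 + 6 * a.natAbs + 8 * b.natAbs + 3 * a.natAbs ^ 2

lemma Cst_cast (a b : ℤ) : ((Cst a b : ℕ) : ℤ) = 1 + 6 * |a| + 8 * |b| + 3 * a ^ 2 := by
  simp only [Cst]
  push_cast
  rw [sq_abs]

lemma prime_le_of_sq_dvd {a b x y : ℤ} {X p : ℕ} (hx : |x| ≤ X) (hy : |y| ≤ X)
    (h : ((p : ℤ) ^ 2) ∣ Df a b x y) (h0 : Df a b x y ≠ 0) : p ≤ Cst a b * X ^ 2 := by
  have h1 : ((p : ℤ) ^ 2) ≤ |Df a b x y| := by
    have := Int.le_of_dvd (abs_pos.mpr h0) ((dvd_abs _ _).mpr h)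
    exact this
  have h2 := h1.trans (abs_Df_le (a := a) (b := b) hx hy)
  rw [← Cst_cast] at h2
  have h3 : p ^ 2 ≤ Cst a b * X ^ 4 := by exact_mod_cast h2
  have h4 : 1 ≤ Cst a b := by simp only [Cst]; omega
  have h5 : p ^ 2 ≤ (Cst a b * X ^ 2) ^ 2 := by
    calc p ^ 2 ≤ Cst a b * X ^ 4 := h3
      _ ≤ Cst a b ^ 2 * X ^ 4 := Nat.mul_le_mul_right _ (by nlinarith)
      _ = _ := by ring
  exact (Nat.pow_le_pow_iff_left two_ne_zero).mp h5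

lemma xv_nonneg (Q z i : ℕ) : 0 ≤ xv Q z i := by simp only [xv]; positivity

lemma xv_le {Q z i m : ℕ} (hz : z < Q) (hi : i < m) : xv Q z i ≤ ((Q * m : ℕ) : ℤ) := by
  simp only [xv]
  have : z + Q * i ≤ Q * m := by
    calc z + Q * i ≤ Q + Q * i := by omega
      _ = Q * (i + 1) := by ring
      _ ≤ Q * m := Nat.mul_le_mul_left _ hi
  exact_mod_cast this

lemma final_ineq {β δ N S P1 P2 QC C M : ℝ} (hC : 0 ≤ C) (hQc : 1 ≤ QC) (hβ' : 1 ≤ β)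
    (hδ' : 1 ≤ δ) (hN1 : 1 ≤ N) (hM : M = QC * (β + 5 * δ + 1) + 4 * C * QC ^ 2) (hM0 : 0 < M)
    (hS : S ≤ 1 / 100) (hP1 : P1 ≤ 1 / (2 * M) * (QC * N))
    (hP2 : P2 ≤ 1 / (2 * M) * (C * (QC * N) ^ 2))
    (hcard' : (β * N) * (δ * N) ≤ (β * δ * N ^ 2 * S + P1 * ((β + δ) * N + 1)) +
      (4 * (β * δ * N ^ 2 * S) + P1 * (4 * δ * N)) + P2 * 4) : False := by
  have t1 : β * δ * N ^ 2 * S ≤ β * δ * N ^ 2 * (1 / 100) :=
    mul_le_mul_of_nonneg_left hS (by positivity)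
  have t2 : P1 * (((β + δ) * N + 1) + 4 * δ * N) ≤
      (1 / (2 * M) * (QC * N)) * ((β + 5 * δ + 1) * N) := by
    apply mul_le_mul hP1 _ (by positivity) (by positivity)
    nlinarith
  have t3 : P2 * 4 ≤ (1 / (2 * M) * (C * (QC * N) ^ 2)) * 4 :=
    mul_le_mul_of_nonneg_right hP2 (by norm_num)
  have t5 : 1 / (2 * M) * M = 1 / 2 := by field_simp
  have t4 : (1 / (2 * M) * (QC * N)) * ((β + 5 * δ + 1) * N) +
      (1 / (2 * M) * (C * (QC * N) ^ 2)) * 4 = 1 / 2 * N ^ 2 := by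
    calc _ = 1 / (2 * M) * (QC * (β + 5 * δ + 1) + 4 * C * QC ^ 2) * N ^ 2 := by ring
      _ = _ := by rw [← hM, t5]
  have t6 : N ^ 2 ≤ β * δ * N ^ 2 := by
    have : (1 : ℝ) ≤ β * δ := by nlinarith
    nlinarith [sq_nonneg N]
  have t7 : 0 < N ^ 2 := by positivity
  have t8 : P1 * (((β + δ) * N + 1) + 4 * δ * N) = P1 * ((β + δ) * N + 1) + P1 * (4 * δ * N) := by
    ring
  have t9 : β * N * (δ * N) = β * δ * N ^ 2 := by ring
  rw [t9] at hcard'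
  linarith

theorem exists_squarefree (a b : ℤ) (Q x0 y0 : ℕ) (hQ0 : 0 < Q) (hx0 : x0 < Q) (hy0 : y0 < Q)
    (h100 : ∀ p : ℕ, p.Prime → p ≤ 100 → p ∣ Q)
    (hbad : ∀ p : ℕ, p.Prime → (p : ℤ) ∣ 6 * (a ^ 3 - b ^ 2) → p ∣ Q)
    (hcop : ∀ p : ℕ, p.Prime → p ∣ Q → ¬ (p ∣ x0 ∧ p ∣ y0))
    (α β γ δ : ℕ) (hβ : 0 < β) (hδ : 0 < δ) (n0 : ℕ)
    (hne : ∀ n i j : ℕ, n0 ≤ n → 0 < n → i ∈ Ico (α * n) (α * n + β * n) →
      j ∈ Ico (γ * n) (γ * n + δ * n) → Df a b (xv Q x0 i) (xv Q y0 j) ≠ 0) :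
    ∃ n i j : ℕ, n0 ≤ n ∧ 0 < n ∧ i ∈ Ico (α * n) (α * n + β * n) ∧
      j ∈ Ico (γ * n) (γ * n + δ * n) ∧ IsCoprime (xv Q x0 i) (xv Q y0 j) ∧
      ∀ p : ℕ, p.Prime → ¬ p ∣ Q → ¬ ((p : ℤ) ^ 2) ∣ Df a b (xv Q x0 i) (xv Q y0 j) := by
  classical
  set c := α + β + γ + δ with hc
  set C := Cst a b with hC
  have hC1 : 1 ≤ C := by simp only [hC, Cst]; omega
  have hc1 : 1 ≤ c := by omega
  set M : ℝ := (Q * c) * (β + 5 * δ + 1) + 4 * C * (Q * c) ^ 2 with hM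
  have hQc : (1 : ℝ) ≤ Q * c := by
    have : 1 ≤ Q * c := Nat.mul_pos hQ0 hc1
    exact_mod_cast this
  have hM0 : 0 < M := by
    have h1 : (0 : ℝ) ≤ β := Nat.cast_nonneg _
    have h2 : (0 : ℝ) ≤ δ := Nat.cast_nonneg _
    have h3 : (0 : ℝ) ≤ C := Nat.cast_nonneg _
    rw [hM]
    have : 0 < (Q * c : ℝ) * (β + 5 * δ + 1) := by
      apply mul_pos (by linarith)
      positivity
    positivity
  obtain ⟨m₀, hm₀⟩ := primeCounting_le_eps (ε := 1 / (2 * M)) (by positivity)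
  set n := n0 + m₀ + 100 with hn
  have hn1 : 1 ≤ n := by omega
  by_contra hcon
  push Not at hcon
  set I := Ico (α * n) (α * n + β * n) with hI
  set J := Ico (γ * n) (γ * n + δ * n) with hJ
  set X := Q * (c * n) with hX
  have hXn : n ≤ X := by
    calc n = 1 * (1 * n) := by ring
      _ ≤ Q * (c * n) := Nat.mul_le_mul hQ0 (Nat.mul_le_mul hc1 le_rfl)
  have hxX : ∀ i ∈ I, xv Q x0 i ≤ X := by
    intro i hi
    rw [hI, mem_Ico] at hi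
    exact xv_le hx0 (lt_of_lt_of_le hi.2 (by rw [hc]; nlinarith))
  have hyX : ∀ j ∈ J, xv Q y0 j ≤ X := by
    intro j hj
    rw [hJ, mem_Ico] at hj
    exact xv_le hy0 (lt_of_lt_of_le hj.2 (by rw [hc]; nlinarith))
  have hsub : I ×ˢ J ⊆ ((Pr Q 0 X).biUnion (fun p => Gp Q x0 y0 p I J)) ∪
      ((Pr Q 0 X).biUnion (fun p => Ap a b Q x0 y0 p I J)) ∪
      ((Pr Q X (C * X ^ 2)).biUnion (fun p => Ap a b Q x0 y0 p I J)) := by
    rintro ⟨i, j⟩ hij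
    rw [mem_product] at hij
    obtain ⟨hi, hj⟩ := hij
    simp only at hi hj
    have hne' := hne n i j (by omega) (by omega) hi hj
    have hx1 := hxX i hi
    have hy1 := hyX j hj
    have hx2 := xv_nonneg Q x0 i
    have hy2 := xv_nonneg Q y0 j
    by_cases hcp : IsCoprime (xv Q x0 i) (xv Q y0 j)
    · obtain ⟨p, hp, hpQ, hpD⟩ := hcon n i j (by omega) (by omega) hi hj hcp
      have hple := prime_le_of_sq_dvd (X := X) (by rwa [abs_of_nonneg hx2])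
        (by rwa [abs_of_nonneg hy2]) hpD hne'
      have hmem : (i, j) ∈ Ap a b Q x0 y0 p I J := by
        rw [mem_Ap]; exact ⟨⟨hi, hj⟩, hcp, hpD⟩
      by_cases hpX : p ≤ X
      · apply mem_union_left
        apply mem_union_right
        rw [mem_biUnion]
        exact ⟨p, mem_Pr.mpr ⟨⟨hp.pos, hpX⟩, hp, hpQ⟩, hmem⟩
      · apply mem_union_right
        rw [mem_biUnion]
        exact ⟨p, mem_Pr.mpr ⟨⟨not_le.mp hpX, hple⟩, hp, hpQ⟩, hmem⟩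
    · -- common prime factor
      rw [Int.isCoprime_iff_gcd_eq_one] at hcp
      obtain ⟨p, hp, hpd⟩ := Nat.exists_prime_and_dvd hcp
      have hpx : (p : ℤ) ∣ xv Q x0 i := (Int.natCast_dvd_natCast.mpr hpd).trans (Int.gcd_dvd_left _ _)
      have hpy : (p : ℤ) ∣ xv Q y0 j := (Int.natCast_dvd_natCast.mpr hpd).trans (Int.gcd_dvd_right _ _)
      have hpQ : ¬ p ∣ Q := by
        intro hpQ
        apply hcop p hp hpQ
        have hpQ' : (p : ℤ) ∣ Q := Int.natCast_dvd_natCast.mpr hpQ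
        constructor
        · have := (dvd_add_left (Dvd.dvd.mul_right hpQ' (i : ℤ))).mp hpx
          exact_mod_cast this
        · have := (dvd_add_left (Dvd.dvd.mul_right hpQ' (j : ℤ))).mp hpy
          exact_mod_cast this
      have hpX : p ≤ X := by
        have : (p : ℤ) ≤ X := by
          rcases hx2.lt_or_eq with h | h
          · exact (Int.le_of_dvd h hpx).trans hx1
          · rcases hy2.lt_or_eq with h' | h'
            · exact (Int.le_of_dvd h' hpy).trans hy1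
            · exfalso
              apply hne'
              rw [← h, ← h']
              simp [Df]
        exact_mod_cast this
      apply mem_union_left
      apply mem_union_left
      rw [mem_biUnion]
      refine ⟨p, mem_Pr.mpr ⟨⟨hp.pos, hpX⟩, hp, hpQ⟩, ?_⟩
      rw [Gp, mem_filter, mem_product]
      exact ⟨⟨hi, hj⟩, hpx, hpy⟩
  have hgood : ∀ p : ℕ, p.Prime → ¬ p ∣ Q → GoodP a b p := fun p hp hpQ h => hpQ (hbad p hp h)
  have hcard : (β * n) * (δ * n) ≤ ∑ p ∈ Pr Q 0 X, ((β * n) / p + 1) * ((δ * n) / p + 1) +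
      ∑ p ∈ Pr Q 0 X, (δ * n) * (((β * n) / p ^ 2 + 1) * 4) + ∑ p ∈ Pr Q X (C * X ^ 2), 4 := by
    calc (β * n) * (δ * n) = (I ×ˢ J).card := by
          rw [card_product, hI, hJ, Nat.card_Ico, Nat.card_Ico, Nat.add_sub_cancel_left,
            Nat.add_sub_cancel_left]
      _ ≤ _ := card_le_card hsub
      _ ≤ _ := card_union_le _ _
      _ ≤ _ := Nat.add_le_add_right (card_union_le _ _) _
      _ ≤ _ := by
          apply Nat.add_le_add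
          · apply Nat.add_le_add
            · refine card_biUnion_le.trans (sum_le_sum fun p hp => ?_)
              rw [mem_Pr] at hp
              exact card_Gp Q x0 y0 hp.2.1 hp.2.2 _ _ _ _
            · refine card_biUnion_le.trans (sum_le_sum fun p hp => ?_)
              rw [mem_Pr] at hp
              exact card_Ap a b Q x0 y0 hp.2.1 hp.2.2 (hgood p hp.2.1 hp.2.2) _ _ _ _
          · refine card_biUnion_le.trans (sum_le_sum fun p hp => ?_)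
            rw [mem_Pr] at hp
            exact card_Ap_big a b Q x0 y0 hp.2.1 hQ0 (hgood p hp.2.1 hp.2.2) _ _ hxX hyX hp.1.1
  -- real numbers
  have hX100 : 100 ≤ X := by omega
  have hS := sum_Pr_le h100 hX100
  have hP1 : ((Pr Q 0 X).card : ℝ) ≤ 1 / (2 * M) * X :=
    le_trans (by exact_mod_cast card_Pr_le Q 0 X) (hm₀ X (by omega))
  have hP2 : ((Pr Q X (C * X ^ 2)).card : ℝ) ≤ 1 / (2 * M) * ((C * X ^ 2 : ℕ) : ℝ) := by
    refine le_trans (by exact_mod_cast card_Pr_le Q X (C * X ^ 2)) (hm₀ _ ?_)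
    calc m₀ ≤ X := by omega
      _ ≤ 1 * X ^ 2 := by nlinarith
      _ ≤ C * X ^ 2 := Nat.mul_le_mul_right _ hC1
  set N : ℝ := (n : ℝ) with hN
  have hN1 : 1 ≤ N := by rw [hN]; exact_mod_cast hn1
  have hβ' : (1 : ℝ) ≤ β := by exact_mod_cast hβ
  have hδ' : (1 : ℝ) ≤ δ := by exact_mod_cast hδ
  have b1 : ∀ p ∈ Pr Q 0 X, ((((β * n) / p + 1) * ((δ * n) / p + 1) : ℕ) : ℝ) ≤
      β * δ * N ^ 2 * ((p : ℝ) ^ 2)⁻¹ + ((β + δ) * N + 1) := by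
    intro p hp
    rw [mem_Pr] at hp
    have hp0 : (1 : ℝ) ≤ p := by exact_mod_cast hp.2.1.one_lt.le
    have e1 : (((β * n) / p : ℕ) : ℝ) ≤ β * N / p := by
      refine Nat.cast_div_le.trans (le_of_eq ?_); push_cast; rfl
    have e2 : (((δ * n) / p : ℕ) : ℝ) ≤ δ * N / p := by
      refine Nat.cast_div_le.trans (le_of_eq ?_); push_cast; rfl
    have e3 : (δ * N / p : ℝ) ≤ δ * N := div_le_self (by positivity) hp0
    have e4 : (β * N / p : ℝ) ≤ β * N := div_le_self (by positivity) hp0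
    push_cast
    calc (((β * n) / p : ℕ) + 1 : ℝ) * (((δ * n) / p : ℕ) + 1) ≤ (β * N / p + 1) * (δ * N / p + 1) := by
          gcongr
      _ = β * δ * N ^ 2 * ((p : ℝ) ^ 2)⁻¹ + (β * N / p + δ * N / p + 1) := by
          field_simp; ring
      _ ≤ _ := by nlinarith
  have b2 : ∀ p ∈ Pr Q 0 X, (((δ * n) * (((β * n) / p ^ 2 + 1) * 4) : ℕ) : ℝ) ≤
      4 * (β * δ * N ^ 2 * ((p : ℝ) ^ 2)⁻¹) + 4 * δ * N := by
    intro p hp
    have e1 : (((β * n) / p ^ 2 : ℕ) : ℝ) ≤ β * N / (p : ℝ) ^ 2 := by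
      refine Nat.cast_div_le.trans (le_of_eq ?_); push_cast; rfl
    push_cast
    calc (δ * N) * ((((β * n) / p ^ 2 : ℕ) + 1) * 4 : ℝ) ≤ (δ * N) * ((β * N / (p : ℝ) ^ 2 + 1) * 4) := by
          gcongr
      _ = _ := by rw [div_eq_mul_inv]; ring
  have hcard' : (β * N) * (δ * N) ≤
      (∑ p ∈ Pr Q 0 X, (β * δ * N ^ 2 * ((p : ℝ) ^ 2)⁻¹ + ((β + δ) * N + 1))) +
      (∑ p ∈ Pr Q 0 X, (4 * (β * δ * N ^ 2 * ((p : ℝ) ^ 2)⁻¹) + 4 * δ * N)) +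
      (∑ p ∈ Pr Q X (C * X ^ 2), (4 : ℝ)) := by
    have h1 : ((((β * n) * (δ * n) : ℕ)) : ℝ) ≤ ((∑ p ∈ Pr Q 0 X, ((β * n) / p + 1) * ((δ * n) / p + 1) +
      ∑ p ∈ Pr Q 0 X, (δ * n) * (((β * n) / p ^ 2 + 1) * 4) + ∑ p ∈ Pr Q X (C * X ^ 2), 4 : ℕ) : ℝ) := by
      exact_mod_cast hcard
    have h2 : ((((β * n) * (δ * n) : ℕ)) : ℝ) = (β * N) * (δ * N) := by push_cast; rfl
    rw [h2] at h1
    refine h1.trans ?_
    rw [Nat.cast_add, Nat.cast_add, Nat.cast_sum, Nat.cast_sum, Nat.cast_sum]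
    refine add_le_add (add_le_add (sum_le_sum b1) (sum_le_sum b2)) ?_
    exact sum_le_sum fun _ _ => by norm_num
  have s1 : (∑ p ∈ Pr Q 0 X, (β * δ * N ^ 2 * ((p : ℝ) ^ 2)⁻¹ + ((β + δ) * N + 1))) =
      β * δ * N ^ 2 * (∑ p ∈ Pr Q 0 X, ((p : ℝ) ^ 2)⁻¹) +
        ((Pr Q 0 X).card : ℝ) * ((β + δ) * N + 1) := by
    rw [sum_add_distrib, ← mul_sum, sum_const, nsmul_eq_mul]
  have s2 : (∑ p ∈ Pr Q 0 X, (4 * (β * δ * N ^ 2 * ((p : ℝ) ^ 2)⁻¹) + 4 * δ * N)) =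
      4 * (β * δ * N ^ 2 * (∑ p ∈ Pr Q 0 X, ((p : ℝ) ^ 2)⁻¹)) +
        ((Pr Q 0 X).card : ℝ) * (4 * δ * N) := by
    rw [sum_add_distrib, ← mul_sum, ← mul_sum, sum_const, nsmul_eq_mul]
  have s3 : (∑ p ∈ Pr Q X (C * X ^ 2), (4 : ℝ)) = ((Pr Q X (C * X ^ 2)).card : ℝ) * 4 := by
    rw [sum_const, nsmul_eq_mul]
  rw [s1, s2, s3] at hcard'
  have hXr : ((X : ℕ) : ℝ) = (Q * c) * N := by rw [hX]; push_cast; ring
  rw [hXr] at hP1
  have hCX : ((C * X ^ 2 : ℕ) : ℝ) = C * ((Q * c) * N) ^ 2 := by push_cast; rw [hXr]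
  rw [hCX] at hP2
  exact final_ineq (Nat.cast_nonneg C) hQc hβ' hδ' hN1 hM hM0 hS hP1 hP2 hcard'

end Fermat.Agent.ZCurve
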