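import Mathlib
import Fermat.Agent.ZCurve.LocalOdd
import Fermat.Agent.ZCurve.Sieve

set_option autoImplicit false

/-!
# The auxiliary prime, the box, and the Chinese remainder theorem
-/

namespace Fermat.Agent.ZCurve

open Fermat.Agent.S52A (Qv Qd Qd_ne_zero)

/-- the outcome at the auxiliary prime -/
def LocAux (l : ℕ) (a b x y : ℤ) : Prop := ¬ (l : ℤ) ∣ Df a b x y ∧
  ∀ X : ZMod l, X ^ 3 - 27 * ((C4f a b x y : ℤ) : ZMod l) * X -
    54 * ((C6f a b x y : ℤ) : ZMod l) ≠ 0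

lemma local_aux {l : ℕ} [hl : Fact l.Prime] {a b t : ℤ} (h6 : ¬ (l : ℤ) ∣ 6 * (a ^ 3 - b ^ 2))
    (ha : ¬ (l : ℤ) ∣ a) (ht : (l : ℤ) ∣ Qv a b t) :
    ∃ x0 y0 : ℕ, ¬ (l ∣ x0 ∧ l ∣ y0) ∧ ∀ x y : ℤ, ((l : ℕ) : ℤ) ^ 4 ∣ x - x0 →
      ((l : ℕ) : ℤ) ^ 4 ∣ y - y0 → LocAux l a b x y := by
  have h6' : (((6 * (a ^ 3 - b ^ 2) : ℤ)) : ZMod l) ≠ 0 := by
    rw [Ne, ZMod.intCast_zmod_eq_zero_iff_dvd]; exact h6
  push_cast at h6'
  have h2 : (2 : ZMod l) ≠ 0 := by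
    intro h; apply h6'
    rw [show (6 : ZMod l) = 2 * 3 by norm_num, h]; ring
  have h3 : (3 : ZMod l) ≠ 0 := by
    intro h; apply h6'
    rw [show (6 : ZMod l) = 2 * 3 by norm_num, h]; ring
  have hab : (a : ZMod l) ^ 3 ≠ (b : ZMod l) ^ 2 := by
    intro h; apply h6'
    rw [h]; ring
  have ha' : (a : ZMod l) ≠ 0 := by
    rw [Ne, ZMod.intCast_zmod_eq_zero_iff_dvd]; exact ha
  have hr : Qv (a : ZMod l) (b : ZMod l) (t : ZMod l) = 0 := by
    have := S52A.map_Qv (Int.castRingHom (ZMod l)) a b t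
    simp only [eq_intCast] at this
    rw [← this, ZMod.intCast_zmod_eq_zero_iff_dvd]
    exact ht
  obtain ⟨p, q, hp, hD, hg⟩ := exists_member h2 h3 hab ha' hr
  refine ⟨p.val, q.val, ?_, fun x y hx hy => ?_⟩
  · rintro ⟨h, -⟩
    apply hp
    have := (ZMod.natCast_eq_zero_iff p.val l).mpr h
    rwa [ZMod.natCast_val, ZMod.cast_id] at this
  · have hxx := natCast_pow_dvd (k := 1) (by norm_num) hx
    have hyy := natCast_pow_dvd (k := 1) (by norm_num) hy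
    rw [pow_one] at hxx hyy
    have ex : (x : ZMod l) = p := by
      rw [cast_eq_of_dvd hxx, Int.cast_natCast, ZMod.natCast_val, ZMod.cast_id]
    have ey : (y : ZMod l) = q := by
      rw [cast_eq_of_dvd hyy, Int.cast_natCast, ZMod.natCast_val, ZMod.cast_id]
    refine ⟨?_, ?_⟩
    · rw [← ZMod.intCast_zmod_eq_zero_iff_dvd, cast_Df, ex, ey]
      exact hD
    · intro X
      rw [cast_C4f, cast_C6f, ex, ey]
      exact cubic_no_root h3 hp hD hg X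

/-- Chinese remainders -/
lemma exists_crt (S : Finset ℕ) (hS : ∀ p ∈ S, p.Prime) (f : ℕ → ℕ) :
    ∃ x0 : ℕ, x0 < ∏ p ∈ S, p ^ 4 ∧ ∀ p ∈ S, ((p : ℕ) : ℤ) ^ 4 ∣ (x0 : ℤ) - f p := by
  have hpos : 0 < ∏ p ∈ S, p ^ 4 := Finset.prod_pos fun p hp => pow_pos (hS p hp).pos 4
  obtain ⟨k, hk⟩ := Nat.chineseRemainderOfFinset f (fun p => p ^ 4) S
    (fun p hp => (pow_pos (hS p hp).pos 4).ne') (by
      intro p hp q hq hpq
      exact Nat.Coprime.pow _ _ ((Nat.coprime_primes (hS p hp) (hS q hq)).mpr hpq))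
  refine ⟨k % ∏ p ∈ S, p ^ 4, Nat.mod_lt _ hpos, fun p hp => ?_⟩
  have h1 : k % (∏ p ∈ S, p ^ 4) ≡ f p [MOD p ^ 4] :=
    ((Nat.mod_modEq _ _).of_dvd (Finset.dvd_prod_of_mem _ hp)).trans (hk p hp)
  have h2 := (Nat.modEq_iff_dvd.mp h1.symm)
  exact_mod_cast h2

lemma Df_pos_large {a b x y : ℤ} (hy : 0 ≤ y) (hx : 1 ≤ x)
    (h : (6 * |a| + 8 * |b| + 3 * a ^ 2 + 1) * y ≤ x) : x ≤ Df a b x y := by
  set c : ℤ := 6 * |a| + 8 * |b| + 3 * a ^ 2 with hc
  have ha0 := abs_nonneg a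
  have hb0 := abs_nonneg b
  have hc0 : 0 ≤ c := by positivity
  have hyx : y ≤ x := by nlinarith
  have t1 : a * (x ^ 2 * y ^ 2) ≤ |a| * (x ^ 3 * y) := by
    calc a * (x ^ 2 * y ^ 2) ≤ |a| * (x ^ 2 * y ^ 2) :=
          mul_le_mul_of_nonneg_right (le_abs_self a) (by positivity)
      _ ≤ |a| * (x ^ 3 * y) := by
          apply mul_le_mul_of_nonneg_left _ ha0
          have : x ^ 3 * y - x ^ 2 * y ^ 2 = x ^ 2 * y * (x - y) := by ring
          have : 0 ≤ x ^ 2 * y * (x - y) := mul_nonneg (by positivity) (by linarith)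
          linarith
  have t2 : b * (x * y ^ 3) ≤ |b| * (x ^ 3 * y) := by
    calc b * (x * y ^ 3) ≤ |b| * (x * y ^ 3) :=
          mul_le_mul_of_nonneg_right (le_abs_self b) (by positivity)
      _ ≤ |b| * (x ^ 3 * y) := by
          apply mul_le_mul_of_nonneg_left _ hb0
          have e : x ^ 3 * y - x * y ^ 3 = x * y * (x - y) * (x + y) := by ring
          have : 0 ≤ x * y * (x - y) * (x + y) :=
            mul_nonneg (mul_nonneg (by positivity) (by linarith)) (by positivity)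
          linarith
  have t3 : a ^ 2 * y ^ 4 ≤ a ^ 2 * (x ^ 3 * y) := by
    apply mul_le_mul_of_nonneg_left _ (by positivity)
    have : y ^ 3 ≤ x ^ 3 := pow_le_pow_left₀ hy hyx 3
    calc y ^ 4 = y ^ 3 * y := by ring
      _ ≤ x ^ 3 * y := mul_le_mul_of_nonneg_right this hy
  have t4 : x ^ 4 - c * (x ^ 3 * y) ≤ Df a b x y := by
    simp only [Df]
    rw [hc]
    linarith
  have t5 : x ≤ x ^ 4 - c * (x ^ 3 * y) := by
    have e : x ^ 4 - c * (x ^ 3 * y) = x ^ 3 * (x - c * y) := by ring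
    rw [e]
    have h1 : 1 ≤ x - c * y := by
      rcases hy.lt_or_eq with h' | h'
      · linarith
      · rw [← h']; linarith
    have h3 : x ≤ x ^ 3 := by
      calc x = x ^ 1 := (pow_one x).symm
        _ ≤ x ^ 3 := pow_le_pow_right₀ hx (by norm_num)
    calc x ≤ x ^ 3 := h3
      _ = x ^ 3 * 1 := (mul_one _).symm
      _ ≤ x ^ 3 * (x - c * y) := mul_le_mul_of_nonneg_left h1 (by positivity)
  linarith

lemma Df_neg_large {a b x y : ℤ} (ha : a ≠ 0) (hx : 0 ≤ x) (hy : 1 ≤ y)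
    (h : (1 + 6 * |a| + 8 * |b|) * x ≤ y) : y ≤ -Df a b x y := by
  have ha0 := abs_nonneg a
  have hb0 := abs_nonneg b
  have ha2 : 1 ≤ a ^ 2 := by
    have h := pow_pos (abs_pos.mpr ha) 2
    rw [sq_abs] at h; omega
  have hxy : x ≤ y := by nlinarith
  have t0 : x ^ 4 ≤ x * y ^ 3 := by
    have : x ^ 3 ≤ y ^ 3 := pow_le_pow_left₀ hx hxy 3
    calc x ^ 4 = x * x ^ 3 := by ring
      _ ≤ x * y ^ 3 := mul_le_mul_of_nonneg_left this hx
  have t1 : -a * (x ^ 2 * y ^ 2) ≤ |a| * (x * y ^ 3) := by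
    calc -a * (x ^ 2 * y ^ 2) ≤ |a| * (x ^ 2 * y ^ 2) :=
          mul_le_mul_of_nonneg_right (neg_le_abs a) (by positivity)
      _ ≤ |a| * (x * y ^ 3) := by
          apply mul_le_mul_of_nonneg_left _ ha0
          have : x * y ^ 3 - x ^ 2 * y ^ 2 = x * y ^ 2 * (y - x) := by ring
          have : 0 ≤ x * y ^ 2 * (y - x) := mul_nonneg (by positivity) (by linarith)
          linarith
  have t2 : -b * (x * y ^ 3) ≤ |b| * (x * y ^ 3) :=
    mul_le_mul_of_nonneg_right (neg_le_abs b) (by positivity)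
  have t3 : Df a b x y ≤ (1 + 6 * |a| + 8 * |b|) * x * y ^ 3 - 3 * a ^ 2 * y ^ 4 := by
    simp only [Df]
    nlinarith
  have t4 : (1 + 6 * |a| + 8 * |b|) * x * y ^ 3 ≤ y ^ 4 := by
    calc (1 + 6 * |a| + 8 * |b|) * x * y ^ 3 ≤ y * y ^ 3 :=
          mul_le_mul_of_nonneg_right h (by positivity)
      _ = y ^ 4 := by ring
  have t5 : y ^ 4 ≤ a ^ 2 * y ^ 4 := by
    have : 0 ≤ y ^ 4 := by positivity
    nlinarith
  have t6 : y ≤ y ^ 4 := by
    calc y = y ^ 1 := (pow_one y).symm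
      _ ≤ y ^ 4 := pow_le_pow_right₀ hy (by norm_num)
  linarith

/-- the C4 covariant does not vanish at roots of `D` -/
lemma C4f_ne_zero {K : Type*} [Field K] (h2 : (2 : K) ≠ 0) (h3 : (3 : K) ≠ 0) {a b x y : K}
    (hab : a ^ 3 ≠ b ^ 2) (hxy : ¬ (x = 0 ∧ y = 0)) (h : Df a b x y = 0) : C4f a b x y ≠ 0 := by
  have hy : y ≠ 0 := by
    rintro rfl
    apply hxy
    have : x ^ 4 = 0 := by simpa [Df] using h
    exact ⟨pow_eq_zero_iff (by norm_num) |>.mp this, rfl⟩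
  have hQ := Qv_div hy h
  have hd := Qd_ne_zero h2 h3 hab hQ
  have e : 16 * C4f a b x y = y ^ 4 * (Qd a b (x / y) ^ 2 -
      16 * ((x / y) ^ 2 - a) * Qv a b (x / y)) := by
    simp only [C4f, Qd, Qv]; field_simp; ring
  rw [hQ, mul_zero, sub_zero] at e
  intro h4
  rw [h4, mul_zero] at e
  exact mul_ne_zero (pow_ne_zero _ hy) (pow_ne_zero _ hd) e.symm

end Fermat.Agent.ZCurve
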