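import Mathlib
import Fermat.Agent.S52.I3
import Fermat.Agent.ZCurve.Pencil

set_option autoImplicit false

/-!
# Congruence modulo 3 of point counts along the Hesse pencil
-/

namespace Fermat.Agent.ZCurve

open WeierstrassCurve WeierstrassCurve.Affine Fermat.Agent.S51.Torsion Fermat.Agent.FrobE
  Fermat.Agent.FrobChar

section rel

variable {K : Type*} [Field K] {W W' : Affine K} {a b p q : K}

/-- the relation `P' = θ(P)` on 3-torsion points -/
def Rel (W W' : Affine K) (a b p q : K) (P : W.Point) (P' : W'.Point) : Prop :=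
  (P = 0 ∧ P' = 0) ∨ ∃ x y h h', psi3 a b x = 0 ∧ P = Point.some x y h ∧
    P' = Point.some (Xn a b p q x) (Yn a b p q x y) h'

lemma Rel.zero : Rel W W' a b p q 0 0 := Or.inl ⟨rfl, rfl⟩

lemma Rel.some {x y : K} {h h'} (hx : psi3 a b x = 0) : Rel W W' a b p q (Point.some x y h)
    (Point.some (Xn a b p q x) (Yn a b p q x y) h') :=
  Or.inr ⟨x, y, h, h', hx, rfl, rfl⟩

lemma Rel.eq_zero {P : W.Point} {P' : W'.Point} (h : Rel W W' a b p q P P') (hP : P = 0) :
    P' = 0 := by
  rcases h with ⟨-, h⟩ | ⟨x, y, h1, h2, -, h3, -⟩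
  · exact h
  · rw [hP] at h3
    exact absurd h3.symm (Point.some_ne_zero h1)

lemma Rel.ne_zero {P : W.Point} {P' : W'.Point} (h : Rel W W' a b p q P P') (hP : P ≠ 0) :
    P' ≠ 0 := by
  rcases h with ⟨h, -⟩ | ⟨x, y, h1, h2, -, h3, h4⟩
  · exact absurd h hP
  · rw [h4]
    exact Point.some_ne_zero h2

variable (hW : IsSh W a b) (hW' : IsSh W' (C4f a b p q) (C6f a b p q))

include hW hW' in
lemma Rel.neg {P : W.Point} {P' : W'.Point} (h : Rel W W' a b p q P P') :
    Rel W W' a b p q (-P) (-P') := by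
  rcases h with ⟨h, h'⟩ | ⟨x, y, h1, h2, hx, h3, h4⟩
  · rw [h, h']
    exact Or.inl ⟨rfl, rfl⟩
  · right
    have e1 : W.negY x y = -y := by rw [negY, hW.a₁, hW.a₃]; ring
    have e2 : W'.negY (Xn a b p q x) (Yn a b p q x y) = Yn a b p q x (-y) := by
      rw [negY, hW'.a₁, hW'.a₃]
      simp only [Yn]; ring
    refine ⟨x, -y, by rw [← e1]; exact (nonsingular_neg _ _).mpr h1,
      by rw [← e2]; exact (nonsingular_neg _ _).mpr h2, hx, ?_, ?_⟩
    · rw [h3, Point.neg_some]
      exact some_congr rfl e1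
    · rw [h4, Point.neg_some]
      exact some_congr rfl e2

variable (h3 : (3 : K) ≠ 0) (hD : Df a b p q ≠ 0) [W'.IsElliptic]

include hW' h3 hD in
lemma image_nonsingular {x y : K} (hx : psi3 a b x = 0)
    (hy : y ^ 2 = x ^ 3 - 27 * a * x - 54 * b) :
    W'.Nonsingular (Xn a b p q x) (Yn a b p q x y) := by
  rw [← equation_iff_nonsingular, hW'.equation_iff]
  exact image_eq h3 hD hx hy

variable [DecidableEq K]

omit [W'.IsElliptic] in
include hW' h3 hD in
lemma three_image {x y : K} (hx : psi3 a b x = 0)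
    (h' : W'.Nonsingular (Xn a b p q x) (Yn a b p q x y)) :
    (3 : ℤ) • Point.some (Xn a b p q x) (Yn a b p q x y) h' = 0 := by
  apply three_of_P3_eq_zero
  rw [hW'.P3]
  exact psi3_image h3 hD hx

omit [W'.IsElliptic] in
lemma three_of_psi3 (hW : IsSh W a b) {x y : K} (hx : psi3 a b x = 0) (h : W.Nonsingular x y) :
    (3 : ℤ) • Point.some x y h = 0 := by
  apply three_of_P3_eq_zero
  rw [hW.P3, hx]

lemma double_eq_neg {G : Type*} [AddCommGroup G] {P : G} (h : (3 : ℤ) • P = 0) : P + P = -P := by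
  have : P + P - -P = (3 : ℤ) • P := by module
  rw [h, sub_eq_zero] at this
  exact this

include hW hW' h3 hD in
lemma Rel.add_some {x₁ y₁ x₂ y₂ : K} {h₁ : W.Nonsingular x₁ y₁} {h₂ : W.Nonsingular x₂ y₂}
    {h₁' : W'.Nonsingular (Xn a b p q x₁) (Yn a b p q x₁ y₁)}
    {h₂' : W'.Nonsingular (Xn a b p q x₂) (Yn a b p q x₂ y₂)}
    (hx₁ : psi3 a b x₁ = 0) (hx₂ : psi3 a b x₂ = 0) :
    Rel W W' a b p q (Point.some x₁ y₁ h₁ + Point.some x₂ y₂ h₂)
      (Point.some _ _ h₁' + Point.some _ _ h₂') := by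
  have t₁ := three_of_psi3 hW hx₁ h₁
  have t₂ := three_of_psi3 hW hx₂ h₂
  have t₁' := three_image hW' h3 hD hx₁ h₁'
  by_cases hx : x₁ = x₂
  · subst hx
    rcases Y_eq_of_X_eq h₁.1 h₂.1 rfl with hy | hy
    · subst hy
      rw [double_eq_neg t₁, double_eq_neg t₁']
      exact Rel.neg hW hW' (Rel.some hx₁)
    · have e1 : Point.some x₁ y₁ h₁ = - Point.some x₁ y₂ h₂ := by
        rw [Point.neg_some]; exact some_congr rfl hy
      have e2 : Point.some (Xn a b p q x₁) (Yn a b p q x₁ y₁) h₁' =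
          - Point.some (Xn a b p q x₁) (Yn a b p q x₁ y₂) h₂' := by
        rw [Point.neg_some]
        apply some_congr rfl
        rw [hy, negY, negY, hW.a₁, hW.a₃, hW'.a₁, hW'.a₃]
        simp only [Yn]; ring
      rw [e1, e2, neg_add_cancel, neg_add_cancel]
      exact Rel.zero
  · obtain ⟨l, x₃, y₃, h₃, hs, ex, ey, e⟩ := exists_add h₁ h₂ (fun h => hx h.1)
    have hx₃ : psi3 a b x₃ = 0 := by
      rw [← hW.P3]
      apply P3_eq_zero_of_three h₃
      rw [← e, zsmul_add, t₁, t₂, add_zero]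
    have t₃ := three_of_psi3 hW hx₃ h₃
    have hx13 : x₁ ≠ x₃ := by
      intro h
      subst h
      rcases Y_eq_of_X_eq h₁.1 h₃.1 rfl with hy | hy
      · subst hy
        exact Point.some_ne_zero h₂ (add_eq_left.mp e)
      · have e1 : Point.some x₁ y₃ h₃ = -Point.some x₁ y₁ h₁ := by
          rw [Point.neg_some]; apply some_congr rfl
          rw [hy, negY_negY]
        rw [e1, ← double_eq_neg t₁] at e
        have := add_left_cancel e
        rw [Point.some.injEq] at this
        exact hx this.1.symm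
    have hx23 : x₂ ≠ x₃ := by
      intro h
      subst h
      rcases Y_eq_of_X_eq h₂.1 h₃.1 rfl with hy | hy
      · subst hy
        exact Point.some_ne_zero h₁ (add_eq_right.mp e)
      · have e1 : Point.some x₂ y₃ h₃ = -Point.some x₂ y₂ h₂ := by
          rw [Point.neg_some]; apply some_congr rfl
          rw [hy, negY_negY]
        rw [e1, ← double_eq_neg t₂] at e
        have := add_right_cancel e
        rw [Point.some.injEq] at this
        exact hx this.1
    have h₃' := image_nonsingular hW' h3 hD hx₃ ((hW.equation_iff _ _).mp h₃.1)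
    rw [e]
    have key : Point.some _ _ h₁' + Point.some _ _ h₂' = Point.some _ _ h₃' := by
      apply add_of_collinear hW' h₁' h₂' h₃' (Xn_ne h3 hD hx₁ hx₂ hx) (Xn_ne h3 hD hx₁ hx₃ hx13)
        (Xn_ne h3 hD hx₂ hx₃ hx23)
      have d₁ := dd_ne_zero h3 hD hx₁
      have d₂ := dd_ne_zero h3 hD hx₂
      have d₃ := dd_ne_zero h3 hD hx₃
      have r1 := hs.r1
      rw [hW.a₁, hW.a₃] at ey
      have r2 : l * (x₁ - x₃) = y₁ + y₃ := by linear_combination -ey
      have i12 := id_four a b p q x₁ x₂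
      have i13 := id_four a b p q x₁ x₃
      have X12 : Xn a b p q x₁ - Xn a b p q x₂ =
          9 * Df a b p q * (x₁ - x₂) / (dd p q x₁ * dd p q x₂) := by
        rw [eq_div_iff (mul_ne_zero d₁ d₂), ← i12]
        field_simp
      have X13 : Xn a b p q x₁ - Xn a b p q x₃ =
          9 * Df a b p q * (x₁ - x₃) / (dd p q x₁ * dd p q x₃) := by
        rw [eq_div_iff (mul_ne_zero d₁ d₃), ← i13]
        field_simp
      have Y12 : Yn a b p q x₁ y₁ - Yn a b p q x₂ y₂ =
          3 * Df a b p q * ((x₁ - x₂) * (q * y₁ + l * dd p q x₁)) / (dd p q x₁ * dd p q x₂) := by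
        rw [eq_div_iff (mul_ne_zero d₁ d₂)]
        have : (x₁ - x₂) * (q * y₁ + l * dd p q x₁) = y₁ * dd p q x₂ - y₂ * dd p q x₁ := by
          simp only [dd]; linear_combination (3 * p - q * x₁) * r1
        rw [this]
        simp only [Yn]
        field_simp
      have Y13 : Yn a b p q x₁ y₁ + Yn a b p q x₃ y₃ =
          3 * Df a b p q * ((x₁ - x₃) * (q * y₁ + l * dd p q x₁)) / (dd p q x₁ * dd p q x₃) := by
        rw [eq_div_iff (mul_ne_zero d₁ d₃)]
        have : (x₁ - x₃) * (q * y₁ + l * dd p q x₁) = y₁ * dd p q x₃ + y₃ * dd p q x₁ := by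
          simp only [dd]; linear_combination (3 * p - q * x₁) * r2
        rw [this]
        simp only [Yn]
        field_simp
      rw [X12, X13, Y12, Y13]
      field_simp
    rw [key]
    exact Rel.some hx₃

include hW hW' h3 hD in
lemma Rel.add {P Q : W.Point} {P' Q' : W'.Point} (h : Rel W W' a b p q P P')
    (h' : Rel W W' a b p q Q Q') : Rel W W' a b p q (P + Q) (P' + Q') := by
  rcases h with ⟨e, e'⟩ | ⟨x₁, y₁, h₁, h₁', hx₁, e, e'⟩
  · rw [e, e', zero_add (M := W.Point), zero_add (M := W'.Point)]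
    exact h'
  · rcases h' with ⟨f, f'⟩ | ⟨x₂, y₂, h₂, h₂', hx₂, f, f'⟩
    · rw [f, f', add_zero (M := W.Point), add_zero (M := W'.Point), e, e']
      exact Rel.some hx₁
    · rw [e, e', f, f']
      exact Rel.add_some hW hW' h3 hD hx₁ hx₂

/-- the relation as a subgroup -/
def relGrp (hW : IsSh W a b) (hW' : IsSh W' (C4f a b p q) (C6f a b p q)) (h3 : (3 : K) ≠ 0)
    (hD : Df a b p q ≠ 0) : AddSubgroup (W.Point × W'.Point) where
  carrier := {P | Rel W W' a b p q P.1 P.2}
  zero_mem' := Rel.zero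
  add_mem' h h' := Rel.add hW hW' h3 hD h h'
  neg_mem' h := Rel.neg hW hW' h

lemma mem_relGrp {P : W.Point × W'.Point} :
    P ∈ relGrp hW hW' h3 hD ↔ Rel W W' a b p q P.1 P.2 := Iff.rfl

end rel

section frob

variable {F : Type*} [Field F] [Fintype F] {M : Type*} [Field M] [Algebra F M] [DecidableEq M]
  {W W' : Affine F} {a b p q : F}

lemma Rel.frob {P : (W⁄M).Point} {P' : (W'⁄M).Point}
    (h : Rel (W⁄M) (W'⁄M) (algebraMap F M a) (algebraMap F M b) (algebraMap F M p)
      (algebraMap F M q) P P') :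
    Rel (W⁄M) (W'⁄M) (algebraMap F M a) (algebraMap F M b) (algebraMap F M p)
      (algebraMap F M q) (frobPt W P) (frobPt W' P') := by
  have hs : ∀ s : F, (FiniteField.frobeniusAlgHom F M : M →+* M) (algebraMap F M s) =
    algebraMap F M s := fun s => (FiniteField.frobeniusAlgHom F M).commutes s
  have hN : ∀ x : M, Nn (algebraMap F M a) (algebraMap F M b) (algebraMap F M p)
      (algebraMap F M q) ((FiniteField.frobeniusAlgHom F M : M →+* M) x) =
      (FiniteField.frobeniusAlgHom F M : M →+* M) (Nn (algebraMap F M a) (algebraMap F M b)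
        (algebraMap F M p) (algebraMap F M q) x) := by
    intro x
    simp only [Nn, map_sub, map_add, map_mul, map_pow, map_ofNat, hs]
  have hd : ∀ x : M, dd (algebraMap F M p)
      (algebraMap F M q) ((FiniteField.frobeniusAlgHom F M : M →+* M) x) =
      (FiniteField.frobeniusAlgHom F M : M →+* M) (dd
        (algebraMap F M p) (algebraMap F M q) x) := by
    intro x
    simp only [dd, map_sub, map_mul, map_ofNat, hs]
  have hD' : (FiniteField.frobeniusAlgHom F M : M →+* M) (Df (algebraMap F M a)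
      (algebraMap F M b) (algebraMap F M p) (algebraMap F M q)) =
      Df (algebraMap F M a) (algebraMap F M b) (algebraMap F M p) (algebraMap F M q) := by
    rw [map_Df, hs, hs, hs, hs]
  have hpsi : ∀ x : M, psi3 (algebraMap F M a) (algebraMap F M b)
      ((FiniteField.frobeniusAlgHom F M : M →+* M) x) =
      (FiniteField.frobeniusAlgHom F M : M →+* M) (psi3 (algebraMap F M a) (algebraMap F M b) x) := by
    intro x
    simp only [psi3, map_sub, map_mul, map_pow, map_ofNat, hs]
  have hX : ∀ x : M, (Xn (algebraMap F M a) (algebraMap F M b) (algebraMap F M p)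
      (algebraMap F M q) x) ^ Fintype.card F = Xn (algebraMap F M a) (algebraMap F M b)
        (algebraMap F M p) (algebraMap F M q) (x ^ Fintype.card F) := by
    intro x
    change (FiniteField.frobeniusAlgHom F M : M →+* M) _ = Xn _ _ _ _
      ((FiniteField.frobeniusAlgHom F M : M →+* M) x)
    simp only [Xn]
    rw [map_div₀, hN, hd]
  have hY : ∀ x y : M, (Yn (algebraMap F M a) (algebraMap F M b) (algebraMap F M p)
      (algebraMap F M q) x y) ^ Fintype.card F = Yn (algebraMap F M a) (algebraMap F M b)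
        (algebraMap F M p) (algebraMap F M q) (x ^ Fintype.card F) (y ^ Fintype.card F) := by
    intro x y
    change (FiniteField.frobeniusAlgHom F M : M →+* M) _ = Yn _ _ _ _
      ((FiniteField.frobeniusAlgHom F M : M →+* M) x)
      ((FiniteField.frobeniusAlgHom F M : M →+* M) y)
    simp only [Yn]
    rw [map_div₀, hd, map_mul, map_mul, hD', map_ofNat]
  rcases h with ⟨e, e'⟩ | ⟨x, y, h, h', hx, e, e'⟩
  · rw [e, e', frobPt_zero, frobPt_zero]
    exact Rel.zero
  · obtain ⟨h1, e1⟩ := frobPt_some (L := M) W h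
    obtain ⟨h2, e2⟩ := frobPt_some (L := M) W' h'
    rw [e, e', e1, e2]
    have hx' : psi3 (algebraMap F M a) (algebraMap F M b) (x ^ Fintype.card F) = 0 := by
      have := hpsi x
      rw [hx, map_zero] at this
      exact this
    exact Or.inr ⟨_, _, h1, by rw [← hX, ← hY]; exact h2, hx', rfl,
      some_congr (hX x) (hY x y)⟩

/-- congruence modulo 3 of the point counts -/
theorem count_congr3 (h2 : (2 : F) ≠ 0) (h3 : (3 : F) ≠ 0)
    (W W' : Affine F) [W.IsElliptic] [W'.IsElliptic] {a b p q : F}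
    (hW : IsSh W a b) (hW' : IsSh W' (C4f a b p q) (C6f a b p q)) (hD : Df a b p q ≠ 0) :
    (3 : ℤ) ∣ (Nat.card W.Point : ℤ) - Nat.card W'.Point := by
  classical
  let M := AlgebraicClosure F
  have hinj : Function.Injective (algebraMap F M) := (algebraMap F M).injective
  have m2 : (2 : M) ≠ 0 := fun h => h2 (hinj (by rw [map_ofNat, map_zero, h]))
  have m3 : (3 : M) ≠ 0 := fun h => h3 (hinj (by rw [map_ofNat, map_zero, h]))
  have : WeierstrassCurve.IsElliptic (W⁄M) := by
    change WeierstrassCurve.IsElliptic (W.map (algebraMap F M))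
    infer_instance
  have : WeierstrassCurve.IsElliptic (W'⁄M) := by
    change WeierstrassCurve.IsElliptic (W'.map (algebraMap F M))
    infer_instance
  have hW1 : IsSh (W⁄M) (algebraMap F M a) (algebraMap F M b) := by
    refine ⟨?_, ?_, ?_, ?_, ?_⟩
    · change algebraMap F M W.a₁ = 0; rw [hW.1, map_zero]
    · change algebraMap F M W.a₂ = 0; rw [hW.2, map_zero]
    · change algebraMap F M W.a₃ = 0; rw [hW.3, map_zero]
    · change algebraMap F M W.a₄ = _; rw [hW.4, map_mul, map_neg, map_ofNat]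
    · change algebraMap F M W.a₆ = _; rw [hW.5, map_mul, map_neg, map_ofNat]
  have hW1' : IsSh (W'⁄M) (C4f (algebraMap F M a) (algebraMap F M b) (algebraMap F M p)
      (algebraMap F M q)) (C6f (algebraMap F M a) (algebraMap F M b) (algebraMap F M p)
      (algebraMap F M q)) := by
    rw [← map_C4f, ← map_C6f]
    refine ⟨?_, ?_, ?_, ?_, ?_⟩
    · change algebraMap F M W'.a₁ = 0; rw [hW'.1, map_zero]
    · change algebraMap F M W'.a₂ = 0; rw [hW'.2, map_zero]
    · change algebraMap F M W'.a₃ = 0; rw [hW'.3, map_zero]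
    · change algebraMap F M W'.a₄ = _; rw [hW'.4, map_mul, map_neg, map_ofNat]
    · change algebraMap F M W'.a₆ = _; rw [hW'.5, map_mul, map_neg, map_ofNat]
  have hD1 : Df (algebraMap F M a) (algebraMap F M b) (algebraMap F M p) (algebraMap F M q) ≠ 0 := by
    rw [← map_Df]
    exact fun h => hD (hinj (by rw [h, map_zero]))
  obtain ⟨x, hx⟩ : ∃ x : M, psi3 (algebraMap F M a) (algebraMap F M b) x = 0 := by
    let P : Polynomial M := Polynomial.C 3 * Polynomial.X ^ 4 -
      Polynomial.C (162 * algebraMap F M a) * Polynomial.X ^ 2 -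
      Polynomial.C (648 * algebraMap F M b) * Polynomial.X -
      Polynomial.C (729 * (algebraMap F M a) ^ 2)
    have hdeg : P.degree = 4 := by
      simp only [P]; compute_degree!
    obtain ⟨x, hx⟩ := IsAlgClosed.exists_root P (by rw [hdeg]; norm_num)
    exact ⟨x, by simpa [P, psi3] using hx⟩
  obtain ⟨y, hy⟩ := IsAlgClosed.exists_pow_nat_eq
    (x ^ 3 - 27 * algebraMap F M a * x - 54 * algebraMap F M b) (n := 2) (by norm_num)
  have hns : (W⁄M).Nonsingular x y := by
    rw [← equation_iff_nonsingular, hW1.equation_iff]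
    exact hy
  have hns' := image_nonsingular hW1' m3 hD1 hx hy
  set P : (W⁄M).Point := Point.some x y hns with hP
  set P' : (W'⁄M).Point := Point.some _ _ hns' with hP'
  have hr : Rel (W⁄M) (W'⁄M) (algebraMap F M a) (algebraMap F M b) (algebraMap F M p)
      (algebraMap F M q) P P' := Rel.some hx
  have t3 : (3 : ℤ) • P = 0 := three_of_psi3 hW1 hx hns
  have t3' : (3 : ℤ) • P' = 0 := three_image hW1' m3 hD1 hx hns'
  have ch1 := frobenius_char_eq_of_odd W hW.1 hW.3 h2 (M := M) (m := 3) (by decide) P t3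
  have ch2 := frobenius_char_eq_of_odd W' hW'.1 hW'.3 h2 (M := M) (m := 3) (by decide) P' t3'
  set t := (Fintype.card F : ℤ) + 1 - (Nat.card W.Point : ℤ) with ht
  set t' := (Fintype.card F : ℤ) + 1 - (Nat.card W'.Point : ℤ) with ht'
  have hr1 := hr.frob
  have hr2 := hr1.frob
  have hmem : ((frobPt W (frobPt W P) - t • frobPt W P + (Fintype.card F : ℤ) • P),
      (frobPt W' (frobPt W' P') - t • frobPt W' P' + (Fintype.card F : ℤ) • P')) ∈
      relGrp hW1 hW1' m3 hD1 := by
    have e1 : ((P, P') : (W⁄M).Point × (W'⁄M).Point) ∈ relGrp hW1 hW1' m3 hD1 := hr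
    have e2 : ((frobPt W P, frobPt W' P') : (W⁄M).Point × (W'⁄M).Point) ∈
      relGrp hW1 hW1' m3 hD1 := hr1
    have e3 : ((frobPt W (frobPt W P), frobPt W' (frobPt W' P')) :
      (W⁄M).Point × (W'⁄M).Point) ∈ relGrp hW1 hW1' m3 hD1 := hr2
    exact add_mem (sub_mem e3 (zsmul_mem e2 t)) (zsmul_mem e1 _)
  have ch3 := Rel.eq_zero ((mem_relGrp hW1 hW1' m3 hD1).mp hmem) ch1
  simp only at ch3
  have h4 : (t' - t) • frobPt W' P' = 0 := by
    have : (t' - t) • frobPt W' P' =
      (frobPt W' (frobPt W' P') - t • frobPt W' P' + (Fintype.card F : ℤ) • P') -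
      (frobPt W' (frobPt W' P') - t' • frobPt W' P' + (Fintype.card F : ℤ) • P') := by module
    rw [this, ch2, ch3, sub_zero]
  have hne : frobPt W' P' ≠ 0 := by
    obtain ⟨h', e'⟩ := frobPt_some (L := M) W' hns'
    rw [hP', e']
    exact Point.some_ne_zero _
  have h5 : (3 : ℤ) • frobPt W' P' = 0 := by
    rw [← map_zsmul, t3', map_zero]
  have h6 : (3 : ℤ) ∣ t' - t := by
    by_contra hcon
    have hcop : IsCoprime (3 : ℤ) (t' - t) :=
      ((Prime.coprime_iff_not_dvd Int.prime_three).mpr hcon)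
    obtain ⟨u, v, huv⟩ := hcop
    apply hne
    rw [← one_zsmul (frobPt W' P'), ← huv, add_zsmul, mul_zsmul, mul_zsmul, h5, h4, zsmul_zero,
      zsmul_zero, add_zero]
  have e : (Nat.card W.Point : ℤ) - Nat.card W'.Point = t' - t := by rw [ht, ht']; ring
  rw [e]
  exact h6

/-- congruence modulo 3 for short models -/
theorem count_short3 (h2 : (2 : F) ≠ 0) (h3 : (3 : F) ≠ 0) {a b p q : F}
    (hab : a ^ 3 ≠ b ^ 2) (hD : Df a b p q ≠ 0) :
    (3 : ℤ) ∣ (Nat.card (S52.shortE a b).toAffine.Point : ℤ) -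
      Nat.card (S52.shortE (C4f a b p q) (C6f a b p q)).toAffine.Point := by
  have hab' : (C4f a b p q) ^ 3 ≠ (C6f a b p q) ^ 2 := by
    intro h
    have e := form_id a b p q
    rw [h, sub_self] at e
    rcases mul_eq_zero.mp e.symm with h | h
    · exact hab (sub_eq_zero.mp h)
    · exact hD ((pow_eq_zero_iff (by norm_num)).mp h)
  have := S52.shortE_isElliptic h2 h3 hab
  have := S52.shortE_isElliptic h2 h3 hab'
  exact count_congr3 h2 h3 (S52.shortE a b) (S52.shortE (C4f a b p q) (C6f a b p q))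
    ⟨rfl, rfl, rfl, rfl, rfl⟩ ⟨rfl, rfl, rfl, rfl, rfl⟩ hD

end frob

end Fermat.Agent.ZCurve
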