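import Mathlib

set_option autoImplicit false

/-!
# Integral models with prescribed `c₄`, `c₆`
-/

namespace Fermat.Agent.ZCurve

open WeierstrassCurve

lemma zmod16 : ∀ c d : ZMod 16, c ^ 3 = d ^ 2 → d ^ 4 = 1 → c = d ^ 2 := by decide

lemma zmod16_odd : ∀ d : ZMod 16, ZMod.cast (R := ZMod 2) d = 1 → d ^ 4 = 1 := by decide

lemma two_part {c4 c6 Δ1 : ℤ} (h : c4 ^ 3 - c6 ^ 2 = 1728 * Δ1) (h6 : c6 % 4 = 3) :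
    16 ∣ c6 ^ 2 - c4 := by
  have h1 : ((c4 : ℤ) : ZMod 16) ^ 3 = ((c6 : ℤ) : ZMod 16) ^ 2 := by
    have : ((c4 ^ 3 - c6 ^ 2 : ℤ) : ZMod 16) = 0 := by
      rw [h, ZMod.intCast_zmod_eq_zero_iff_dvd]
      exact ⟨108 * Δ1, by push_cast; ring⟩
    push_cast at this
    exact sub_eq_zero.mp this
  have h2 : ((c6 : ℤ) : ZMod 16) ^ 4 = 1 := by
    have : ((c6 ^ 4 - 1 : ℤ) : ZMod 16) = 0 := by
      rw [ZMod.intCast_zmod_eq_zero_iff_dvd]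
      obtain ⟨k, hk⟩ : ∃ k, c6 = 4 * k + 3 := ⟨c6 / 4, by omega⟩
      refine ⟨16 * k ^ 4 + 48 * k ^ 3 + 54 * k ^ 2 + 27 * k + 5, ?_⟩
      rw [hk]; push_cast; ring
    push_cast at this
    exact sub_eq_zero.mp this
  have h3 := zmod16 _ _ h1 h2
  have : ((c6 ^ 2 - c4 : ℤ) : ZMod 16) = 0 := by
    push_cast
    rw [h3, sub_self]
  exact_mod_cast (ZMod.intCast_zmod_eq_zero_iff_dvd _ _).mp this

/-- existence of an integral model -/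
theorem exists_model {c4 c6 Δ1 β : ℤ} (h : c4 ^ 3 - c6 ^ 2 = 1728 * Δ1) (h6 : c6 % 4 = 3)
    (hβ : 27 ∣ β ^ 3 - 3 * β * c4 - 2 * c6) (hβ' : 3 ∣ β ^ 2 - c4) :
    ∃ W : WeierstrassCurve ℤ, W.c₄ = c4 ∧ W.c₆ = c6 ∧ W.Δ = Δ1 := by
  obtain ⟨m, hm⟩ := two_part h h6
  obtain ⟨r, hr⟩ := hβ
  obtain ⟨s, hs⟩ := hβ'
  obtain ⟨k, hk⟩ : ∃ k, c6 = 4 * k + 3 := ⟨c6 / 4, by omega⟩
  set B : ℤ := -81 * c6 + 352 * β with hB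
  -- congruences of `B`
  have e8 : ∃ j, c4 = 1 + 8 * j := by
    refine ⟨2 * k ^ 2 + 3 * k + 1 - 2 * m, ?_⟩
    have : c4 = c6 ^ 2 - 16 * m := by linear_combination -hm
    rw [this, hk]; ring
  obtain ⟨j, hj⟩ := e8
  have a16 : (16 : ℤ) ∣ B ^ 2 - c4 := by
    obtain ⟨t, ht⟩ : ∃ t, B = -c6 + 16 * t := ⟨-5 * c6 + 22 * β, by rw [hB]; ring⟩
    refine ⟨m - 2 * c6 * t + 16 * t ^ 2, ?_⟩
    rw [ht]; linear_combination hm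
  have a3 : (3 : ℤ) ∣ B ^ 2 - c4 := by
    obtain ⟨t, ht⟩ : ∃ t, B = β + 27 * t := ⟨-3 * c6 + 13 * β, by rw [hB]; ring⟩
    refine ⟨s + 18 * β * t + 243 * t ^ 2, ?_⟩
    rw [ht]; linear_combination hs
  have b27 : (27 : ℤ) ∣ B ^ 3 - 3 * B * c4 - 2 * c6 := by
    obtain ⟨t, ht⟩ : ∃ t, B = β + 27 * t := ⟨-3 * c6 + 13 * β, by rw [hB]; ring⟩
    refine ⟨r + 3 * β ^ 2 * t + 81 * β * t ^ 2 + 729 * t ^ 3 - 3 * t * c4, ?_⟩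
    rw [ht]; linear_combination hr
  have b64 : (64 : ℤ) ∣ B ^ 3 - 3 * B * c4 - 2 * c6 := by
    obtain ⟨t, ht⟩ : ∃ t, B = -c6 + 16 * t := ⟨-5 * c6 + 22 * β, by rw [hB]; ring⟩
    refine ⟨-c6 * (j ^ 2 * (c4 + 2) - 27 * Δ1) + 12 * t * m - 12 * c6 * t ^ 2 + 64 * t ^ 3, ?_⟩
    rw [ht]
    have h8 : (c4 - 1) ^ 2 = 64 * j ^ 2 := by rw [hj]; ring
    linear_combination 48 * t * hm + c6 * h - c6 * (c4 + 2) * h8
  obtain ⟨b4, hb4⟩ : (48 : ℤ) ∣ B ^ 2 - c4 := by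
    have : IsCoprime (16 : ℤ) 3 := by norm_num
    exact_mod_cast this.mul_dvd a16 a3
  obtain ⟨b6, hb6⟩ : (1728 : ℤ) ∣ B ^ 3 - 3 * B * c4 - 2 * c6 := by
    have : IsCoprime (64 : ℤ) 27 := by norm_num
    exact_mod_cast this.mul_dvd b64 b27
  obtain ⟨a2, ha2⟩ : ∃ a2, B = 1 + 4 * a2 := ⟨-81 * k + 88 * β - 61, by rw [hB, hk]; ring⟩
  have hc4 : (⟨1, a2, 0, b4, b6⟩ : WeierstrassCurve ℤ).c₄ = c4 := by
    simp only [c₄, b₂, b₄]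
    linear_combination hb4 - (B + 1 + 4 * a2) * ha2
  have hc6 : (⟨1, a2, 0, b4, b6⟩ : WeierstrassCurve ℤ).c₆ = c6 := by
    simp only [c₆, b₂, b₄, b₆]
    have e1 : (1 : ℤ) ^ 2 + 4 * a2 = B := by rw [ha2]; ring
    rw [e1]
    have e2 : 2 * (-B ^ 3 + 36 * B * (2 * b4 + 1 * 0) - 216 * (0 ^ 2 + 4 * b6)) = 2 * c6 := by
      linear_combination hb6 - 3 * B * hb4
    linarith
  refine ⟨⟨1, a2, 0, b4, b6⟩, hc4, hc6, ?_⟩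
  have := (⟨1, a2, 0, b4, b6⟩ : WeierstrassCurve ℤ).c_relation
  rw [hc4, hc6, h] at this
  linarith

end Fermat.Agent.ZCurve
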