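import Mathlib
import Fermat.Agent.ZCurve.Box
import Fermat.Agent.ZCurve.Count3
import Fermat.Agent.ZCurve.Model
import Fermat.Prelude.Def_FLTPrelim_Modularity

set_option autoImplicit false

/-!
# The auxiliary curve in the Hesse pencil
-/

namespace Fermat.Agent.ZCurve

open WeierstrassCurve Fermat.Agent.S52
open Fermat.Agent.S52A (Qv Qd Qd_ne_zero)

lemma locThree_scale {c4 c6 : ℤ} (h : LocThree (4 ^ 4 * c4) (4 ^ 6 * c6)) : LocThree c4 c6 := by
  obtain ⟨β, ⟨r, hr⟩, ⟨s, hs⟩⟩ := h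
  refine ⟨22 * β, ?_, ?_⟩
  · have h1 : (27 : ℤ) ∣ 4 ^ 6 * ((22 * β) ^ 3 - 3 * (22 * β) * c4 - 2 * c6) := by
      refine ⟨r + 13 * β * (352 ^ 2 + 352 + 1) * β ^ 2 - 3 * 13 * β * 4 ^ 4 * c4, ?_⟩
      linear_combination hr
    exact (by norm_num : IsCoprime (27 : ℤ) (4 ^ 6)).dvd_of_dvd_mul_left h1
  · have h1 : (3 : ℤ) ∣ 4 ^ 4 * ((22 * β) ^ 2 - c4) := by
      refine ⟨s + 41301 * β ^ 2, ?_⟩
      linear_combination hs
    exact (by norm_num : IsCoprime (3 : ℤ) (4 ^ 4)).dvd_of_dvd_mul_left h1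

/-- global data extracted from the sieve -/
theorem exists_xy {Δ a b : ℤ} (h : a ^ 3 - b ^ 2 = 1728 * Δ) (hΔ : Δ ≠ 0) (h2 : 2 ∣ Δ)
    (hb : b % 4 = 3) (ha : a ≠ 0) (hgood : ∀ p : ℕ, p.Prime → (p : ℤ) ∣ Δ → ¬ (p : ℤ) ∣ a)
    (h3 : LocThree a b) (B : ℕ) (hB : B ≠ 0) :
    ∃ (x y : ℤ) (S : Finset ℕ) (l : ℕ), B.primeFactors ⊆ S ∧ l.Prime ∧ ¬ (l : ℤ) ∣ 6 * Δ ∧ l ∈ S ∧ LocAux l a b x y ∧
      LocTwo Δ a b x y ∧ LocThree (C4f a b x y) (C6f a b x y) ∧
      (∀ p ∈ S, p.Prime ∧ (p ≠ 2 → LocOdd p Δ a b x y)) ∧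
      (∀ p : ℕ, p.Prime → (p : ℤ) ∣ 6 * (a ^ 3 - b ^ 2) → p ∈ S) ∧
      IsCoprime x y ∧ (∀ p : ℕ, p.Prime → p ∉ S → ¬ ((p : ℤ) ^ 2) ∣ Df a b x y) ∧
      Δ * Df a b x y < 0 ∧ 1024 ≤ |Df a b x y| := by
  classical
  have hab : a ^ 3 - b ^ 2 ≠ 0 := by rw [h]; exact mul_ne_zero (by norm_num) hΔ
  obtain ⟨l, hl, hlm, t, ht⟩ := exists_prime_root a b (6 * (a ^ 3 - b ^ 2) * a) ha
    (mul_ne_zero (mul_ne_zero (by norm_num) hab) ha)
  have : Fact l.Prime := ⟨hl⟩
  have hl6 : ¬ (l : ℤ) ∣ 6 * (a ^ 3 - b ^ 2) := fun h => hlm (Dvd.dvd.mul_right h _)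
  have hla : ¬ (l : ℤ) ∣ a := fun h => hlm (Dvd.dvd.mul_left h _)
  have hlΔ : ¬ (l : ℤ) ∣ 6 * Δ := by
    intro hd; apply hl6; rw [h]
    have : 6 * (1728 * Δ) = (6 * Δ) * 1728 := by ring
    rw [this]
    exact Dvd.dvd.mul_right hd _
  have hlΔ' : ¬ (l : ℤ) ∣ Δ := fun h => hlΔ (Dvd.dvd.mul_left h _)
  have hl2 : l ≠ 2 := by
    rintro rfl; apply hl6; exact Dvd.dvd.mul_right (by norm_num) _
  have hl3 : l ≠ 3 := by
    rintro rfl; apply hl6; exact Dvd.dvd.mul_right (by norm_num) _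
  set S : Finset ℕ := insert l (((6 * (a ^ 3 - b ^ 2)).natAbs.primeFactors ∪
    (Finset.range 101).filter Nat.Prime) ∪ B.primeFactors) with hS
  have hSp : ∀ p ∈ S, p.Prime := by
    intro p hp
    rw [hS, Finset.mem_insert, Finset.mem_union, Finset.mem_union] at hp
    rcases hp with rfl | (hp | hp) | hp
    · exact hl
    · exact Nat.prime_of_mem_primeFactors hp
    · exact (Finset.mem_filter.mp hp).2
    · exact Nat.prime_of_mem_primeFactors hp
  have hSbad : ∀ p : ℕ, p.Prime → (p : ℤ) ∣ 6 * (a ^ 3 - b ^ 2) → p ∈ S := by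
    intro p hp hd
    rw [hS]
    apply Finset.mem_insert_of_mem
    apply Finset.mem_union_left
    apply Finset.mem_union_left
    rw [Nat.mem_primeFactors]
    refine ⟨hp, Int.natCast_dvd.mp hd, ?_⟩
    rw [Int.natAbs_ne_zero]
    exact mul_ne_zero (by norm_num) hab
  have hS100 : ∀ p : ℕ, p.Prime → p ≤ 100 → p ∈ S := by
    intro p hp hd
    rw [hS]
    apply Finset.mem_insert_of_mem
    apply Finset.mem_union_left
    apply Finset.mem_union_right
    rw [Finset.mem_filter, Finset.mem_range]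
    exact ⟨by omega, hp⟩
  have h2S : 2 ∈ S := hS100 2 Nat.prime_two (by norm_num)
  have h3S : 3 ∈ S := hS100 3 Nat.prime_three (by norm_num)
  have hlS : l ∈ S := Finset.mem_insert_self _ _
  -- local choices
  let G : ℕ → ℤ → ℤ → Prop := fun p x y => (p = 2 → LocTwo Δ a b x y) ∧
    (p ≠ 2 → LocOdd p Δ a b x y) ∧ (p = 3 → LocThree (C4f a b x y) (C6f a b x y)) ∧
    (p = l → LocAux l a b x y)
  have hloc : ∀ p : ℕ, ∃ f g : ℕ, p ∈ S → (¬ (p ∣ f ∧ p ∣ g) ∧ ∀ x y : ℤ,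
      ((p : ℕ) : ℤ) ^ 4 ∣ x - f → ((p : ℕ) : ℤ) ^ 4 ∣ y - g → G p x y) := by
    intro p
    by_cases hpS : p ∈ S
    · have hp := hSp p hpS
      have : Fact p.Prime := ⟨hp⟩
      by_cases hp2 : p = 2
      · subst hp2
        obtain ⟨f, g, h1, h2'⟩ := local_two h hΔ h2 hb
        refine ⟨f, g, fun _ => ⟨h1, fun x y hx hy => ⟨fun _ => h2' x y hx hy,
          fun hh => absurd rfl hh, fun hh => absurd hh (by norm_num),
          fun hh => absurd hh.symm hl2⟩⟩⟩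
      · by_cases hpl : p = l
        · subst hpl
          obtain ⟨f, g, h1, h2'⟩ := local_aux hl6 hla ht
          refine ⟨f, g, fun _ => ⟨h1, fun x y hx hy => ⟨fun hh => absurd hh hp2,
            fun _ => ⟨fun _ => (h2' x y hx hy).1, fun hh => absurd hh hlΔ'⟩,
            fun hh => absurd hh hl3, fun _ => h2' x y hx hy⟩⟩⟩
        · obtain ⟨f, g, h1, h2'⟩ := local_odd h hp2 (hgood p hp) h3
          refine ⟨f, g, fun _ => ⟨h1, fun x y hx hy => ⟨fun hh => absurd hh hp2,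
            fun _ => (h2' x y hx hy).1, (h2' x y hx hy).2, fun hh => absurd hh hpl⟩⟩⟩
    · exact ⟨0, 0, fun hh => absurd hh hpS⟩
  choose f g hfg using hloc
  obtain ⟨x0, hx0, hx0'⟩ := exists_crt S hSp f
  obtain ⟨y0, hy0, hy0'⟩ := exists_crt S hSp g
  set Q : ℕ := ∏ p ∈ S, p ^ 4 with hQ
  have hQ0 : 0 < Q := Finset.prod_pos fun p hp => pow_pos (hSp p hp).pos 4
  have hQp : ∀ p : ℕ, p.Prime → (p ∣ Q ↔ p ∈ S) := by
    intro p hp
    constructor
    · intro hd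
      obtain ⟨q, hq, hd'⟩ := (hp.prime.dvd_finsetProd_iff _).mp hd
      have := (Nat.prime_dvd_prime_iff_eq hp (hSp q hq)).mp (hp.dvd_of_dvd_pow hd')
      rwa [this]
    · intro hpS
      exact (dvd_pow_self p (by norm_num)).trans (Finset.dvd_prod_of_mem _ hpS)
  have hQ4 : ∀ p ∈ S, ((p : ℕ) : ℤ) ^ 4 ∣ (Q : ℤ) := by
    intro p hp
    have : p ^ 4 ∣ Q := Finset.dvd_prod_of_mem (fun p => p ^ 4) hp
    exact_mod_cast Int.natCast_dvd_natCast.mpr this
  have hcop : ∀ p : ℕ, p.Prime → p ∣ Q → ¬ (p ∣ x0 ∧ p ∣ y0) := by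
    intro p hp hpQ ⟨hx, hy⟩
    have hpS := (hQp p hp).mp hpQ
    apply (hfg p hpS).1
    have e1 := natCast_pow_dvd (k := 1) (by norm_num) (hx0' p hpS)
    have e2 := natCast_pow_dvd (k := 1) (by norm_num) (hy0' p hpS)
    rw [pow_one] at e1 e2
    constructor
    · have := dvd_sub (Int.natCast_dvd_natCast.mpr hx) e1
      rw [sub_sub_cancel] at this
      exact Int.natCast_dvd_natCast.mp this
    · have := dvd_sub (Int.natCast_dvd_natCast.mpr hy) e2
      rw [sub_sub_cancel] at this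
      exact Int.natCast_dvd_natCast.mp this
  -- the box
  obtain ⟨α, β, γ, δ, hβ, hδ, hbox⟩ : ∃ α β γ δ : ℕ, 0 < β ∧ 0 < δ ∧
      ∀ n i j : ℕ, 1024 ≤ n → i ∈ Finset.Ico (α * n) (α * n + β * n) →
      j ∈ Finset.Ico (γ * n) (γ * n + δ * n) →
      Δ * Df a b (xv Q x0 i) (xv Q y0 j) < 0 ∧ 1024 ≤ |Df a b (xv Q x0 i) (xv Q y0 j)| := by
    rcases lt_or_gt_of_ne hΔ with hneg | hpos
    · set c : ℕ := (6 * |a| + 8 * |b| + 3 * a ^ 2 + 1).toNat with hc
      have hc' : (c : ℤ) = 6 * |a| + 8 * |b| + 3 * a ^ 2 + 1 := Int.toNat_of_nonneg (by positivity)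
      refine ⟨c, 1, 0, 1, one_pos, one_pos, fun n i j hn hi hj => ?_⟩
      rw [Finset.mem_Ico] at hi hj
      have hc1 : 1 ≤ c := by
        have : (1 : ℤ) ≤ c := by
          rw [hc']; have := abs_nonneg a; have := abs_nonneg b; have := sq_nonneg a; linarith
        exact_mod_cast this
      have hin : n ≤ i := by nlinarith [hi.1]
      have hy := xv_nonneg Q y0 j
      have hyn : xv Q y0 j ≤ ((Q * n : ℕ) : ℤ) := xv_le hy0 (by omega)
      have hxn : ((Q * (c * n) : ℕ) : ℤ) ≤ xv Q x0 i := by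
        simp only [xv]
        have : Q * (c * n) ≤ x0 + Q * i := by nlinarith [hi.1]
        exact_mod_cast this
      have hx1 : (1024 : ℤ) ≤ xv Q x0 i := by
        have : (1024 : ℤ) ≤ ((Q * (c * n) : ℕ) : ℤ) := by
          have : 1024 ≤ Q * (c * n) := by
            calc 1024 ≤ n := hn
              _ = 1 * (1 * n) := by ring
              _ ≤ Q * (c * n) := Nat.mul_le_mul hQ0 (Nat.mul_le_mul hc1 le_rfl)
          exact_mod_cast this
        linarith
      have hD := Df_pos_large (a := a) (b := b) hy (by linarith) (by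
        rw [← hc']
        calc (c : ℤ) * xv Q y0 j ≤ c * ((Q * n : ℕ) : ℤ) :=
              mul_le_mul_of_nonneg_left hyn (by positivity)
          _ = ((Q * (c * n) : ℕ) : ℤ) := by push_cast; ring
          _ ≤ xv Q x0 i := hxn)
      refine ⟨mul_neg_of_neg_of_pos hneg (by linarith), ?_⟩
      rw [abs_of_nonneg (by linarith)]
      linarith
    · set c : ℕ := (1 + 6 * |a| + 8 * |b|).toNat with hc
      have hc' : (c : ℤ) = 1 + 6 * |a| + 8 * |b| := Int.toNat_of_nonneg (by positivity)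
      refine ⟨0, 1, c, 1, one_pos, one_pos, fun n i j hn hi hj => ?_⟩
      rw [Finset.mem_Ico] at hi hj
      have hc1 : 1 ≤ c := by
        have : (1 : ℤ) ≤ c := by rw [hc']; have := abs_nonneg a; have := abs_nonneg b; linarith
        exact_mod_cast this
      have hx := xv_nonneg Q x0 i
      have hxn : xv Q x0 i ≤ ((Q * n : ℕ) : ℤ) := xv_le hx0 (by omega)
      have hyn : ((Q * (c * n) : ℕ) : ℤ) ≤ xv Q y0 j := by
        simp only [xv]
        have : Q * (c * n) ≤ y0 + Q * j := by nlinarith [hj.1]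
        exact_mod_cast this
      have hy1 : (1024 : ℤ) ≤ xv Q y0 j := by
        have : (1024 : ℤ) ≤ ((Q * (c * n) : ℕ) : ℤ) := by
          have : 1024 ≤ Q * (c * n) := by
            calc 1024 ≤ n := hn
              _ = 1 * (1 * n) := by ring
              _ ≤ Q * (c * n) := Nat.mul_le_mul hQ0 (Nat.mul_le_mul hc1 le_rfl)
          exact_mod_cast this
        linarith
      have hD := Df_neg_large (a := a) (b := b) ha hx (by linarith) (by
        rw [← hc']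
        calc (c : ℤ) * xv Q x0 i ≤ c * ((Q * n : ℕ) : ℤ) :=
              mul_le_mul_of_nonneg_left hxn (by positivity)
          _ = ((Q * (c * n) : ℕ) : ℤ) := by push_cast; ring
          _ ≤ xv Q y0 j := hyn)
      refine ⟨mul_neg_of_pos_of_neg hpos (by linarith), ?_⟩
      rw [abs_of_neg (by linarith)]
      linarith
  obtain ⟨n, i, j, hn, hn0, hi, hj, hcopr, hsq⟩ := exists_squarefree a b Q x0 y0 hQ0 hx0 hy0
    (fun p hp h100 => (hQp p hp).mpr (hS100 p hp h100))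
    (fun p hp hd => (hQp p hp).mpr (hSbad p hp hd)) hcop α β γ δ hβ hδ 1024
    (fun n i j hn _ hi hj h0 => by
      have := (hbox n i j hn hi hj).2
      rw [h0] at this
      norm_num at this)
  have hG : ∀ p ∈ S, G p (xv Q x0 i) (xv Q y0 j) := by
    intro p hp
    apply (hfg p hp).2
    · have e : xv Q x0 i - (f p : ℤ) = ((x0 : ℤ) - f p) + Q * i := by simp only [xv]; ring
      rw [e]
      exact dvd_add (hx0' p hp) (Dvd.dvd.mul_right (hQ4 p hp) _)
    · have e : xv Q y0 j - (g p : ℤ) = ((y0 : ℤ) - g p) + Q * j := by simp only [xv]; ring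
      rw [e]
      exact dvd_add (hy0' p hp) (Dvd.dvd.mul_right (hQ4 p hp) _)
  obtain ⟨hb1, hb2⟩ := hbox n i j hn hi hj
  refine ⟨xv Q x0 i, xv Q y0 j, S, l,
    fun p hp => Finset.mem_insert_of_mem (Finset.mem_union_right _ hp), hl, hlΔ, hlS, (hG l hlS).2.2.2 rfl, (hG 2 h2S).1 rfl,
    (hG 3 h3S).2.2.1 rfl, fun p hp => ⟨hSp p hp, (hG p hp).2.1⟩, hSbad, hcopr, ?_, hb1, hb2⟩
  intro p hp hpS
  exact hsq p hp (fun hh => hpS ((hQp p hp).mp hh))

lemma prime_two_or_odd_dvd {D : ℤ} (h1 : ¬ (2 : ℤ) ^ 10 ∣ D) (h2 : 1024 ≤ |D|) :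
    ∃ p : ℕ, p.Prime ∧ Odd p ∧ (p : ℤ) ∣ D := by
  rcases Nat.eq_two_pow_or_exists_odd_prime_and_dvd D.natAbs with ⟨k, hk⟩ | ⟨p, hp, hpd, hpo⟩
  · exfalso
    have h3 : (D.natAbs : ℤ) = |D| := Int.natCast_natAbs D
    have h4 : 2 ^ 10 ≤ 2 ^ k := by
      rw [← hk]; have : ((2 ^ 10 : ℕ) : ℤ) ≤ (D.natAbs : ℤ) := by rw [h3]; norm_num; exact h2
      exact_mod_cast this
    have h5 : 10 ≤ k := (Nat.pow_le_pow_iff_right (by norm_num)).mp h4
    apply h1
    rw [← Int.dvd_natAbs, hk]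
    push_cast
    exact pow_dvd_pow _ h5
  · exact ⟨p, hp, hpo, Int.natCast_dvd.mpr hpd⟩

lemma padicValInt_pow' {p : ℕ} [Fact p.Prime] {z : ℤ} (hz : z ≠ 0) {n : ℕ} :
    padicValInt p (z ^ n) = n * padicValInt p z := by
  simp only [padicValInt, Int.natAbs_pow]
  exact padicValNat.pow _ _

/-- no rational 2-torsion, from the reduction -/
lemma no_two_torsion (V : WeierstrassCurve ℤ) {l : ℕ} (hl : ∀ X : ZMod l,
    X ^ 3 - 27 * (V.c₄ : ZMod l) * X - 54 * (V.c₆ : ZMod l) ≠ 0) (r : ℚ) :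
    4 * r ^ 3 + V.b₂ * r ^ 2 + 2 * V.b₄ * r + V.b₆ ≠ 0 := by
  intro hr
  let P : Polynomial ℤ := Polynomial.X ^ 3 - Polynomial.C (27 * V.c₄) * Polynomial.X
    - Polynomial.C (54 * V.c₆)
  have hP : P.Monic := by
    simp only [P]; monicity!
  have hev : ∀ (K : Type) [Field K] [CharZero K] (r : K), Polynomial.aeval r P
      = r ^ 3 - 27 * (V.c₄ : K) * r - 54 * (V.c₆ : K) := by
    intro K _ _ r
    simp [P, map_ofNat]
  have hroot : Polynomial.aeval (36 * r + 3 * V.b₂ : ℚ) P = 0 := by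
    rw [hev]
    simp only [WeierstrassCurve.c₄, WeierstrassCurve.c₆]
    push_cast
    linear_combination 11664 * hr
  obtain ⟨x, hx, -⟩ := exists_integer_of_is_root_of_monic hP hroot
  have h1 : Polynomial.aeval (x : ℚ) P = 0 := by
    have : ((x : ℤ) : ℚ) = 36 * r + 3 * V.b₂ := by rw [hx]; simp
    rw [this]; exact hroot
  rw [hev] at h1
  have h2 : x ^ 3 - 27 * V.c₄ * x - 54 * V.c₆ = 0 := by exact_mod_cast h1
  apply hl (x : ZMod l)
  have h3 := congrArg (Int.cast : ℤ → ZMod l) h2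
  push_cast at h3
  exact h3

/-- Theorem Z, step 0: the auxiliary curve. -/
theorem exists_aux_curve (W : WeierstrassCurve ℤ) (hss : W.IsSemistableModel) (hΔ : W.Δ ≠ 0)
    (h2 : 2 ∣ W.Δ) (B : ℕ) (hB : B ≠ 0) :
    ∃ W1 : WeierstrassCurve ℤ, W1.IsSemistableModel ∧ W1.Δ < 0 ∧ 2 ∣ W1.Δ ∧
      (∃ p : ℕ, p.Prime ∧ Odd p ∧ (p : ℤ) ∣ W1.Δ) ∧
      (∀ p : ℕ, p.Prime → (p : ℤ) ∣ W1.Δ → Odd (padicValInt p W1.Δ)) ∧
      (∀ x : ℚ, 4 * x ^ 3 + W1.b₂ * x ^ 2 + 2 * W1.b₄ * x + W1.b₆ ≠ 0) ∧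
      (∃ l : ℕ, l.Prime ∧ Odd l ∧ W1.IsGoodPrimeFor l ∧ Odd (W1.apOfModel l)) ∧
      (∀ q : ℕ, q.Prime → q ∣ B → (q : ℤ) ∣ W1.Δ → (q : ℤ) ∣ W.Δ) ∧
      ∀ l : ℕ, l.Prime → l ≠ 3 → W.IsGoodPrimeFor l → W1.IsGoodPrimeFor l →
        (3 : ℤ) ∣ W.apOfModel l - W1.apOfModel l := by
  set a := W.c₄ with ha
  set b := W.c₆ with hb
  have hrel : a ^ 3 - b ^ 2 = 1728 * W.Δ := W.c_relation.symm
  have ha2 : ¬ (2 : ℤ) ∣ a := by
    have := hss 2 Nat.prime_two (by exact_mod_cast h2)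
    exact_mod_cast this
  have ha0 : a ≠ 0 := by intro h0; rw [h0] at ha2; exact ha2 (dvd_zero _)
  have ha1o : Odd W.a₁ := by
    by_contra hcon
    rw [Int.not_odd_iff_even] at hcon
    obtain ⟨k, hk⟩ := hcon
    apply ha2
    rw [ha]
    simp only [c₄, b₂, b₄]
    rw [hk]
    exact ⟨((k + k) * k + 2 * W.a₂) ^ 2 * 2 - 12 * (2 * W.a₄ + (k + k) * W.a₃), by ring⟩
  have hb4 : b % 4 = 3 := by
    obtain ⟨k, hk⟩ := ha1o
    have e2 : W.b₂ = 1 + 4 * (k ^ 2 + k + W.a₂) := by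
      simp only [b₂]; rw [hk]; ring
    obtain ⟨w, hw⟩ : ∃ w, b = 4 * w - 1 := by
      refine ⟨-(3 * (k ^ 2 + k + W.a₂) + 12 * (k ^ 2 + k + W.a₂) ^ 2 +
        16 * (k ^ 2 + k + W.a₂) ^ 3) + 9 * W.b₂ * W.b₄ - 54 * W.b₆, ?_⟩
      rw [hb]
      simp only [c₆]
      rw [e2]; ring
    omega
  have h3 : LocThree a b := by
    refine ⟨W.b₂, ⟨16 * W.b₆, ?_⟩, ⟨8 * W.b₄, ?_⟩⟩
    · rw [ha, hb]; simp only [c₄, c₆]; ring
    · rw [ha]; simp only [c₄]; ring
  obtain ⟨x, y, S, l, hBS, hl, hlΔ, hlS, hAux, hTwo, hThree, hOdd, hbad, hcop, hsq, hsign, hbig⟩ :=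
    exists_xy hrel hΔ h2 hb4 ha0 (fun p hp hd => hss p hp hd) h3 B hB
  set D := Df a b x y with hD
  have hD0 : D ≠ 0 := by
    intro h0; rw [h0, mul_zero] at hsign; exact lt_irrefl _ hsign
  obtain ⟨u, c4, c6, Δ1, hu, h4, h6, hc6, hΔ1, hv2, h1024⟩ := hTwo
  have hu0 : u ≠ 0 := by rcases hu with rfl | rfl <;> norm_num
  have hup : ∀ p : ℕ, p.Prime → p ≠ 2 → ¬ (p : ℤ) ∣ u := by
    intro p hp hp2 hd
    rcases hu with rfl | rfl
    · exact hp.one_lt.ne' (by exact_mod_cast Int.eq_one_of_dvd_one (by positivity) hd)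
    · have : p ∣ 2 ^ 2 := by exact_mod_cast hd
      exact hp2 ((Nat.prime_dvd_prime_iff_eq hp Nat.prime_two).mp (hp.dvd_of_dvd_pow this))
  have hrel1 : c4 ^ 3 - c6 ^ 2 = 1728 * Δ1 := by
    have e : u ^ 12 * (c4 ^ 3 - c6 ^ 2) = u ^ 12 * (1728 * Δ1) := by
      have := form_id a b x y
      rw [h4, h6, hrel, ← hD] at this
      linear_combination this + 1728 * hΔ1
    exact mul_left_cancel₀ (pow_ne_zero _ hu0) e
  have hL3 : LocThree c4 c6 := by
    rw [h4, h6] at hThree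
    rcases hu with rfl | rfl
    · simpa using hThree
    · exact locThree_scale hThree
  obtain ⟨β, hβ1, hβ2⟩ := hL3
  obtain ⟨W1, hc4W, hc6W, hΔW⟩ := exists_model hrel1 hc6 hβ1 hβ2
  have hΔ1neg : Δ1 < 0 := by
    have h12 : 0 < u ^ 12 := by positivity
    have hDD : 0 < D ^ 2 := by positivity
    have h5 : u ^ 12 * Δ1 < 0 := by
      rw [← hΔ1]
      have : D ^ 3 * W.Δ = D ^ 2 * (W.Δ * D) := by ring
      rw [this]
      exact mul_neg_of_pos_of_neg hDD hsign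
    by_contra hcon
    have := mul_nonneg h12.le (not_lt.mp hcon)
    linarith
  have hΔ10 : Δ1 ≠ 0 := hΔ1neg.ne
  have h2Δ1 : (2 : ℤ) ∣ Δ1 := by
    have h5 : 1 ≤ padicValInt 2 Δ1 := hv2.pos
    have := (padicValInt_dvd_iff (p := 2) 1 Δ1).mpr (Or.inr h5)
    simpa using this
  -- divisibility transfer
  have htrans : ∀ p : ℕ, p.Prime → p ≠ 2 → ((p : ℤ) ∣ Δ1 ↔ (p : ℤ) ∣ W.Δ ∨ (p : ℤ) ∣ D) := by
    intro p hp hp2
    have hP := Nat.prime_iff_prime_int.mp hp
    constructor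
    · intro hd
      have h5 : (p : ℤ) ∣ D ^ 3 * W.Δ := by rw [hΔ1]; exact Dvd.dvd.mul_left hd _
      rcases hP.dvd_or_dvd h5 with h6 | h6
      · exact Or.inr (hP.dvd_of_dvd_pow h6)
      · exact Or.inl h6
    · intro hd
      have h5 : (p : ℤ) ∣ u ^ 12 * Δ1 := by
        rw [← hΔ1]
        rcases hd with hd | hd
        · exact Dvd.dvd.mul_left hd _
        · exact Dvd.dvd.mul_right (hd.trans (dvd_pow_self _ (by norm_num))) _
      exact (hP.dvd_or_dvd h5).resolve_left (fun h6 => hup p hp hp2 (hP.dvd_of_dvd_pow h6))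
  have hnotS : ∀ p : ℕ, p.Prime → p ∉ S → p ≠ 2 ∧ p ≠ 3 ∧ ¬ (p : ℤ) ∣ W.Δ ∧
      (2 : ZMod p) ≠ 0 ∧ (3 : ZMod p) ≠ 0 ∧ (a : ZMod p) ^ 3 ≠ (b : ZMod p) ^ 2 := by
    intro p hp hpS
    have h5 : ¬ (p : ℤ) ∣ 6 * (a ^ 3 - b ^ 2) := fun h => hpS (hbad p hp h)
    have h6 : (((6 * (a ^ 3 - b ^ 2) : ℤ)) : ZMod p) ≠ 0 := by
      rw [Ne, ZMod.intCast_zmod_eq_zero_iff_dvd]; exact h5
    push_cast at h6
    refine ⟨?_, ?_, ?_, ?_, ?_, ?_⟩
    · rintro rfl; exact h5 (Dvd.dvd.mul_right (by norm_num) _)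
    · rintro rfl; exact h5 (Dvd.dvd.mul_right (by norm_num) _)
    · intro hd; apply h5; rw [hrel]
      exact Dvd.dvd.mul_left (Dvd.dvd.mul_left hd _) _
    · intro h; apply h6; rw [show (6 : ZMod p) = 2 * 3 by norm_num, h]; ring
    · intro h; apply h6; rw [show (6 : ZMod p) = 2 * 3 by norm_num, h]; ring
    · intro h; apply h6; rw [h]; ring
  have hssW : W1.IsSemistableModel := by
    intro p hp hd
    rw [hΔW] at hd
    rw [hc4W]
    have hP := Nat.prime_iff_prime_int.mp hp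
    by_cases hp2 : p = 2
    · subst hp2
      intro h5
      have h5' : (2 : ℤ) ∣ c4 := by exact_mod_cast h5
      have h7 : (2 : ℤ) ∣ c6 ^ 2 := by
        have : c6 ^ 2 = c4 ^ 3 - 1728 * Δ1 := by linear_combination -hrel1
        rw [this]
        exact dvd_sub (dvd_pow h5' (by norm_num)) (Dvd.dvd.mul_right (by norm_num) _)
      have h8 := Int.prime_two.dvd_of_dvd_pow h7
      omega
    · rcases (htrans p hp hp2).mp hd with h5 | h5
      · have hpS : p ∈ S := hbad p hp (by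
          rw [hrel]; exact Dvd.dvd.mul_left (Dvd.dvd.mul_left h5 _) _)
        have h7 := (((hOdd p hpS).2 hp2).2 h5).1
        intro h8
        apply h7
        rw [h4]
        exact Dvd.dvd.mul_left h8 _
      · by_cases hpS : p ∈ S
        · by_cases h9 : (p : ℤ) ∣ W.Δ
          · have h7 := (((hOdd p hpS).2 hp2).2 h9).1
            intro h8
            apply h7
            rw [h4]
            exact Dvd.dvd.mul_left h8 _
          · exact absurd h5 (((hOdd p hpS).2 hp2).1 h9)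
        · obtain ⟨-, -, -, k2, k3, kab⟩ := hnotS p hp hpS
          have : Fact p.Prime := ⟨hp⟩
          intro h8
          have h9 : (p : ℤ) ∣ C4f a b x y := by rw [h4]; exact Dvd.dvd.mul_left h8 _
          rw [← ZMod.intCast_zmod_eq_zero_iff_dvd, cast_C4f] at h9
          rw [hD, ← ZMod.intCast_zmod_eq_zero_iff_dvd, cast_Df] at h5
          refine C4f_ne_zero k2 k3 kab ?_ h5 h9
          rintro ⟨e1, e2⟩
          rw [ZMod.intCast_zmod_eq_zero_iff_dvd] at e1 e2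
          have := hcop.isUnit_of_dvd' e1 e2
          exact hP.not_isUnit this
  have hval : ∀ p : ℕ, p.Prime → (p : ℤ) ∣ Δ1 → Odd (padicValInt p Δ1) := by
    intro p hp hd
    have : Fact p.Prime := ⟨hp⟩
    by_cases hp2 : p = 2
    · subst hp2; exact hv2
    · have hvv : padicValInt p Δ1 = padicValInt p W.Δ + 3 * padicValInt p D := by
        have e1 := congrArg (padicValInt p) hΔ1
        rw [padicValInt.mul (pow_ne_zero _ hD0) hΔ, padicValInt.mul (pow_ne_zero _ hu0) hΔ10,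
          padicValInt_pow' hD0, padicValInt_pow' hu0,
          padicValInt.eq_zero_of_not_dvd (hup p hp hp2)] at e1
        omega
      rw [hvv]
      by_cases hpS : p ∈ S
      · by_cases h9 : (p : ℤ) ∣ W.Δ
        · exact (((hOdd p hpS).2 hp2).2 h9).2
        · exact absurd (((htrans p hp hp2).mp hd).resolve_left h9)
            (((hOdd p hpS).2 hp2).1 h9)
      · obtain ⟨-, -, kΔ, -⟩ := hnotS p hp hpS
        have h5 := ((htrans p hp hp2).mp hd).resolve_left kΔ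
        rw [padicValInt.eq_zero_of_not_dvd kΔ, padicValInt_eq_one h5 (hsq p hp hpS)]
        decide
  -- the auxiliary prime
  have hlp : Fact l.Prime := ⟨hl⟩
  have hl2 : l ≠ 2 := by
    rintro rfl; exact hlΔ (Dvd.dvd.mul_right (by norm_num) _)
  have hlΔ' : ¬ (l : ℤ) ∣ W.Δ := fun h => hlΔ (Dvd.dvd.mul_left h _)
  have hlgood : W1.IsGoodPrimeFor l := by
    intro hd
    rw [hΔW] at hd
    rcases (htrans l hl hl2).mp hd with h5 | h5
    · exact hlΔ' h5
    · exact hAux.1 h5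
  have hul : ((u : ℤ) : ZMod l) ≠ 0 := by
    rw [Ne, ZMod.intCast_zmod_eq_zero_iff_dvd]; exact hup l hl hl2
  have hcub : ∀ X : ZMod l, X ^ 3 - 27 * (c4 : ZMod l) * X - 54 * (c6 : ZMod l) ≠ 0 := by
    intro X hX
    apply hAux.2 ((u : ZMod l) ^ 2 * X)
    rw [h4, h6]
    push_cast
    exact cubic_scale hX
  refine ⟨W1, hssW, by rw [hΔW]; exact hΔ1neg, by rw [hΔW]; exact h2Δ1, ?_, ?_, ?_, ?_, ?_, ?_⟩
  · obtain ⟨p, hp, hpo, hpD⟩ := prime_two_or_odd_dvd h1024 hbig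
    refine ⟨p, hp, hpo, ?_⟩
    rw [hΔW]
    apply (htrans p hp _).mpr (Or.inr hpD)
    rintro rfl
    exact absurd hpo (by decide)
  · intro p hp hd
    rw [hΔW] at hd ⊢
    exact hval p hp hd
  · -- no rational 2-torsion
    intro r
    refine no_two_torsion W1 (l := l) ?_ r
    rw [hc4W, hc6W]
    exact hcub
  · refine ⟨l, hl, hl.odd_of_ne_two hl2, hlgood, ?_⟩
    have hΔl : (W1.reductionMod l).Δ ≠ 0 := by
      rw [reductionMod, map_Δ, eq_intCast, Ne, ZMod.intCast_zmod_eq_zero_iff_dvd]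
      exact hlgood
    have hodd := odd_card (W1.reductionMod l) hΔl (by
      intro X
      simp only [reductionMod, map_c₄, map_c₆, eq_intCast, hc4W, hc6W]
      exact hcub X)
    have e : W1.apOfModel l = (l : ℤ) + 1 - (Nat.card (W1.reductionMod l).toAffine.Point : ℤ) := by
      simp only [WeierstrassCurve.apOfModel, WeierstrassCurve.traceOfFrobenius,
        WeierstrassCurve.card, Nat.card_zmod]
    rw [e]
    have h5 : Even ((l : ℤ) + 1) := by
      have := hl.odd_of_ne_two hl2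
      exact (Int.odd_coe_nat l |>.mpr this).add_odd odd_one
    exact h5.sub_odd (by exact_mod_cast hodd)
  · intro q hq hqB hqd
    by_cases hq2 : q = 2
    · subst hq2; exact_mod_cast h2
    · rw [hΔW] at hqd
      have hqS : q ∈ S := hBS (Nat.mem_primeFactors.mpr ⟨hq, hqB, hB⟩)
      rcases (htrans q hq hq2).mp hqd with h5 | h5
      · exact h5
      · by_contra h9
        exact ((hOdd q hqS).2 hq2).1 h9 h5
  · intro l' hl' hl3' hg hg'
    have hlp' : Fact l'.Prime := ⟨hl'⟩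
    have hl2' : l' ≠ 2 := by
      rintro rfl; exact hg (by exact_mod_cast h2)
    have h6' : ¬ (l' : ℤ) ∣ 6 * (a ^ 3 - b ^ 2) := by
      rw [hrel]
      have e : 6 * (1728 * W.Δ) = 2 ^ 7 * (3 ^ 4 * W.Δ) := by ring
      rw [e]
      intro hd
      have hP := Nat.prime_iff_prime_int.mp hl'
      rcases hP.dvd_or_dvd hd with h5 | h5
      · have := hP.dvd_of_dvd_pow h5
        exact hl2' ((Nat.prime_dvd_prime_iff_eq hl' Nat.prime_two).mp (by exact_mod_cast this))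
      · rcases hP.dvd_or_dvd h5 with h7 | h7
        · have := hP.dvd_of_dvd_pow h7
          exact hl3' ((Nat.prime_dvd_prime_iff_eq hl' Nat.prime_three).mp
            (by exact_mod_cast this))
        · exact hg h7
    have h6z : (((6 * (a ^ 3 - b ^ 2) : ℤ)) : ZMod l') ≠ 0 := by
      rw [Ne, ZMod.intCast_zmod_eq_zero_iff_dvd]; exact h6'
    push_cast at h6z
    have k2 : (2 : ZMod l') ≠ 0 := by
      intro h; apply h6z; rw [show (6 : ZMod l') = 2 * 3 by norm_num, h]; ring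
    have k3 : (3 : ZMod l') ≠ 0 := by
      intro h; apply h6z; rw [show (6 : ZMod l') = 2 * 3 by norm_num, h]; ring
    have kab : (a : ZMod l') ^ 3 ≠ (b : ZMod l') ^ 2 := by
      intro h; apply h6z; rw [h]; ring
    have kD : Df (a : ZMod l') (b : ZMod l') (x : ZMod l') (y : ZMod l') ≠ 0 := by
      rw [← cast_Df, Ne, ZMod.intCast_zmod_eq_zero_iff_dvd]
      intro h5
      apply hg'
      rw [hΔW]
      exact (htrans l' hl' hl2').mpr (Or.inr h5)
    have hcount := count_short3 k2 k3 kab kD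
    have kΔ : (W.reductionMod l').Δ ≠ 0 := by
      rw [reductionMod, map_Δ, eq_intCast, Ne, ZMod.intCast_zmod_eq_zero_iff_dvd]
      exact hg
    have kΔ' : (W1.reductionMod l').Δ ≠ 0 := by
      rw [reductionMod, map_Δ, eq_intCast, Ne, ZMod.intCast_zmod_eq_zero_iff_dvd]
      exact hg'
    have hc1 : Nat.card (W.reductionMod l').toAffine.Point
        = Nat.card (shortE (a : ZMod l') (b : ZMod l')).toAffine.Point := by
      rw [S52A.card_short (W.reductionMod l') k2 k3 kΔ]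
      simp only [reductionMod, map_c₄, map_c₆, eq_intCast, ← ha, ← hb]
    have kab1 : (c4 : ZMod l') ^ 3 ≠ (c6 : ZMod l') ^ 2 := by
      intro h5
      have h7 : ((c4 ^ 3 - c6 ^ 2 : ℤ) : ZMod l') = 0 := by push_cast; rw [h5, sub_self]
      rw [hrel1, ZMod.intCast_zmod_eq_zero_iff_dvd] at h7
      have e : 1728 * Δ1 = 2 ^ 6 * (3 ^ 3 * Δ1) := by ring
      rw [e] at h7
      have hP := Nat.prime_iff_prime_int.mp hl'
      rcases hP.dvd_or_dvd h7 with h5 | h5
      · have := hP.dvd_of_dvd_pow h5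
        exact hl2' ((Nat.prime_dvd_prime_iff_eq hl' Nat.prime_two).mp (by exact_mod_cast this))
      · rcases hP.dvd_or_dvd h5 with h7 | h7
        · have := hP.dvd_of_dvd_pow h7
          exact hl3' ((Nat.prime_dvd_prime_iff_eq hl' Nat.prime_three).mp
            (by exact_mod_cast this))
        · exact hg' (by rw [hΔW]; exact h7)
    have ku : (u : ZMod l') ≠ 0 := by
      rw [Ne, ZMod.intCast_zmod_eq_zero_iff_dvd]; exact hup l' hl' hl2'
    have hc2 : Nat.card (W1.reductionMod l').toAffine.Point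
        = Nat.card (shortE (C4f (a : ZMod l') (b : ZMod l') (x : ZMod l') (y : ZMod l'))
            (C6f (a : ZMod l') (b : ZMod l') (x : ZMod l') (y : ZMod l'))).toAffine.Point := by
      rw [S52A.card_short (W1.reductionMod l') k2 k3 kΔ', ← cast_C4f, ← cast_C6f, h4, h6]
      push_cast
      rw [card_shortE_scale k2 k3 kab1 ku]
      simp only [reductionMod, map_c₄, map_c₆, eq_intCast, hc4W, hc6W]
    have hfin : W.apOfModel l' - W1.apOfModel l'
        = -((Nat.card (shortE (a : ZMod l') (b : ZMod l')).toAffine.Point : ℤ)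
          - (Nat.card (shortE (C4f (a : ZMod l') (b : ZMod l') (x : ZMod l') (y : ZMod l'))
            (C6f (a : ZMod l') (b : ZMod l') (x : ZMod l') (y : ZMod l'))).toAffine.Point : ℤ)) := by
      simp only [WeierstrassCurve.apOfModel, WeierstrassCurve.traceOfFrobenius,
        WeierstrassCurve.card, hc1, hc2]
      ring
    rw [hfin]
    exact (dvd_neg).mpr hcount

end Fermat.Agent.ZCurve
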